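/-
S41 / Menn (L3b): abstract Mennicke-type argument for `Γ₀(N)[1/q]`.
Basic layer: the ring `ℤ[1/q] ⊂ ℚ`, congruence ideals, the groups `G = Γ₀(N)(ℤ[1/q])`,
`K M = Γ(M)(ℤ[1/q])` inside `SL(2, ℚ)`, elementary and torus elements, the 4-factor identity,
"parabolic homs" (functions on `SL(2,ℚ)` multiplicative on `G` and killing unipotents of `G`),
first-row lemma and the unit lemma.  Mathlib only.
-/
import Mathlib

set_option autoImplicit false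
set_option linter.unusedSectionVars false
set_option linter.unusedTactic false
set_option linter.unreachableTactic false
set_option linter.unnecessarySeqFocus false
set_option linter.unusedSimpArgs false

namespace Fermat.Agent.S41.Menn

open Matrix

/-- ambient group -/
abbrev SLQ := Matrix.SpecialLinearGroup (Fin 2) ℚ

/-- `x ∈ M·ℤ[1/q]` (for `M = 1`: `x ∈ ℤ[1/q]`). -/
def AQm (q : ℕ) (M : ℤ) (x : ℚ) : Prop := ∃ (n : ℤ) (k : ℕ), x = (M * n : ℤ) / (q : ℚ) ^ k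

/-- `x ∈ ℤ[1/q]`. -/
abbrev AQ (q : ℕ) (x : ℚ) : Prop := AQm q 1 x

section ring
variable {q : ℕ} (hq : 0 < q)
include hq

theorem qpow_ne (k : ℕ) : ((q : ℚ) ^ k) ≠ 0 := pow_ne_zero _ (by exact_mod_cast hq.ne')

theorem AQm.add {M : ℤ} {x y : ℚ} (hx : AQm q M x) (hy : AQm q M y) : AQm q M (x + y) := by
  obtain ⟨n, k, rfl⟩ := hx
  obtain ⟨n', k', rfl⟩ := hy
  refine ⟨n * q ^ k' + n' * q ^ k, k + k', ?_⟩
  have h1 := qpow_ne hq k
  have h2 := qpow_ne hq k'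
  field_simp
  push_cast
  ring

theorem AQm.neg {M : ℤ} {x : ℚ} (hx : AQm q M x) : AQm q M (-x) := by
  obtain ⟨n, k, rfl⟩ := hx
  refine ⟨-n, k, ?_⟩
  push_cast
  ring

theorem AQm.sub {M : ℤ} {x y : ℚ} (hx : AQm q M x) (hy : AQm q M y) : AQm q M (x - y) := by
  rw [sub_eq_add_neg]
  exact AQm.add hq hx (AQm.neg hq hy)

theorem AQm.mul {M M' : ℤ} {x y : ℚ} (hx : AQm q M x) (hy : AQm q M' y) :
    AQm q (M * M') (x * y) := by
  obtain ⟨n, k, rfl⟩ := hx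
  obtain ⟨n', k', rfl⟩ := hy
  refine ⟨n * n', k + k', ?_⟩
  have h1 := qpow_ne hq k
  have h2 := qpow_ne hq k'
  field_simp
  push_cast
  ring

theorem AQm.mul_left {M : ℤ} {x y : ℚ} (hx : AQ q x) (hy : AQm q M y) : AQm q M (x * y) := by
  have := AQm.mul hq hx hy
  simpa using this

theorem AQm.mul_right {M : ℤ} {x y : ℚ} (hx : AQm q M x) (hy : AQ q y) : AQm q M (x * y) := by
  have := AQm.mul hq hx hy
  simpa using this

theorem AQm.of_dvd {M M' : ℤ} (h : M' ∣ M) {x : ℚ} (hx : AQm q M x) : AQm q M' x := by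
  obtain ⟨n, k, rfl⟩ := hx
  obtain ⟨t, rfl⟩ := h
  exact ⟨t * n, k, by push_cast; ring⟩

theorem AQm.toAQ {M : ℤ} {x : ℚ} (hx : AQm q M x) : AQ q x :=
  AQm.of_dvd hq (one_dvd M) hx

omit hq in
theorem AQm.int (q : ℕ) (M n : ℤ) : AQm q M ((M * n : ℤ) : ℚ) := ⟨n, 0, by simp⟩

omit hq in
theorem AQ.int (q : ℕ) (n : ℤ) : AQ q (n : ℚ) := ⟨n, 0, by simp⟩

omit hq in
theorem AQ.one (q : ℕ) : AQ q 1 := by simpa using AQ.int q 1

omit hq in
theorem AQ.zero (q : ℕ) : AQ q 0 := by simpa using AQ.int q 0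

omit hq in
theorem AQm.zero (q : ℕ) (M : ℤ) : AQm q M 0 := ⟨0, 0, by simp⟩

omit hq in
theorem AQ.qinv_pow (q : ℕ) (k : ℕ) : AQ q (((q : ℚ) ^ k)⁻¹) := ⟨1, k, by simp [one_div]⟩

theorem AQ.qpow (k : ℕ) : AQ q ((q : ℚ) ^ k) := by
  have := AQ.int q ((q : ℤ) ^ k)
  simpa using this

end ring

/-! ### entries of `SL(2,ℚ)` -/

/-- build an element of `SL(2,ℚ)` from its entries -/
def mk2 (a b c d : ℚ) (h : a * d - b * c = 1) : SLQ :=
  ⟨!![a, b; c, d], by rw [Matrix.det_fin_two_of]; exact h⟩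

@[simp] theorem mk2_00 (a b c d : ℚ) (h) : (mk2 a b c d h).1 0 0 = a := rfl
@[simp] theorem mk2_01 (a b c d : ℚ) (h) : (mk2 a b c d h).1 0 1 = b := rfl
@[simp] theorem mk2_10 (a b c d : ℚ) (h) : (mk2 a b c d h).1 1 0 = c := rfl
@[simp] theorem mk2_11 (a b c d : ℚ) (h) : (mk2 a b c d h).1 1 1 = d := rfl

theorem SLQ.ext' {g h : SLQ} (h00 : g.1 0 0 = h.1 0 0) (h01 : g.1 0 1 = h.1 0 1)
    (h10 : g.1 1 0 = h.1 1 0) (h11 : g.1 1 1 = h.1 1 1) : g = h := by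
  apply Subtype.ext
  ext i j
  fin_cases i <;> fin_cases j <;> assumption

theorem det_eq (g : SLQ) : g.1 0 0 * g.1 1 1 - g.1 0 1 * g.1 1 0 = 1 := by
  have := g.2
  rwa [Matrix.det_fin_two] at this

@[simp] theorem mul_00 (g h : SLQ) : (g * h).1 0 0 = g.1 0 0 * h.1 0 0 + g.1 0 1 * h.1 1 0 := by
  simp [Matrix.mul_apply, Fin.sum_univ_two]
@[simp] theorem mul_01 (g h : SLQ) : (g * h).1 0 1 = g.1 0 0 * h.1 0 1 + g.1 0 1 * h.1 1 1 := by
  simp [Matrix.mul_apply, Fin.sum_univ_two]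
@[simp] theorem mul_10 (g h : SLQ) : (g * h).1 1 0 = g.1 1 0 * h.1 0 0 + g.1 1 1 * h.1 1 0 := by
  simp [Matrix.mul_apply, Fin.sum_univ_two]
@[simp] theorem mul_11 (g h : SLQ) : (g * h).1 1 1 = g.1 1 0 * h.1 0 1 + g.1 1 1 * h.1 1 1 := by
  simp [Matrix.mul_apply, Fin.sum_univ_two]

@[simp] theorem inv_00 (g : SLQ) : (g⁻¹).1 0 0 = g.1 1 1 := by
  simp [Matrix.SpecialLinearGroup.coe_inv, Matrix.adjugate_fin_two]
@[simp] theorem inv_01 (g : SLQ) : (g⁻¹).1 0 1 = - g.1 0 1 := by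
  simp [Matrix.SpecialLinearGroup.coe_inv, Matrix.adjugate_fin_two]
@[simp] theorem inv_10 (g : SLQ) : (g⁻¹).1 1 0 = - g.1 1 0 := by
  simp [Matrix.SpecialLinearGroup.coe_inv, Matrix.adjugate_fin_two]
@[simp] theorem inv_11 (g : SLQ) : (g⁻¹).1 1 1 = g.1 0 0 := by
  simp [Matrix.SpecialLinearGroup.coe_inv, Matrix.adjugate_fin_two]

@[simp] theorem one_00 : (1 : SLQ).1 0 0 = 1 := by simp
@[simp] theorem one_01 : (1 : SLQ).1 0 1 = 0 := by simp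
@[simp] theorem one_10 : (1 : SLQ).1 1 0 = 0 := by simp
@[simp] theorem one_11 : (1 : SLQ).1 1 1 = 1 := by simp

/-- upper elementary matrix -/
def e12 (t : ℚ) : SLQ := mk2 1 t 0 1 (by ring)
/-- lower elementary matrix -/
def e21 (t : ℚ) : SLQ := mk2 1 0 t 1 (by ring)
/-- torus element `diag(v, v⁻¹)` -/
def tor (v : ℚ) (hv : v ≠ 0) : SLQ := mk2 v 0 0 v⁻¹ (by simp [hv])
/-- the Weyl element `(0 -1; 1 0)` -/
def wey : SLQ := mk2 0 (-1) 1 0 (by ring)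

@[simp] theorem e12_00 (t : ℚ) : (e12 t).1 0 0 = 1 := rfl
@[simp] theorem e12_01 (t : ℚ) : (e12 t).1 0 1 = t := rfl
@[simp] theorem e12_10 (t : ℚ) : (e12 t).1 1 0 = 0 := rfl
@[simp] theorem e12_11 (t : ℚ) : (e12 t).1 1 1 = 1 := rfl
@[simp] theorem e21_00 (t : ℚ) : (e21 t).1 0 0 = 1 := rfl
@[simp] theorem e21_01 (t : ℚ) : (e21 t).1 0 1 = 0 := rfl
@[simp] theorem e21_10 (t : ℚ) : (e21 t).1 1 0 = t := rfl
@[simp] theorem e21_11 (t : ℚ) : (e21 t).1 1 1 = 1 := rfl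
@[simp] theorem tor_00 (v : ℚ) (hv) : (tor v hv).1 0 0 = v := rfl
@[simp] theorem tor_01 (v : ℚ) (hv) : (tor v hv).1 0 1 = 0 := rfl
@[simp] theorem tor_10 (v : ℚ) (hv) : (tor v hv).1 1 0 = 0 := rfl
@[simp] theorem tor_11 (v : ℚ) (hv) : (tor v hv).1 1 1 = v⁻¹ := rfl
@[simp] theorem wey_00 : wey.1 0 0 = 0 := rfl
@[simp] theorem wey_01 : wey.1 0 1 = -1 := rfl
@[simp] theorem wey_10 : wey.1 1 0 = 1 := rfl
@[simp] theorem wey_11 : wey.1 1 1 = 0 := rfl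

theorem e12_add (s t : ℚ) : e12 s * e12 t = e12 (s + t) := by
  apply SLQ.ext' <;> simp [add_comm]
theorem e21_add (s t : ℚ) : e21 s * e21 t = e21 (s + t) := by
  apply SLQ.ext' <;> simp [add_comm]
theorem e12_inv (t : ℚ) : (e12 t)⁻¹ = e12 (-t) := by
  apply SLQ.ext' <;> simp
theorem e21_inv (t : ℚ) : (e21 t)⁻¹ = e21 (-t) := by
  apply SLQ.ext' <;> simp

/-- the 4-factor identity `diag(v,v⁻¹) = e21(v⁻¹-1) e12(1) e21(v-1) e12(-v⁻¹)` -/
theorem tor_eq (v : ℚ) (hv : v ≠ 0) :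
    tor v hv = e21 (v⁻¹ - 1) * e12 1 * e21 (v - 1) * e12 (-v⁻¹) := by
  apply SLQ.ext'
  · simp only [tor_00, mul_00, mul_01, mul_10, mul_11, e12_00, e12_01, e12_10, e12_11, e21_00,
      e21_01, e21_10, e21_11]
    field_simp
    ring
  · simp only [tor_01, mul_00, mul_01, mul_10, mul_11, e12_00, e12_01, e12_10, e12_11, e21_00,
      e21_01, e21_10, e21_11]
    field_simp
    ring
  · simp only [tor_10, mul_00, mul_01, mul_10, mul_11, e12_00, e12_01, e12_10, e12_11, e21_00,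
      e21_01, e21_10, e21_11]
    field_simp
    ring
  · simp only [tor_11, mul_00, mul_01, mul_10, mul_11, e12_00, e12_01, e12_10, e12_11, e21_00,
      e21_01, e21_10, e21_11]
    field_simp
    ring

/-- trace-2 predicate (unipotent elements of `SL₂`) -/
def IsUnip (g : SLQ) : Prop := g.1 0 0 + g.1 1 1 = 2

theorem isUnip_e12 (t : ℚ) : IsUnip (e12 t) := by simp [IsUnip]; norm_num
theorem isUnip_e21 (t : ℚ) : IsUnip (e21 t) := by simp [IsUnip]; norm_num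

theorem isUnip_conj (x g : SLQ) (h : IsUnip g) : IsUnip (x * g * x⁻¹) := by
  unfold IsUnip at *
  have hx := det_eq x
  simp only [mul_00, mul_11, mul_01, mul_10, inv_00, inv_01, inv_10, inv_11]
  have : g.1 1 1 = 2 - g.1 0 0 := by linarith
  rw [this]
  linear_combination (2 : ℚ) * hx

/-! ### the groups -/

/-- `SL₂(ℤ[1/q])` -/
def SLA (q : ℕ) (hq : 0 < q) : Subgroup SLQ where
  carrier := {g | AQ q (g.1 0 0) ∧ AQ q (g.1 0 1) ∧ AQ q (g.1 1 0) ∧ AQ q (g.1 1 1)}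
  one_mem' := by
    refine ⟨?_, ?_, ?_, ?_⟩ <;> simp [AQ.one, AQ.zero]
  mul_mem' := by
    rintro g h ⟨g0, g1, g2, g3⟩ ⟨h0, h1, h2, h3⟩
    refine ⟨?_, ?_, ?_, ?_⟩
    · rw [mul_00]; exact AQm.add hq (AQm.mul_left hq g0 h0) (AQm.mul_left hq g1 h2)
    · rw [mul_01]; exact AQm.add hq (AQm.mul_left hq g0 h1) (AQm.mul_left hq g1 h3)
    · rw [mul_10]; exact AQm.add hq (AQm.mul_left hq g2 h0) (AQm.mul_left hq g3 h2)
    · rw [mul_11]; exact AQm.add hq (AQm.mul_left hq g2 h1) (AQm.mul_left hq g3 h3)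
  inv_mem' := by
    rintro g ⟨g0, g1, g2, g3⟩
    refine ⟨?_, ?_, ?_, ?_⟩
    · rw [inv_00]; exact g3
    · rw [inv_01]; exact AQm.neg hq g1
    · rw [inv_10]; exact AQm.neg hq g2
    · rw [inv_11]; exact g0

/-- `Γ₀(N)(ℤ[1/q])` -/
def GG (q : ℕ) (hq : 0 < q) (N : ℤ) : Subgroup SLQ where
  carrier := {g | AQ q (g.1 0 0) ∧ AQ q (g.1 0 1) ∧ AQm q N (g.1 1 0) ∧ AQ q (g.1 1 1)}
  one_mem' := by
    refine ⟨?_, ?_, ?_, ?_⟩ <;> simp [AQ.one, AQm.zero]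
  mul_mem' := by
    rintro g h ⟨g0, g1, g2, g3⟩ ⟨h0, h1, h2, h3⟩
    refine ⟨?_, ?_, ?_, ?_⟩
    · rw [mul_00]
      exact AQm.add hq (AQm.mul_left hq g0 h0) (AQm.mul_left hq g1 (AQm.toAQ hq h2))
    · rw [mul_01]; exact AQm.add hq (AQm.mul_left hq g0 h1) (AQm.mul_left hq g1 h3)
    · rw [mul_10]; exact AQm.add hq (AQm.mul_right hq g2 h0) (AQm.mul_left hq g3 h2)
    · rw [mul_11]
      exact AQm.add hq (AQm.mul_left hq (AQm.toAQ hq g2) h1) (AQm.mul_left hq g3 h3)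
  inv_mem' := by
    rintro g ⟨g0, g1, g2, g3⟩
    refine ⟨?_, ?_, ?_, ?_⟩
    · rw [inv_00]; exact g3
    · rw [inv_01]; exact AQm.neg hq g1
    · rw [inv_10]; exact AQm.neg hq g2
    · rw [inv_11]; exact g0

/-- `Γ(M)(ℤ[1/q])` -/
def KK (q : ℕ) (hq : 0 < q) (M : ℤ) : Subgroup SLQ where
  carrier := {g | AQm q M (g.1 0 0 - 1) ∧ AQm q M (g.1 0 1) ∧ AQm q M (g.1 1 0) ∧
    AQm q M (g.1 1 1 - 1)}
  one_mem' := by
    refine ⟨?_, ?_, ?_, ?_⟩ <;> simp [AQm.zero]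
  mul_mem' := by
    rintro g h ⟨g0, g1, g2, g3⟩ ⟨h0, h1, h2, h3⟩
    have ga : AQ q (g.1 0 0) := by
      have := AQm.add hq (AQm.toAQ hq g0) (AQ.one q); simpa using this
    have gd : AQ q (g.1 1 1) := by
      have := AQm.add hq (AQm.toAQ hq g3) (AQ.one q); simpa using this
    have hd : AQ q (h.1 1 1) := by
      have := AQm.add hq (AQm.toAQ hq h3) (AQ.one q); simpa using this
    have ha : AQ q (h.1 0 0) := by
      have := AQm.add hq (AQm.toAQ hq h0) (AQ.one q); simpa using this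
    refine ⟨?_, ?_, ?_, ?_⟩
    · rw [mul_00]
      have e : g.1 0 0 * h.1 0 0 + g.1 0 1 * h.1 1 0 - 1 =
          g.1 0 0 * (h.1 0 0 - 1) + (g.1 0 0 - 1) + g.1 0 1 * h.1 1 0 := by ring
      rw [e]
      exact AQm.add hq (AQm.add hq (AQm.mul_left hq ga h0) g0)
        (AQm.mul_left hq (AQm.toAQ hq g1) h2)
    · rw [mul_01]
      exact AQm.add hq (AQm.mul_left hq ga h1) (AQm.mul_right hq g1 hd)
    · rw [mul_10]
      exact AQm.add hq (AQm.mul_right hq g2 ha) (AQm.mul_left hq gd h2)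
    · rw [mul_11]
      have e : g.1 1 0 * h.1 0 1 + g.1 1 1 * h.1 1 1 - 1 =
          g.1 1 0 * h.1 0 1 + (g.1 1 1 * (h.1 1 1 - 1) + (g.1 1 1 - 1)) := by ring
      rw [e]
      exact AQm.add hq (AQm.mul_left hq (AQm.toAQ hq g2) h1)
        (AQm.add hq (AQm.mul_left hq gd h3) g3)
  inv_mem' := by
    rintro g ⟨g0, g1, g2, g3⟩
    refine ⟨?_, ?_, ?_, ?_⟩
    · rw [inv_00]; exact g3
    · rw [inv_01]; exact AQm.neg hq g1
    · rw [inv_10]; exact AQm.neg hq g2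
    · rw [inv_11]; exact g0

end Fermat.Agent.S41.Menn
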