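/-
S41 / Menn: "parabolic homs" on `G = Γ₀(N)(ℤ[1/q])`, first-row lemma, unit lemma.
-/
import Fermat.Agent.S41.Menn.Basic

set_option autoImplicit false
set_option linter.unusedSectionVars false
set_option linter.unusedTactic false
set_option linter.unreachableTactic false
set_option linter.unnecessarySeqFocus false
set_option linter.unusedSimpArgs false

namespace Fermat.Agent.S41.Menn

open Matrix

variable {B : Type*} [CommGroup B]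

/-- `Φ` is multiplicative on `G = Γ₀(N)(ℤ[1/q])` and kills the unipotent elements of `G`. -/
structure IsParHom (q : ℕ) (hq : 0 < q) (N : ℤ) (Φ : SLQ → B) : Prop where
  map_mul : ∀ g h, g ∈ GG q hq N → h ∈ GG q hq N → Φ (g * h) = Φ g * Φ h
  unip : ∀ g, g ∈ GG q hq N → IsUnip g → Φ g = 1

section
variable {q : ℕ} {hq : 0 < q} {N : ℤ} {Φ : SLQ → B} (hΦ : IsParHom q hq N Φ)
include hΦ

theorem IsParHom.map_one : Φ 1 = 1 := by
  have h := hΦ.map_mul 1 1 (Subgroup.one_mem _) (Subgroup.one_mem _)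
  rw [mul_one] at h
  exact (mul_eq_left.mp h.symm)

theorem IsParHom.map_inv {g : SLQ} (hg : g ∈ GG q hq N) : Φ g⁻¹ = (Φ g)⁻¹ := by
  have h := hΦ.map_mul g g⁻¹ hg (Subgroup.inv_mem _ hg)
  rw [mul_inv_cancel, hΦ.map_one] at h
  exact eq_inv_of_mul_eq_one_right h.symm

theorem IsParHom.map_conj {g x : SLQ} (hg : g ∈ GG q hq N) (hx : x ∈ GG q hq N) :
    Φ (x * g * x⁻¹) = Φ g := by
  rw [hΦ.map_mul _ _ (Subgroup.mul_mem _ hx hg) (Subgroup.inv_mem _ hx),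
    hΦ.map_mul _ _ hx hg, hΦ.map_inv hx]
  rw [mul_comm (Φ x), mul_assoc, mul_inv_cancel, mul_one]

end

section mem
variable {q : ℕ} {hq : 0 < q} {N : ℤ}

theorem e12_mem_GG {t : ℚ} (ht : AQ q t) : e12 t ∈ GG q hq N :=
  ⟨AQ.one q, ht, AQm.zero q N, AQ.one q⟩

theorem e21_mem_GG {t : ℚ} (ht : AQm q N t) : e21 t ∈ GG q hq N :=
  ⟨AQ.one q, AQ.zero q, ht, AQ.one q⟩

theorem tor_mem_GG {v : ℚ} (hv : v ≠ 0) (h1 : AQ q v) (h2 : AQ q v⁻¹) :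
    tor v hv ∈ GG q hq N :=
  ⟨h1, AQ.zero q, AQm.zero q N, h2⟩

theorem e12_mem_SLA {t : ℚ} (ht : AQ q t) : e12 t ∈ SLA q hq :=
  ⟨AQ.one q, ht, AQ.zero q, AQ.one q⟩

theorem e21_mem_SLA {t : ℚ} (ht : AQ q t) : e21 t ∈ SLA q hq :=
  ⟨AQ.one q, AQ.zero q, ht, AQ.one q⟩

theorem GG_le_SLA : GG q hq N ≤ SLA q hq := fun _ ⟨h0, h1, h2, h3⟩ =>
  ⟨h0, h1, AQm.toAQ hq h2, h3⟩

theorem KK_le_GG {M : ℤ} (hNM : N ∣ M) : KK q hq M ≤ GG q hq N := by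
  rintro g ⟨g0, g1, g2, g3⟩
  refine ⟨?_, AQm.toAQ hq g1, AQm.of_dvd hq hNM g2, ?_⟩
  · have := AQm.add hq (AQm.toAQ hq g0) (AQ.one q); simpa using this
  · have := AQm.add hq (AQm.toAQ hq g3) (AQ.one q); simpa using this

theorem KK_mono {M M' : ℤ} (h : M' ∣ M) : KK q hq M ≤ KK q hq M' := by
  rintro g ⟨g0, g1, g2, g3⟩
  exact ⟨AQm.of_dvd hq h g0, AQm.of_dvd hq h g1, AQm.of_dvd hq h g2, AQm.of_dvd hq h g3⟩

end mem

section
variable {q : ℕ} {hq : 0 < q} {N : ℤ} {Φ : SLQ → B} (hΦ : IsParHom q hq N Φ)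
include hΦ

theorem IsParHom.map_e12 {t : ℚ} (ht : AQ q t) : Φ (e12 t) = 1 :=
  hΦ.unip _ (e12_mem_GG ht) (isUnip_e12 t)

theorem IsParHom.map_e21 {t : ℚ} (ht : AQm q N t) : Φ (e21 t) = 1 :=
  hΦ.unip _ (e21_mem_GG ht) (isUnip_e21 t)

/-- `Φ(diag(v,v⁻¹)) = 1` for units `v ≡ 1 mod N`. -/
theorem IsParHom.map_tor {v : ℚ} (hv : v ≠ 0) (h1 : AQ q v) (h2 : AQ q v⁻¹)
    (h3 : AQm q N (v - 1)) : Φ (tor v hv) = 1 := by
  have h4 : AQm q N (v⁻¹ - 1) := by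
    have : v⁻¹ - 1 = -(v⁻¹ * (v - 1)) := by field_simp; ring
    rw [this]
    exact AQm.neg hq (AQm.mul_left hq h2 h3)
  have m1 : e21 (v⁻¹ - 1) ∈ GG q hq N := e21_mem_GG h4
  have m2 : e12 1 ∈ GG q hq N := e12_mem_GG (AQ.one q)
  have m3 : e21 (v - 1) ∈ GG q hq N := e21_mem_GG h3
  have m4 : e12 (-v⁻¹) ∈ GG q hq N := e12_mem_GG (AQm.neg hq h2)
  rw [tor_eq v hv, hΦ.map_mul _ _ (Subgroup.mul_mem _ (Subgroup.mul_mem _ m1 m2) m3) m4,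
    hΦ.map_mul _ _ (Subgroup.mul_mem _ m1 m2) m3, hΦ.map_mul _ _ m1 m2,
    hΦ.map_e21 h4, hΦ.map_e12 (AQ.one q), hΦ.map_e21 h3, hΦ.map_e12 (AQm.neg hq h2)]
  simp

/-- First-row lemma: two elements of `G` with the same first row have the same `Φ`. -/
theorem IsParHom.first_row {g g' : SLQ} (hg : g ∈ GG q hq N) (hg' : g' ∈ GG q hq N)
    (h0 : g'.1 0 0 = g.1 0 0) (h1 : g'.1 0 1 = g.1 0 1) : Φ g' = Φ g := by
  have hmem : g' * g⁻¹ ∈ GG q hq N := Subgroup.mul_mem _ hg' (Subgroup.inv_mem _ hg)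
  have hd := det_eq g
  have hd' := det_eq g'
  have hu : IsUnip (g' * g⁻¹) := by
    unfold IsUnip
    simp only [mul_00, mul_11, inv_00, inv_01, inv_10, inv_11]
    rw [h0, h1] at *
    linear_combination hd + hd'
  have h := hΦ.map_mul (g' * g⁻¹) g hmem hg
  rw [inv_mul_cancel_right] at h
  rw [h, hΦ.unip _ hmem hu, one_mul]

/-- Right multiplication by `e12 t`, `t ∈ ℤ[1/q]`, does not change `Φ` (MS1a, full). -/
theorem IsParHom.mul_e12 {g : SLQ} (hg : g ∈ GG q hq N) {t : ℚ} (ht : AQ q t) :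
    Φ (g * e12 t) = Φ g := by
  rw [hΦ.map_mul _ _ hg (e12_mem_GG ht), hΦ.map_e12 ht, mul_one]

/-- Right multiplication by `e21 t`, `t ∈ Nℤ[1/q]`, does not change `Φ` (MS1b, restricted). -/
theorem IsParHom.mul_e21 {g : SLQ} (hg : g ∈ GG q hq N) {t : ℚ} (ht : AQm q N t) :
    Φ (g * e21 t) = Φ g := by
  rw [hΦ.map_mul _ _ hg (e21_mem_GG ht), hΦ.map_e21 ht, mul_one]

/-- UNIT LEMMA.  If `v` is a unit of `ℤ[1/q]`, `v ≡ 1 mod N` and `v - 1 = a·s` with `s ∈ ℤ[1/q]`,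
`a` the upper-left entry of `g ∈ G`, then any `g' ∈ G` with first row `(a v, b)` has
`Φ g' = Φ g`. -/
theorem IsParHom.unit_lemma {g g' : SLQ} (hg : g ∈ GG q hq N) (hg' : g' ∈ GG q hq N)
    {v s : ℚ} (hv : v ≠ 0) (h1 : AQ q v) (h2 : AQ q v⁻¹) (h3 : AQm q N (v - 1))
    (hs : AQ q s) (hvs : v - 1 = g.1 0 0 * s)
    (h0 : g'.1 0 0 = g.1 0 0 * v) (h01 : g'.1 0 1 = g.1 0 1) : Φ g' = Φ g := by
  -- t := b s / v²
  set t : ℚ := g.1 0 1 * s * v⁻¹ * v⁻¹ with ht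
  have htA : AQ q t := by
    rw [ht]
    exact AQm.mul_left hq (AQm.mul_left hq (AQm.mul_left hq hg.2.1 hs) h2) h2
  have hm : g * tor v hv * e12 t ∈ GG q hq N :=
    Subgroup.mul_mem _ (Subgroup.mul_mem _ hg (tor_mem_GG hv h1 h2)) (e12_mem_GG htA)
  have e1 : Φ (g * tor v hv * e12 t) = Φ g := by
    rw [hΦ.mul_e12 (Subgroup.mul_mem _ hg (tor_mem_GG hv h1 h2)) htA,
      hΦ.map_mul _ _ hg (tor_mem_GG hv h1 h2), hΦ.map_tor hv h1 h2 h3, mul_one]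
  rw [← e1]
  apply hΦ.first_row hm hg'
  · simp [h0]
  · simp only [mul_00, mul_01, tor_00, tor_01, tor_10, tor_11, e12_01, e12_11, h01]
    rw [ht]
    have : g.1 0 0 * s = v - 1 := hvs.symm
    field_simp
    linear_combination (-(g.1 0 1) * v) * this

end

end Fermat.Agent.S41.Menn
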