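/-
S41 / Menn: `K M = Γ(M)(ℤ[1/q])` is normalised by `SL₂(ℤ[1/q])`; conjugation bookkeeping.
-/
import Fermat.Agent.S41.Menn.ParHom

set_option autoImplicit false
set_option linter.unusedSectionVars false
set_option linter.unusedTactic false
set_option linter.unreachableTactic false
set_option linter.unnecessarySeqFocus false
set_option linter.unusedSimpArgs false
set_option linter.unusedVariables false

namespace Fermat.Agent.S41.Menn

open Matrix

variable {q : ℕ} {hq : 0 < q}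

/-- `Γ(M)(ℤ[1/q])` is normalised by `SL₂(ℤ[1/q])`. -/
theorem KK_conj {M : ℤ} {g x : SLQ} (hg : g ∈ KK q hq M) (hx : x ∈ SLA q hq) :
    x * g * x⁻¹ ∈ KK q hq M := by
  obtain ⟨g0, g1, g2, g3⟩ := hg
  obtain ⟨x0, x1, x2, x3⟩ := hx
  have hd := det_eq x
  refine ⟨?_, ?_, ?_, ?_⟩
  · have e : (x * g * x⁻¹).1 0 0 - 1 = x.1 0 0 * x.1 1 1 * (g.1 0 0 - 1) + x.1 0 1 * x.1 1 1 * g.1 1 0
        - x.1 0 0 * x.1 1 0 * g.1 0 1 - x.1 0 1 * x.1 1 0 * (g.1 1 1 - 1) := by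
      simp only [mul_00, mul_01, mul_10, mul_11, inv_00, inv_01, inv_10, inv_11]
      linear_combination hd
    rw [e]
    exact AQm.sub hq (AQm.sub hq (AQm.add hq (AQm.mul_left hq (AQm.mul_left hq x0 x3) g0)
      (AQm.mul_left hq (AQm.mul_left hq x1 x3) g2)) (AQm.mul_left hq (AQm.mul_left hq x0 x2) g1))
      (AQm.mul_left hq (AQm.mul_left hq x1 x2) g3)
  · have e : (x * g * x⁻¹).1 0 1 = - (x.1 0 0 * x.1 0 1 * (g.1 0 0 - 1)) - x.1 0 1 * x.1 0 1 * g.1 1 0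
        + x.1 0 0 * x.1 0 0 * g.1 0 1 + x.1 0 1 * x.1 0 0 * (g.1 1 1 - 1) := by
      simp only [mul_00, mul_01, mul_10, mul_11, inv_00, inv_01, inv_10, inv_11]
      ring
    rw [e]
    exact AQm.add hq (AQm.add hq (AQm.sub hq (AQm.neg hq (AQm.mul_left hq (AQm.mul_left hq x0 x1) g0))
      (AQm.mul_left hq (AQm.mul_left hq x1 x1) g2)) (AQm.mul_left hq (AQm.mul_left hq x0 x0) g1))
      (AQm.mul_left hq (AQm.mul_left hq x1 x0) g3)
  · have e : (x * g * x⁻¹).1 1 0 = x.1 1 0 * x.1 1 1 * (g.1 0 0 - 1) + x.1 1 1 * x.1 1 1 * g.1 1 0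
        - x.1 1 0 * x.1 1 0 * g.1 0 1 - x.1 1 1 * x.1 1 0 * (g.1 1 1 - 1) := by
      simp only [mul_00, mul_01, mul_10, mul_11, inv_00, inv_01, inv_10, inv_11]
      ring
    rw [e]
    exact AQm.sub hq (AQm.sub hq (AQm.add hq (AQm.mul_left hq (AQm.mul_left hq x2 x3) g0)
      (AQm.mul_left hq (AQm.mul_left hq x3 x3) g2)) (AQm.mul_left hq (AQm.mul_left hq x2 x2) g1))
      (AQm.mul_left hq (AQm.mul_left hq x3 x2) g3)
  · have e : (x * g * x⁻¹).1 1 1 - 1 = - (x.1 1 0 * x.1 0 1 * (g.1 0 0 - 1)) - x.1 1 1 * x.1 0 1 * g.1 1 0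
        + x.1 1 0 * x.1 0 0 * g.1 0 1 + x.1 1 1 * x.1 0 0 * (g.1 1 1 - 1) := by
      simp only [mul_00, mul_01, mul_10, mul_11, inv_00, inv_01, inv_10, inv_11]
      linear_combination hd
    rw [e]
    exact AQm.add hq (AQm.add hq (AQm.sub hq (AQm.neg hq (AQm.mul_left hq (AQm.mul_left hq x2 x1) g0))
      (AQm.mul_left hq (AQm.mul_left hq x3 x1) g2)) (AQm.mul_left hq (AQm.mul_left hq x2 x0) g1))
      (AQm.mul_left hq (AQm.mul_left hq x3 x0) g3)

/-- conjugation by `e21 t`: `e21(-t) g e21(t)` -/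
def cj (t : ℚ) (g : SLQ) : SLQ := e21 (-t) * g * e21 t

theorem cj_eq (t : ℚ) (g : SLQ) : cj t g = e21 (-t) * g * (e21 (-t))⁻¹ := by
  rw [cj, e21_inv, neg_neg]

theorem cj_mem_KK {M : ℤ} {g : SLQ} (hg : g ∈ KK q hq M) {t : ℚ} (ht : AQ q t) :
    cj t g ∈ KK q hq M := by
  rw [cj_eq]
  exact KK_conj hg (e21_mem_SLA (AQm.neg hq ht))

theorem cj_mul (t : ℚ) (g h : SLQ) : cj t (g * h) = cj t g * cj t h := by
  simp only [cj]
  have : e21 t * e21 (-t) = 1 := by rw [e21_add]; simp [e21]; apply SLQ.ext' <;> simp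
  calc e21 (-t) * (g * h) * e21 t = e21 (-t) * g * 1 * h * e21 t := by group
    _ = e21 (-t) * g * (e21 t * e21 (-t)) * h * e21 t := by rw [this]
    _ = _ := by group

theorem cj_add (s t : ℚ) (g : SLQ) : cj (s + t) g = cj s (cj t g) := by
  simp only [cj]
  have h1 : e21 (s + t) = e21 t * e21 s := by rw [e21_add, add_comm]
  have h2 : e21 (-(s + t)) = e21 (-s) * e21 (-t) := by rw [e21_add]; congr 1; ring
  rw [h1, h2]
  group

theorem cj_00 (t : ℚ) (g : SLQ) : (cj t g).1 0 0 = g.1 0 0 + t * g.1 0 1 := by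
  simp [cj]; ring

theorem cj_01 (t : ℚ) (g : SLQ) : (cj t g).1 0 1 = g.1 0 1 := by
  simp [cj]

theorem isUnip_cj (t : ℚ) (g : SLQ) (h : IsUnip g) : IsUnip (cj t g) := by
  rw [cj_eq]; exact isUnip_conj _ _ h

end Fermat.Agent.S41.Menn
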