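/-
S41 / Menn: centrality, part 1: the sets `Fix g t` and the unit-lemma step.
-/
import Fermat.Agent.S41.Menn.Normal

set_option autoImplicit false
set_option linter.unusedSectionVars false
set_option linter.unusedTactic false
set_option linter.unreachableTactic false
set_option linter.unnecessarySeqFocus false
set_option linter.unusedSimpArgs false
set_option linter.unusedVariables false

namespace Fermat.Agent.S41.Menn

open Matrix

variable {B : Type*} [CommGroup B] {q : ℕ} {hq : 0 < q} {N : ℤ} {Φ : SLQ → B}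

/-- `t ∈ T_g`: conjugation by `e21 t` does not change `Φ g`. -/
def Fix (Φ : SLQ → B) (g : SLQ) (t : ℤ) : Prop := Φ (cj (t : ℚ) g) = Φ g

theorem KK_le_GG_self : KK q hq N ≤ GG q hq N := KK_le_GG (dvd_refl N)

theorem Fix.add_mul (hΦ : IsParHom q hq N Φ) {g : SLQ} (hg : g ∈ KK q hq N) {t : ℤ}
    (h : Fix Φ g t) (s : ℤ) : Fix Φ g (t + N * s) := by
  unfold Fix at *
  have h1 : ((t + N * s : ℤ) : ℚ) = ((N * s : ℤ) : ℚ) + (t : ℚ) := by push_cast; ring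
  rw [h1, cj_add, cj_eq]
  have hm : cj (t : ℚ) g ∈ GG q hq N := KK_le_GG_self (cj_mem_KK hg (AQ.int q t))
  have hx : e21 (-((N * s : ℤ) : ℚ)) ∈ GG q hq N :=
    e21_mem_GG (AQm.neg hq (AQm.int q N s))
  rw [hΦ.map_conj hm hx, h]

theorem Fix.of_mul_unip (hΦ : IsParHom q hq N Φ) {g u : SLQ} (hg : g ∈ KK q hq N)
    (hu : u ∈ KK q hq N) (hu1 : IsUnip u) {t : ℤ} (h : Fix Φ (g * u) t) : Fix Φ g t := by
  unfold Fix at *
  have hgG := KK_le_GG_self hg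
  have huG := KK_le_GG_self hu
  have hcg : cj (t : ℚ) g ∈ GG q hq N := KK_le_GG_self (cj_mem_KK hg (AQ.int q t))
  have hcu : cj (t : ℚ) u ∈ GG q hq N := KK_le_GG_self (cj_mem_KK hu (AQ.int q t))
  rw [cj_mul, hΦ.map_mul _ _ hcg hcu, hΦ.unip _ hcu (isUnip_cj _ _ hu1),
    hΦ.map_mul _ _ hgG huG, hΦ.unip _ huG hu1] at h
  simpa using h

/-- geometric sum -/
def gs (v : ℤ) (j : ℕ) : ℤ := ∑ i ∈ Finset.range j, v ^ i

theorem gs_mul (v : ℤ) (j : ℕ) : gs v j * (v - 1) = v ^ j - 1 := geom_sum_mul v j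

theorem gs_modEq (v : ℤ) (j : ℕ) (M : ℤ) (h : M ∣ v - 1) : M ∣ gs v j - j := by
  induction j with
  | zero => simp [gs]
  | succ j ih =>
    have e : gs v (j + 1) - ((j + 1 : ℕ) : ℤ) = (gs v j - j) + (v ^ j - 1) := by
      simp only [gs, Finset.sum_range_succ]; push_cast; ring
    rw [e]
    refine dvd_add ih ?_
    rw [← gs_mul]
    exact Dvd.dvd.mul_left h _

/-- the unit-lemma step: integer first row `(a', b')`, `q^e - 1 = a' b' k'`. -/
theorem Fix.unit_step (hΦ : IsParHom q hq N Φ) {g : SLQ} (hg : g ∈ KK q hq N) {a' b' k' : ℤ}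
    (ha : g.1 0 0 = (a' : ℚ)) (hb : g.1 0 1 = (b' : ℚ)) (hNb : N ∣ b') {e : ℕ}
    (hk : (q : ℤ) ^ e - 1 = a' * b' * k') (j : ℕ) :
    Fix Φ g (a' ^ 2 * k' * gs ((q : ℤ) ^ e) j) := by
  unfold Fix
  set v : ℤ := (q : ℤ) ^ e with hvdef
  have hvj : v ^ j - 1 = a' * b' * k' * gs v j := by rw [← gs_mul, hk]; ring
  have hgG := KK_le_GG_self hg
  set t : ℤ := a' ^ 2 * k' * gs v j with ht
  have hcg : cj (t : ℚ) g ∈ GG q hq N := KK_le_GG_self (cj_mem_KK hg (AQ.int q t))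
  have hqQ : (q : ℚ) ≠ 0 := by exact_mod_cast hq.ne'
  have hvQ : ((v ^ j : ℤ) : ℚ) = ((q : ℚ) ^ (e * j)) := by
    rw [hvdef]; push_cast; rw [pow_mul]
  have hv0 : ((v ^ j : ℤ) : ℚ) ≠ 0 := by rw [hvQ]; exact pow_ne_zero _ hqQ
  have hvjQ : ((v ^ j : ℤ) : ℚ) - 1 = (a' : ℚ) * b' * k' * (gs v j : ℤ) := by
    have := congrArg (Int.cast : ℤ → ℚ) hvj
    push_cast at this ⊢
    exact this
  refine hΦ.unit_lemma (v := ((v ^ j : ℤ) : ℚ)) (s := ((b' * k' * gs v j : ℤ) : ℚ)) hgG hcg hv0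
    ?_ ?_ ?_ (AQ.int q _) ?_ ?_ ?_
  · exact AQ.int q _
  · rw [hvQ]; exact AQ.qinv_pow q _
  · obtain ⟨c, hc⟩ := hNb
    have : ((v ^ j : ℤ) : ℚ) - 1 = ((N * (a' * c * k' * gs v j) : ℤ) : ℚ) := by
      rw [hvjQ, hc]; push_cast; ring
    rw [this]
    exact AQm.int q N _
  · rw [hvjQ, ha]; push_cast; ring
  · rw [cj_00, ha, hb, ht]
    push_cast at hvjQ ⊢
    linear_combination (-(a' : ℚ)) * hvjQ
  · rw [cj_01]

end Fermat.Agent.S41.Menn
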