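/-
S41 / Menn: centrality, part 2: assembly from the arithmetic inputs `GoodRepA`, `IntRep`.
-/
import Fermat.Agent.S41.Menn.Central1

set_option autoImplicit false
set_option linter.unusedSectionVars false
set_option linter.unusedTactic false
set_option linter.unreachableTactic false
set_option linter.unnecessarySeqFocus false
set_option linter.unusedSimpArgs false
set_option linter.unusedVariables false

namespace Fermat.Agent.S41.Menn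

open Matrix

variable {B : Type*} [CommGroup B] {q : ℕ} {hq : 0 < q} {N : ℕ} {Φ : SLQ → B}

/-- arithmetic input (NT-A2): good representatives at a prime `r' ∣ N`. -/
def GoodRepA (q : ℕ) (N : ℤ) : Prop :=
  ∀ r' : ℕ, r'.Prime → (r' : ℤ) ∣ N → ∀ a b : ℤ, IsCoprime a b → b ≠ 0 →
    IsCoprime a (q : ℤ) → IsCoprime b (q : ℤ) → N ∣ b → N ∣ a - 1 →
    ∃ (s s' : ℤ) (e : ℕ) (k' : ℤ), 0 < e ∧
      (q : ℤ) ^ e - 1 = (a + N * (b + N * a * s) * s') * (b + N * a * s) * k' ∧ ¬ (r' : ℤ) ∣ k'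

/-- integralisation input (NT-A1). -/
def IntRep (q : ℕ) (hq : 0 < q) (N : ℤ) : Prop :=
  ∀ g ∈ KK q hq N, ∃ s1 s2 : ℚ, AQm q N s1 ∧ AQm q N s2 ∧ ∃ a b : ℤ,
    (g * e12 s1 * e21 s2).1 0 0 = (a : ℚ) ∧ (g * e12 s1 * e21 s2).1 0 1 = (b : ℚ) ∧
    IsCoprime a b ∧ b ≠ 0 ∧ IsCoprime a (q : ℤ) ∧ IsCoprime b (q : ℤ) ∧ N ∣ b ∧ N ∣ a - 1

theorem e12_mem_KK {M : ℤ} {t : ℚ} (ht : AQm q M t) : e12 t ∈ KK q hq M := by
  refine ⟨?_, ?_, ?_, ?_⟩ <;> simp [AQm.zero, ht]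

theorem e21_mem_KK {M : ℤ} {t : ℚ} (ht : AQm q M t) : e21 t ∈ KK q hq M := by
  refine ⟨?_, ?_, ?_, ?_⟩ <;> simp [AQm.zero, ht]

theorem Fix.zero (g : SLQ) : Fix Φ g 0 := by
  unfold Fix cj
  have : e21 (-((0 : ℤ) : ℚ)) = 1 := by apply SLQ.ext' <;> simp
  have h2 : e21 ((0 : ℤ) : ℚ) = 1 := by apply SLQ.ext' <;> simp
  rw [this, h2]; simp

/-- all multiples `j * t1` are in `T_g` once the geometric-sum values are. -/
theorem Fix.nat_mul (hΦ : IsParHom q hq (N : ℤ) Φ) {g : SLQ} (hg : g ∈ KK q hq (N : ℤ))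
    {a' b' k' : ℤ} (ha : g.1 0 0 = (a' : ℚ)) (hb : g.1 0 1 = (b' : ℚ)) (hNb : (N : ℤ) ∣ b')
    {e : ℕ} (hk : (q : ℤ) ^ e - 1 = a' * b' * k') (j : ℕ) :
    Fix Φ g (j * (a' ^ 2 * k')) := by
  have h1 := Fix.unit_step hΦ hg ha hb hNb hk j
  have hN1 : (N : ℤ) ∣ (q : ℤ) ^ e - 1 := by
    rw [hk]; exact Dvd.dvd.mul_right (Dvd.dvd.mul_left hNb _) _
  obtain ⟨m, hm⟩ := gs_modEq ((q : ℤ) ^ e) j (N : ℤ) hN1
  have h2 := Fix.add_mul hΦ hg h1 (-(a' ^ 2 * k' * m))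
  have e1 : a' ^ 2 * k' * gs ((q : ℤ) ^ e) j + (N : ℤ) * -(a' ^ 2 * k' * m) = j * (a' ^ 2 * k') := by
    have : gs ((q : ℤ) ^ e) j = j + (N : ℤ) * m := by linarith
    rw [this]; ring
  rwa [e1] at h2

theorem Fix.int_mul (hN : 0 < N) (hΦ : IsParHom q hq (N : ℤ) Φ) {g : SLQ}
    (hg : g ∈ KK q hq (N : ℤ))
    {a' b' k' : ℤ} (ha : g.1 0 0 = (a' : ℚ)) (hb : g.1 0 1 = (b' : ℚ)) (hNb : (N : ℤ) ∣ b')
    {e : ℕ} (hk : (q : ℤ) ^ e - 1 = a' * b' * k') (x y : ℤ) :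
    Fix Φ g (x * (a' ^ 2 * k') + N * y) := by
  have hNpos : (0 : ℤ) < N := by exact_mod_cast hN
  have h0 : 0 ≤ x % (N : ℤ) := Int.emod_nonneg _ hNpos.ne'
  have hx : x = x % (N : ℤ) + N * (x / N) := (Int.emod_add_mul_ediv x N).symm
  have h1 := Fix.nat_mul hΦ hg ha hb hNb hk (x % (N : ℤ)).toNat
  rw [Int.toNat_of_nonneg h0] at h1
  have h2 := Fix.add_mul hΦ hg h1 (x / N * (a' ^ 2 * k') + y)
  have e1 : x % (N : ℤ) * (a' ^ 2 * k') + (N : ℤ) * (x / N * (a' ^ 2 * k') + y)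
      = x * (a' ^ 2 * k') + N * y := by
    conv_rhs => rw [hx]
    ring
  rwa [e1] at h2

/-- For a prime `r' ∣ N`, the `r'`-free part of `N` lies in `T_g` for every `g ∈ K(N)`. -/
theorem Fix.ordCompl (hN : 0 < N) (hA : GoodRepA q (N : ℤ)) (hI : IntRep q hq (N : ℤ))
    (hΦ : IsParHom q hq (N : ℤ) Φ) {r' : ℕ} (hr' : r'.Prime) (hr'N : r' ∣ N)
    {g : SLQ} (hg : g ∈ KK q hq (N : ℤ)) : Fix Φ g ((ordCompl[r'] N : ℕ) : ℤ) := by
  obtain ⟨s1, s2, hs1, hs2, a, b, ha, hb, hab, hb0, haq, hbq, hNb, hNa⟩ := hI g hg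
  obtain ⟨s, s', e, k', he, hk, hrk⟩ :=
    hA r' hr' (by exact_mod_cast hr'N) a b hab hb0 haq hbq hNb hNa
  set b' : ℤ := b + N * a * s with hb'
  set a' : ℤ := a + N * b' * s' with ha'
  -- the moved element
  have m1 : e12 s1 ∈ KK q hq (N : ℤ) := e12_mem_KK hs1
  have m2 : e21 s2 ∈ KK q hq (N : ℤ) := e21_mem_KK hs2
  have m3 : e12 (((N : ℤ) * s : ℤ) : ℚ) ∈ KK q hq (N : ℤ) := e12_mem_KK (AQm.int q _ _)
  have m4 : e21 (((N : ℤ) * s' : ℤ) : ℚ) ∈ KK q hq (N : ℤ) := e21_mem_KK (AQm.int q _ _)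
  set g1 := g * e12 s1 with hg1
  set g2 := g1 * e21 s2 with hg2
  set g3 := g2 * e12 (((N : ℤ) * s : ℤ) : ℚ) with hg3
  set g4 := g3 * e21 (((N : ℤ) * s' : ℤ) : ℚ) with hg4
  have k1 : g1 ∈ KK q hq (N : ℤ) := Subgroup.mul_mem _ hg m1
  have k2 : g2 ∈ KK q hq (N : ℤ) := Subgroup.mul_mem _ k1 m2
  have k3 : g3 ∈ KK q hq (N : ℤ) := Subgroup.mul_mem _ k2 m3
  have k4 : g4 ∈ KK q hq (N : ℤ) := Subgroup.mul_mem _ k3 m4
  have r30 : g3.1 0 0 = (a : ℚ) := by rw [hg3, mul_00]; simp [ha]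
  have r31 : g3.1 0 1 = (b' : ℚ) := by
    rw [hg3, mul_01]; simp only [e12_01, e12_11, ha, hb, hb']; push_cast; ring
  have r40 : g4.1 0 0 = (a' : ℚ) := by
    rw [hg4, mul_00]; simp only [e21_00, e21_10, r30, r31, ha']; push_cast; ring
  have r41 : g4.1 0 1 = (b' : ℚ) := by
    rw [hg4, mul_01]; simp [r31]
  have hNb' : (N : ℤ) ∣ b' := by
    rw [hb']; exact dvd_add hNb (Dvd.dvd.mul_right (Dvd.dvd.mul_right (dvd_refl _) _) _)
  have hk2 : (q : ℤ) ^ e - 1 = a' * b' * k' := hk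
  -- r' ∤ a'^2 k'
  have hr'Z : Prime (r' : ℤ) := Nat.prime_iff_prime_int.mp hr'
  have hra : ¬ (r' : ℤ) ∣ a' := by
    intro h
    have h1 : (r' : ℤ) ∣ a' - 1 := by
      have : (N : ℤ) ∣ a' - 1 := by
        rw [ha']
        have : a + (N : ℤ) * b' * s' - 1 = (a - 1) + (N : ℤ) * (b' * s') := by ring
        rw [this]; exact dvd_add hNa (Dvd.intro _ rfl)
      exact dvd_trans (by exact_mod_cast hr'N) this
    have h2 : (r' : ℤ) ∣ 1 := by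
      have := dvd_sub h h1
      simpa using this
    exact hr'Z.not_dvd_one h2
  have hrt : ¬ (r' : ℤ) ∣ a' ^ 2 * k' := by
    intro h
    rcases hr'Z.dvd_or_dvd h with h | h
    · exact hra (hr'Z.dvd_of_dvd_pow h)
    · exact hrk h
  -- Bezout
  set t1 : ℤ := a' ^ 2 * k' with ht1
  set c : ℕ := Int.gcd t1 (N : ℤ) with hc
  have hcN : c ∣ N := by
    have : (c : ℤ) ∣ (N : ℤ) := Int.gcd_dvd_right t1 N
    exact_mod_cast this
  have hrc : ¬ r' ∣ c := by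
    intro h
    apply hrt
    have : (c : ℤ) ∣ t1 := Int.gcd_dvd_left t1 N
    exact dvd_trans (by exact_mod_cast h) this
  have hcd : c ∣ ordCompl[r'] N := by
    have h1 : c ∣ ordProj[r'] N * ordCompl[r'] N := by
      rw [Nat.ordProj_mul_ordCompl_eq_self]; exact hcN
    have h2 : Nat.Coprime c (ordProj[r'] N) :=
      Nat.Coprime.pow_right _ ((Nat.Prime.coprime_iff_not_dvd hr').2 hrc).symm
    exact h2.dvd_of_dvd_mul_left h1
  obtain ⟨d', hd'⟩ := hcd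
  have hbez : (c : ℤ) = t1 * Int.gcdA t1 N + N * Int.gcdB t1 N := Int.gcd_eq_gcd_ab t1 N
  have hfix4 : Fix Φ g4 ((ordCompl[r'] N : ℕ) : ℤ) := by
    have := Fix.int_mul hN hΦ k4 r40 r41 hNb' hk2 (Int.gcdA t1 N * d') (Int.gcdB t1 N * d')
    have e1 : Int.gcdA t1 N * d' * (a' ^ 2 * k') + (N : ℤ) * (Int.gcdB t1 N * d')
        = ((ordCompl[r'] N : ℕ) : ℤ) := by
      rw [hd']; push_cast; rw [hbez]; ring
    rwa [e1] at this
  have hfix3 := Fix.of_mul_unip hΦ k3 m4 (isUnip_e21 _) hfix4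
  have hfix2 := Fix.of_mul_unip hΦ k2 m3 (isUnip_e12 _) hfix3
  have hfix1 := Fix.of_mul_unip hΦ k1 m2 (isUnip_e21 _) hfix2
  exact Fix.of_mul_unip hΦ hg m1 (isUnip_e12 _) hfix1

end Fermat.Agent.S41.Menn
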