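/-
S41 / Menn: centrality (A): `Φ(e21(-t) g e21(t)) = Φ g` for `g ∈ Γ(N)(ℤ[1/q])`, `t ∈ ℤ`.
-/
import Fermat.Agent.S41.Menn.Central2

set_option autoImplicit false
set_option linter.unusedSectionVars false
set_option linter.unusedTactic false
set_option linter.unreachableTactic false
set_option linter.unnecessarySeqFocus false
set_option linter.unusedSimpArgs false
set_option linter.unusedVariables false

namespace Fermat.Agent.S41.Menn

open Matrix

variable {B : Type*} [CommGroup B] {q : ℕ} {hq : 0 < q} {N : ℕ} {Φ : SLQ → B}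

theorem cj_zero (g : SLQ) : cj ((0 : ℤ) : ℚ) g = g := by
  unfold cj
  have : e21 (-((0 : ℤ) : ℚ)) = 1 := by apply SLQ.ext' <;> simp
  have h2 : e21 ((0 : ℤ) : ℚ) = 1 := by apply SLQ.ext' <;> simp
  rw [this, h2]; simp

/-- the additive subgroup of `t` fixing `Φ` on all of `K(N)`. -/
def fixSub (q : ℕ) (hq : 0 < q) (N : ℕ) (Φ : SLQ → B) : AddSubgroup ℤ where
  carrier := {t | ∀ g ∈ KK q hq (N : ℤ), Fix Φ g t}
  zero_mem' := fun g _ => Fix.zero g
  add_mem' := by
    intro s t hs ht g hg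
    unfold Fix
    have h1 : ((s + t : ℤ) : ℚ) = (s : ℚ) + (t : ℚ) := by push_cast; ring
    rw [h1, cj_add]
    have := hs (cj (t : ℚ) g) (cj_mem_KK hg (AQ.int q t))
    unfold Fix at this
    rw [this]
    exact ht g hg
  neg_mem' := by
    intro t ht g hg
    unfold Fix
    have hm : cj ((-t : ℤ) : ℚ) g ∈ KK q hq (N : ℤ) := cj_mem_KK hg (AQ.int q (-t))
    have := ht _ hm
    unfold Fix at this
    rw [← cj_add] at this
    have h0 : (t : ℚ) + ((-t : ℤ) : ℚ) = ((0 : ℤ) : ℚ) := by push_cast; ring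
    rw [h0, cj_zero] at this
    exact this.symm

theorem N_mem_fixSub (hΦ : IsParHom q hq (N : ℤ) Φ) : (N : ℤ) ∈ fixSub q hq N Φ := by
  intro g hg
  have := Fix.add_mul hΦ hg (Fix.zero g) 1
  simpa using this

/-- CENTRALITY (A). -/
theorem central (hN : 0 < N) (hA : GoodRepA q (N : ℤ)) (hI : IntRep q hq (N : ℤ))
    (hΦ : IsParHom q hq (N : ℤ) Φ) (t : ℤ) {g : SLQ} (hg : g ∈ KK q hq (N : ℤ)) :
    Φ (cj (t : ℚ) g) = Φ g := by
  classical
  set S := fixSub q hq N Φ with hS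
  have hex : ∃ n : ℕ, 0 < n ∧ (n : ℤ) ∈ S := ⟨N, hN, N_mem_fixSub hΦ⟩
  set m := Nat.find hex with hm
  have hm0 : 0 < m := (Nat.find_spec hex).1
  have hmS : (m : ℤ) ∈ S := (Nat.find_spec hex).2
  have hdiv : ∀ x : ℕ, (x : ℤ) ∈ S → m ∣ x := by
    intro x hx
    by_contra hnd
    have hlt : x % m < m := Nat.mod_lt _ hm0
    have hpos : 0 < x % m := Nat.pos_of_ne_zero (fun h => hnd (Nat.dvd_of_mod_eq_zero h))
    have hmem : ((x % m : ℕ) : ℤ) ∈ S := by
      have e : ((x % m : ℕ) : ℤ) = (x : ℤ) - (x / m : ℕ) • (m : ℤ) := by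
        have := Nat.mod_add_div x m
        have h2 : ((x % m : ℕ) : ℤ) + (m : ℤ) * ((x / m : ℕ) : ℤ) = (x : ℤ) := by exact_mod_cast this
        rw [nsmul_eq_mul]; linarith
      rw [e]
      exact S.sub_mem hx (S.nsmul_mem hmS _)
    exact Nat.find_min hex hlt ⟨hpos, hmem⟩
  have hm1 : m = 1 := by
    by_contra hne
    obtain ⟨r', hr', hr'm⟩ := Nat.exists_prime_and_dvd hne
    have hmN : m ∣ N := hdiv N (N_mem_fixSub hΦ)
    have hr'N : r' ∣ N := dvd_trans hr'm hmN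
    have hoc : ((ordCompl[r'] N : ℕ) : ℤ) ∈ S := fun g hg => Fix.ordCompl hN hA hI hΦ hr' hr'N hg
    have := dvd_trans hr'm (hdiv _ hoc)
    exact Nat.not_dvd_ordCompl hr' hN.ne' this
  have h1S : (1 : ℤ) ∈ S := by rw [hm1] at hmS; exact_mod_cast hmS
  have htS : t ∈ S := by
    have := S.zsmul_mem h1S t
    simpa using this
  exact htS g hg

end Fermat.Agent.S41.Menn
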