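/-
S41 / Menn: the (A_Z) interface: `Φ(x k x⁻¹) = Φ k` for `x ∈ SL(2,ℤ)` and `k ∈ Γ(N)(ℤ[1/q])`,
and more generally for `x` in the subgroup generated by `G` and `e21 ℤ`.
-/
import Fermat.Agent.S41.Menn.Central3

set_option autoImplicit false
set_option linter.unusedSectionVars false
set_option linter.unusedTactic false
set_option linter.unreachableTactic false
set_option linter.unnecessarySeqFocus false
set_option linter.unusedSimpArgs false
set_option linter.unusedVariables false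

namespace Fermat.Agent.S41.Menn

open Matrix

variable {B : Type*} [CommGroup B] {q : ℕ} {hq : 0 < q} {N : ℕ} {Φ : SLQ → B}

/-- centrality for all `N ≥ 1` (`N = 1` is trivial: `e21 t ∈ G`). -/
theorem central' (hN : 0 < N) (hA : GoodRepA q (N : ℤ)) (hI : 1 < N → IntRep q hq (N : ℤ))
    (hΦ : IsParHom q hq (N : ℤ) Φ) (t : ℤ) {g : SLQ} (hg : g ∈ KK q hq (N : ℤ)) :
    Φ (cj (t : ℚ) g) = Φ g := by
  rcases Nat.lt_or_ge 1 N with h1 | h1
  · exact central hN hA (hI h1) hΦ t hg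
  · have hN1 : N = 1 := le_antisymm h1 hN
    subst hN1
    rw [cj_eq]
    refine hΦ.map_conj (KK_le_GG_self hg) (e21_mem_GG ?_)
    have : AQ q (-(t : ℚ)) := AQm.neg hq (AQ.int q t)
    simpa using this

/-- the subgroup of `x ∈ SL₂(ℤ[1/q])` whose conjugation fixes `Φ` on `K(N)`. -/
def invSub (q : ℕ) (hq : 0 < q) (N : ℕ) (Φ : SLQ → B) : Subgroup SLQ where
  carrier := {x | x ∈ SLA q hq ∧ ∀ k ∈ KK q hq (N : ℤ), Φ (x * k * x⁻¹) = Φ k}
  one_mem' := ⟨Subgroup.one_mem _, fun k _ => by simp⟩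
  mul_mem' := by
    rintro x y ⟨hx, hx'⟩ ⟨hy, hy'⟩
    refine ⟨Subgroup.mul_mem _ hx hy, fun k hk => ?_⟩
    have e : x * y * k * (x * y)⁻¹ = x * (y * k * y⁻¹) * x⁻¹ := by group
    rw [e, hx' _ (KK_conj hk hy), hy' k hk]
  inv_mem' := by
    rintro x ⟨hx, hx'⟩
    refine ⟨Subgroup.inv_mem _ hx, fun k hk => ?_⟩
    have hm : x⁻¹ * k * x⁻¹⁻¹ ∈ KK q hq (N : ℤ) := KK_conj hk (Subgroup.inv_mem _ hx)
    have := hx' _ hm
    have e : x * (x⁻¹ * k * x⁻¹⁻¹) * x⁻¹ = k := by group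
    rw [e] at this
    exact this.symm

theorem GG_le_invSub (hΦ : IsParHom q hq (N : ℤ) Φ) : GG q hq (N : ℤ) ≤ invSub q hq N Φ :=
  fun x hx => ⟨GG_le_SLA hx, fun k hk => hΦ.map_conj (KK_le_GG_self hk) hx⟩

theorem wey_eq : wey = e12 (-1) * e21 1 * e12 (-1) := by
  apply SLQ.ext' <;> simp <;> norm_num

/-- the embedding `SL(2,ℤ) → SL(2,ℚ)`. -/
def iZ : Matrix.SpecialLinearGroup (Fin 2) ℤ →* SLQ :=
  Matrix.SpecialLinearGroup.map (Int.castRingHom ℚ)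

theorem iZ_apply (x : Matrix.SpecialLinearGroup (Fin 2) ℤ) (i j : Fin 2) :
    (iZ x).1 i j = ((x.1 i j : ℤ) : ℚ) := rfl

section
variable (hN : 0 < N) (hA : GoodRepA q (N : ℤ)) (hI : 1 < N → IntRep q hq (N : ℤ))
  (hΦ : IsParHom q hq (N : ℤ) Φ)
include hN hA hI hΦ

theorem e21_int_mem_invSub (t : ℤ) : e21 (t : ℚ) ∈ invSub q hq N Φ := by
  refine ⟨e21_mem_SLA (AQ.int q t), fun k hk => ?_⟩
  have := central' hN hA hI hΦ (-t) hk
  rw [cj_eq] at this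
  have e : -(((-t : ℤ)) : ℚ) = (t : ℚ) := by push_cast; ring
  rwa [e] at this

theorem e12_mem_invSub {t : ℚ} (ht : AQ q t) : e12 t ∈ invSub q hq N Φ :=
  GG_le_invSub hΦ (e12_mem_GG ht)

theorem wey_mem_invSub : wey ∈ invSub q hq N Φ := by
  rw [wey_eq]
  have h1 : e12 (-1 : ℚ) ∈ invSub q hq N Φ :=
    e12_mem_invSub hN hA hI hΦ (by simpa using AQ.int q (-1))
  have h2 : e21 (1 : ℚ) ∈ invSub q hq N Φ := by
    simpa using e21_int_mem_invSub hN hA hI hΦ 1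
  exact Subgroup.mul_mem _ (Subgroup.mul_mem _ h1 h2) h1

/-- torus elements are in `G`, hence `e21 t ∈ invSub` for all `t ∈ ℤ[1/q]`. -/
theorem e21_mem_invSub {t : ℚ} (ht : AQ q t) : e21 t ∈ invSub q hq N Φ := by
  obtain ⟨n, k, rfl⟩ := ht
  have hqQ : (q : ℚ) ≠ 0 := by exact_mod_cast hq.ne'
  have hv : ((q : ℚ) ^ k) ≠ 0 := pow_ne_zero _ hqQ
  -- e21 (n / q^k) = tor (q^k) * e21 (n q^k) * (tor (q^k))⁻¹
  have hT : tor ((q : ℚ) ^ k) hv ∈ invSub q hq N Φ :=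
    GG_le_invSub hΦ (tor_mem_GG hv (AQ.qpow hq k) (AQ.qinv_pow q k))
  have hE : e21 (((n * (q : ℤ) ^ k : ℤ)) : ℚ) ∈ invSub q hq N Φ :=
    e21_int_mem_invSub hN hA hI hΦ _
  have e : e21 (((1 * n : ℤ) : ℚ) / (q : ℚ) ^ k) =
      tor ((q : ℚ) ^ k) hv * e21 (((n * (q : ℤ) ^ k : ℤ)) : ℚ) * (tor ((q : ℚ) ^ k) hv)⁻¹ := by
    apply SLQ.ext'
    · simp; field_simp
    · simp
    · simp; field_simp
    · simp; field_simp
  rw [e]
  exact Subgroup.mul_mem _ (Subgroup.mul_mem _ hT hE) (Subgroup.inv_mem _ hT)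

theorem iZ_mem_invSub (x : Matrix.SpecialLinearGroup (Fin 2) ℤ) : iZ x ∈ invSub q hq N Φ := by
  have hx : x ∈ Subgroup.closure {ModularGroup.S, ModularGroup.T} := by
    rw [SpecialLinearGroup.SL2Z_generators]; trivial
  have hS : iZ ModularGroup.S = wey := by
    apply SLQ.ext' <;> rw [iZ_apply] <;> simp [ModularGroup.S]
  have hT : iZ ModularGroup.T = e12 1 := by
    apply SLQ.ext' <;> rw [iZ_apply] <;> simp [ModularGroup.T]
  have hle : Subgroup.closure {ModularGroup.S, ModularGroup.T} ≤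
      (invSub q hq N Φ).comap iZ := by
    rw [Subgroup.closure_le]
    rintro y (rfl | rfl)
    · show iZ ModularGroup.S ∈ invSub q hq N Φ
      rw [hS]; exact wey_mem_invSub hN hA hI hΦ
    · show iZ ModularGroup.T ∈ invSub q hq N Φ
      rw [hT]; exact e12_mem_invSub hN hA hI hΦ (AQ.one q)
  exact hle hx

/-- (A_Z): conjugation by `SL(2,ℤ)` does not change `Φ` on `Γ(N)(ℤ[1/q])`. -/
theorem central_SLZ (x : Matrix.SpecialLinearGroup (Fin 2) ℤ) {k : SLQ}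
    (hk : k ∈ KK q hq (N : ℤ)) : Φ (iZ x * k * (iZ x)⁻¹) = Φ k :=
  (iZ_mem_invSub hN hA hI hΦ x).2 k hk

end

end Fermat.Agent.S41.Menn
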