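/-
S41 / Menn (NT-A1): integralisation of the first row of an element of `Γ(M)(ℤ[1/q])`.
After right multiplication by `e12 s1`, `e21 s2` with `s1, s2 ∈ M·ℤ[1/q]` the first row of
`g ∈ K(M)` becomes a pair of coprime integers `(a, b)`, both prime to `q`, with `M ∣ b`, `M ∣ a - 1`,
`b ≠ 0`.  General level `M > 1` prime to `q` (so it covers `M = N` and the depth `M = N r^J`).
-/
import Fermat.Agent.S41.Menn.Normal

set_option autoImplicit false
set_option linter.unusedSectionVars false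
set_option linter.unusedTactic false
set_option linter.unreachableTactic false
set_option linter.unnecessarySeqFocus false
set_option linter.unusedSimpArgs false
set_option linter.unusedVariables false

namespace Fermat.Agent.S41.Menn.NTA1

open Matrix Fermat.Agent.S41.Menn

/-- an integer `z` with `q ∣ z - 1` is coprime to `q`. -/
theorem isCoprime_of_dvd_sub_one {q z : ℤ} (h : q ∣ z - 1) : IsCoprime z q := by
  obtain ⟨t, ht⟩ := h
  exact ⟨1, -t, by linear_combination ht⟩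

/-- Approximation: every `x ∈ ℤ[1/q]` is congruent modulo `m·ℤ[1/q]` (`m` prime to `q`) to an
integer `z ≡ 1 mod q`. -/
theorem exists_int_approx {q : ℕ} (hq : 0 < q) {m : ℤ} (hm : IsCoprime m (q : ℤ)) {x : ℚ}
    (hx : AQ q x) : ∃ z : ℤ, (q : ℤ) ∣ z - 1 ∧ AQm q m (x - z) := by
  obtain ⟨n, k, rfl⟩ := hx
  have hmk : IsCoprime m ((q : ℤ) ^ k) := hm.pow_right
  obtain ⟨u, w, huw⟩ := hmk
  obtain ⟨u', w', h'⟩ := hm
  set z0 : ℤ := n * w with hz0
  set t : ℤ := u' * (1 - z0) with ht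
  refine ⟨z0 + m * t, ?_, ?_⟩
  · refine ⟨(z0 - 1) * w', ?_⟩
    rw [ht]
    linear_combination (1 - z0) * h'
  · have hqk : ((q : ℚ) ^ k) ≠ 0 := qpow_ne hq k
    have e1 : ((1 * n : ℤ) : ℚ) / (q : ℚ) ^ k - ((z0 + m * t : ℤ) : ℚ)
        = ((m * (n * u) : ℤ) : ℚ) / (q : ℚ) ^ k - ((m * t : ℤ) : ℚ) := by
      have huwQ : (u : ℚ) * m + w * (q : ℚ) ^ k = 1 := by exact_mod_cast huw
      rw [hz0]
      push_cast
      field_simp
      linear_combination (-(n : ℚ)) * huwQ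
    rw [e1]
    exact AQm.sub hq ⟨n * u, k, rfl⟩ (AQm.int q m t)

/-- an integer lying in `M·ℤ[1/q]` (`M` prime to `q`) is divisible by `M`. -/
theorem dvd_of_AQm_int {q : ℕ} (hq : 0 < q) {M : ℤ} (hM : IsCoprime M (q : ℤ)) {z : ℤ}
    (h : AQm q M (z : ℚ)) : M ∣ z := by
  obtain ⟨n, k, hz⟩ := h
  have hqk : ((q : ℚ) ^ k) ≠ 0 := qpow_ne hq k
  have h1 : (z : ℚ) * (q : ℚ) ^ k = ((M * n : ℤ) : ℚ) := by
    rw [hz]; field_simp
  have h2 : z * (q : ℤ) ^ k = M * n := by exact_mod_cast h1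
  have h3 : M ∣ z * (q : ℤ) ^ k := ⟨n, h2⟩
  exact (hM.pow_right (n := k)).dvd_of_dvd_mul_right h3

/-- prime-to-`q` part of a nonzero integer. -/
theorem exists_primeTo_part {q : ℕ} (hqp : q.Prime) {n : ℤ} (hn : n ≠ 0) :
    ∃ (j : ℕ) (n' : ℤ), n = (q : ℤ) ^ j * n' ∧ IsCoprime n' (q : ℤ) := by
  have hfin : FiniteMultiplicity (q : ℤ) n := by
    rw [Int.finiteMultiplicity_iff]
    refine ⟨?_, hn⟩
    simpa using hqp.one_lt.ne'
  obtain ⟨c, hc, hnd⟩ := hfin.exists_eq_pow_mul_and_not_dvd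
  refine ⟨multiplicity (q : ℤ) n, c, hc, ?_⟩
  have hp : Prime (q : ℤ) := Nat.prime_iff_prime_int.mp hqp
  exact ((Prime.coprime_iff_not_dvd hp).mpr hnd).symm

/-- **NT-A1 (integralisation)**. -/
theorem integralise {q : ℕ} (hqp : q.Prime) {M : ℕ} (hM : 1 < M) (hcop : Nat.Coprime M q) {g : SLQ}
    (hg : g ∈ KK q hqp.pos (M : ℤ)) :
    ∃ s1 s2 : ℚ, AQm q M s1 ∧ AQm q M s2 ∧ ∃ a b : ℤ,
      (g * e12 s1 * e21 s2).1 0 0 = a ∧ (g * e12 s1 * e21 s2).1 0 1 = b ∧ IsCoprime a b ∧ b ≠ 0 ∧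
      IsCoprime a (q : ℤ) ∧ IsCoprime b (q : ℤ) ∧ (M : ℤ) ∣ b ∧ (M : ℤ) ∣ a - 1 := by
  have hq : 0 < q := hqp.pos
  have hMq : IsCoprime (M : ℤ) (q : ℤ) := Nat.isCoprime_iff_coprime.mpr hcop
  have hgSLA : g ∈ SLA q hq := GG_le_SLA (KK_le_GG (N := (M : ℤ)) (dvd_refl _) hg)
  obtain ⟨g0, g1, g2, g3⟩ := hg
  set α : ℚ := g.1 0 0 with hα
  set β : ℚ := g.1 0 1 with hβ
  have hαA : AQ q α := hgSLA.1
  have hβA : AQ q β := hgSLA.2.1
  -- α ≠ 0
  have hα0 : α ≠ 0 := by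
    intro h0
    rw [h0] at g0
    have : AQm q (M : ℤ) (((-1 : ℤ)) : ℚ) := by simpa using g0
    have hdvd := dvd_of_AQm_int hq hMq this
    have : (M : ℤ) ∣ 1 := by simpa using hdvd
    have hle := Int.le_of_dvd one_pos this
    have : (1 : ℤ) < M := by exact_mod_cast hM
    omega
  obtain ⟨n, k, hαn⟩ := hαA
  have hqk : ((q : ℚ) ^ k) ≠ 0 := qpow_ne hq k
  have hn0 : n ≠ 0 := by
    intro h
    apply hα0
    rw [hαn, h]; simp
  obtain ⟨j, n', hn, hn'⟩ := exists_primeTo_part hqp hn0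
  have hn'0 : n' ≠ 0 := by
    intro h
    apply hn0
    rw [hn, h, mul_zero]
  have hm : IsCoprime ((M : ℤ) * n') (q : ℤ) := hMq.mul_left hn'
  obtain ⟨b, hbq, hbm⟩ := exists_int_approx hq hm hβA
  have hbcop : IsCoprime b (q : ℤ) := isCoprime_of_dvd_sub_one hbq
  have hb0 : b ≠ 0 := by
    intro h
    rw [h] at hbq
    have h1 : (q : ℤ) ∣ 1 := by
      have := (dvd_neg (a := (q : ℤ)) (b := (0 : ℤ) - 1)).mpr hbq
      simpa using this
    have hle := Int.le_of_dvd one_pos h1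
    have : (1 : ℤ) < q := by exact_mod_cast hqp.one_lt
    omega
  -- s1
  obtain ⟨y, k2, hy⟩ := hbm
  have hqk2 : ((q : ℚ) ^ k2) ≠ 0 := qpow_ne hq k2
  have hqj : ((q : ℚ) ^ j) ≠ 0 := qpow_ne hq j
  have hn'Q : (n' : ℚ) ≠ 0 := by exact_mod_cast hn'0
  have hnQ : (n : ℚ) = (q : ℚ) ^ j * n' := by exact_mod_cast congrArg (Int.cast : ℤ → ℚ) hn
  set s1 : ℚ := ((b : ℚ) - β) / α with hs1
  have hs1A : AQm q (M : ℤ) s1 := by
    refine ⟨-y * (q : ℤ) ^ k, k2 + j, ?_⟩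
    have hβb : β = (b : ℚ) + (((M : ℤ) * n' * y : ℤ) : ℚ) / (q : ℚ) ^ k2 := by
      linarith [hy]
    rw [hs1, hαn, hβb]
    push_cast
    rw [hnQ]
    field_simp
    ring
  have hbrow : α * s1 + β = b := by
    rw [hs1]; field_simp; ring
  -- a
  have hmb : IsCoprime ((M : ℤ) * b) (q : ℤ) := hMq.mul_left hbcop
  have hαA' : AQ q α := ⟨n, k, hαn⟩
  obtain ⟨a, haq, ham⟩ := exists_int_approx hq hmb hαA'
  have hacop : IsCoprime a (q : ℤ) := isCoprime_of_dvd_sub_one haq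
  obtain ⟨y2, k3, hy2⟩ := ham
  have hqk3 : ((q : ℚ) ^ k3) ≠ 0 := qpow_ne hq k3
  have hbQ : (b : ℚ) ≠ 0 := by exact_mod_cast hb0
  set s2 : ℚ := ((a : ℚ) - α) / b with hs2
  have hs2A : AQm q (M : ℤ) s2 := by
    refine ⟨-y2, k3, ?_⟩
    have hαa : α = (a : ℚ) + (((M : ℤ) * b * y2 : ℤ) : ℚ) / (q : ℚ) ^ k3 := by
      linarith [hy2]
    rw [hs2]
    have : (a : ℚ) - α = - ((((M : ℤ) * b * y2 : ℤ) : ℚ) / (q : ℚ) ^ k3) := by linarith [hαa]
    rw [this]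
    push_cast
    field_simp
  have harow : α + b * s2 = a := by
    rw [hs2]; field_simp; ring
  -- the new element
  have h00 : (g * e12 s1 * e21 s2).1 0 0 = a := by
    simp only [mul_00, mul_01, e12_00, e12_01, e12_10, e12_11, e21_00, e21_01, e21_10, e21_11]
    rw [← hα, ← hβ]
    linear_combination s2 * hbrow + harow
  have h01 : (g * e12 s1 * e21 s2).1 0 1 = b := by
    simp only [mul_00, mul_01, e12_00, e12_01, e12_10, e12_11, e21_00, e21_01, e21_10, e21_11]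
    rw [← hα, ← hβ]
    linear_combination hbrow
  have hg'SLA : g * e12 s1 * e21 s2 ∈ SLA q hq :=
    Subgroup.mul_mem _ (Subgroup.mul_mem _ hgSLA (e12_mem_SLA (AQm.toAQ hq hs1A)))
      (e21_mem_SLA (AQm.toAQ hq hs2A))
  refine ⟨s1, s2, hs1A, hs2A, a, b, h00, h01, ?_, hb0, hacop, hbcop, ?_, ?_⟩
  · -- coprimality from the determinant
    obtain ⟨-, -, ⟨c1, e2, hc1⟩, ⟨d1, e1, hd1⟩⟩ := hg'SLA
    have hdet := det_eq (g * e12 s1 * e21 s2)
    rw [h00, h01, hc1, hd1] at hdet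
    have hqe1 : ((q : ℚ) ^ e1) ≠ 0 := qpow_ne hq e1
    have hqe2 : ((q : ℚ) ^ e2) ≠ 0 := qpow_ne hq e2
    have hZ : a * d1 * (q : ℤ) ^ e2 - b * c1 * (q : ℤ) ^ e1 = (q : ℤ) ^ (e1 + e2) := by
      have hQ : (a : ℚ) * d1 * (q : ℚ) ^ e2 - b * c1 * (q : ℚ) ^ e1 = (q : ℚ) ^ (e1 + e2) := by
        have h := hdet
        push_cast at h
        field_simp at h
        rw [pow_add]
        linear_combination h
      exact_mod_cast hQ
    have hbE : IsCoprime b ((q : ℤ) ^ (e1 + e2)) := hbcop.pow_right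
    obtain ⟨u, v, huv⟩ := hbE
    refine ⟨v * d1 * (q : ℤ) ^ e2, u - v * c1 * (q : ℤ) ^ e1, ?_⟩
    linear_combination huv + v * hZ
  · -- M ∣ b
    apply dvd_of_AQm_int hq hMq
    rw [← hbrow]
    exact AQm.add hq (AQm.mul_left hq hαA' hs1A) g1
  · -- M ∣ a - 1
    apply dvd_of_AQm_int hq hMq
    have : ((a - 1 : ℤ) : ℚ) = (b : ℚ) * s2 + (α - 1) := by
      push_cast; linarith [harow]
    rw [this]
    exact AQm.add hq (AQm.mul_left hq (AQ.int q b) hs2A) g0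

end Fermat.Agent.S41.Menn.NTA1
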