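/-
S41 / Menn: the integralisation input `IntRep` of `Central2` from `NT_A1.integralise`.
-/
import Fermat.Agent.S41.Menn.Central2
import Fermat.Agent.S41.Menn.NT_A1

set_option autoImplicit false

namespace Fermat.Agent.S41.Menn.NTA1

open Fermat.Agent.S41.Menn

/-- `IntRep` holds at every level `N > 1` prime to the prime `q`. -/
theorem intRep {q : ℕ} (hqp : q.Prime) {N : ℕ} (hN : 1 < N) (hcop : Nat.Coprime N q) :
    IntRep q hqp.pos (N : ℤ) := fun _ hg => integralise hqp hN hcop hg

end Fermat.Agent.S41.Menn.NTA1
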