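import Fermat.Agent.S29.Betti.HeckeHom

/-!
# S41 / Menn: Eisenstein characters of `Γ₀(N)` are `T_r`-eigen with eigenvalue `r + 1`

A parabolic homomorphism `c : Γ₀(N) → A` (any abelian group `A`) which kills `Γ(N)` depends only
on `d(γ) mod N`, and is additive in `d`.  Reading the `(1,1)`-entry of
`δ_x γ = γ'_x δ_{σ x}` modulo `N` gives `w(x) d(γ) ≡ d(γ'_x) w(σ x)` with `w(∞) = 1`,
`w(j) = r`; summing over `x` the weights cancel (σ is a permutation) and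
`(T_r c)(γ) = (r + 1) c(γ)`.
-/

set_option autoImplicit false

namespace Fermat.Agent.S41.Menn.EisChar

open CongruenceSubgroup Matrix.SpecialLinearGroup
open ModularCurve.Period
open P2MW.S_ModularForm_heckeT_slash_eq_self_of_mem_Gamma0.ModularForm.HeckeSlashInvariance
open Fermat.Agent.S29.Betti
open scoped MatrixGroups

noncomputable section

variable {N : ℕ}

/-! ### Entries of the Hecke representatives -/

/-- the `(1,1)`-entry of `heckeRep r x`. -/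
def wt (r : ℕ) (x : OnePoint (ZMod r)) : ℤ := x.elim 1 (fun _ => (r : ℤ))

/-- the `(0,1)`-entry of `heckeRep r x`. -/
def sh (r : ℕ) (x : OnePoint (ZMod r)) : ℤ := x.elim 0 (fun j => (j.val : ℤ))

theorem heckeRep_one_zero {r : ℕ} (hr : r ≠ 0) (x : OnePoint (ZMod r)) :
    ((heckeRep r x : GL (Fin 2) ℝ) : Matrix (Fin 2) (Fin 2) ℝ) 1 0 = 0 := by
  induction x using OnePoint.rec with
  | infty => rw [heckeRep_infty, ModularForm.val_heckeDiagMatrix hr]; simp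
  | coe j => rw [heckeRep_coe, ModularForm.val_heckeMatrix hr]; simp

theorem heckeRep_one_one {r : ℕ} (hr : r ≠ 0) (x : OnePoint (ZMod r)) :
    ((heckeRep r x : GL (Fin 2) ℝ) : Matrix (Fin 2) (Fin 2) ℝ) 1 1 = ((wt r x : ℤ) : ℝ) := by
  induction x using OnePoint.rec with
  | infty => rw [heckeRep_infty, ModularForm.val_heckeDiagMatrix hr]; simp [wt]
  | coe j => rw [heckeRep_coe, ModularForm.val_heckeMatrix hr]; simp [wt]

theorem heckeRep_zero_one {r : ℕ} (hr : r ≠ 0) (x : OnePoint (ZMod r)) :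
    ((heckeRep r x : GL (Fin 2) ℝ) : Matrix (Fin 2) (Fin 2) ℝ) 0 1 = ((sh r x : ℤ) : ℝ) := by
  induction x using OnePoint.rec with
  | infty => rw [heckeRep_infty, ModularForm.val_heckeDiagMatrix hr]; simp [sh]
  | coe j => rw [heckeRep_coe, ModularForm.val_heckeMatrix hr]; simp [sh]


/-! ### The `(1,1)`-entry of the step relation -/

variable {r : ℕ} [Fact r.Prime]

/-- `w(x) d(γ) = c(γ'_x) s(σ x) + d(γ'_x) w(σ x)`. -/
theorem step_entry (hrN : ¬ r ∣ N) (γ : Gamma0 N) (x : OnePoint (ZMod r)) :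
    wt r x * (γ : SL(2, ℤ)) 1 1 =
      stepSL hrN γ x 1 0 * sh r (redMatrix r (γ : SL(2, ℤ)) • x) +
        stepSL hrN γ x 1 1 * wt r (redMatrix r (γ : SL(2, ℤ)) • x) := by
  have hr : r ≠ 0 := (Fact.out : r.Prime).ne_zero
  have h := stepSL_rel hrN γ x
  have h2 := congrArg (fun M : GL (Fin 2) ℝ => (M : Matrix (Fin 2) (Fin 2) ℝ) 1 1) h
  simp only [Units.val_mul, Matrix.mul_apply, Fin.sum_univ_two] at h2
  rw [heckeRep_one_zero hr, heckeRep_one_one hr, heckeRep_one_one hr, heckeRep_zero_one hr,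
    zero_mul, zero_add] at h2
  have e1 := mapGL_apply (γ : SL(2, ℤ)) 1 1
  have e2 := mapGL_apply (stepSL hrN γ x) 1 0
  have e3 := mapGL_apply (stepSL hrN γ x) 1 1
  rw [e1, e2, e3] at h2
  exact_mod_cast h2


/-! ### Characters killing `Γ(N)` and unipotents depend on `d mod N` only -/

/-- the upper unipotent `(1 t; 0 1)` of `Γ₀(N)`. -/
def unipSL (t : ℤ) : SL(2, ℤ) := ⟨!![1, t; 0, 1], by rw [Matrix.det_fin_two_of]; ring⟩

/-- the upper unipotent `(1 t; 0 1)` as an element of `Γ₀(N)`. -/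
def unip (N : ℕ) (t : ℤ) : Gamma0 N :=
  ⟨unipSL t, by rw [Gamma0_mem]; simp [unipSL]⟩

theorem inv_entries (g : SL(2, ℤ)) :
    (g⁻¹ : SL(2, ℤ)) 0 0 = g 1 1 ∧ (g⁻¹ : SL(2, ℤ)) 0 1 = - g 0 1 ∧
      (g⁻¹ : SL(2, ℤ)) 1 0 = - g 1 0 ∧ (g⁻¹ : SL(2, ℤ)) 1 1 = g 0 0 := by
  rw [SL2_inv_expl g]
  refine ⟨rfl, rfl, rfl, rfl⟩

theorem mul_entries (g h : SL(2, ℤ)) :
    (g * h) 0 0 = g 0 0 * h 0 0 + g 0 1 * h 1 0 ∧ (g * h) 0 1 = g 0 0 * h 0 1 + g 0 1 * h 1 1 ∧
      (g * h) 1 0 = g 1 0 * h 0 0 + g 1 1 * h 1 0 ∧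
        (g * h) 1 1 = g 1 0 * h 0 1 + g 1 1 * h 1 1 := by
  refine ⟨?_, ?_, ?_, ?_⟩ <;>
    simp [Matrix.SpecialLinearGroup.coe_mul, Matrix.mul_apply, Fin.sum_univ_two]

section Char

variable {A : Type*} [AddCommGroup A] (c : Additive (Gamma0 N) →+ A)

theorem kills_unip (hc : IsParabolicHom (Gamma0 N) c) (t : ℤ) :
    c (Additive.ofMul (unip N t)) = 0 := by
  apply hc
  simp [unip, unipSL, Matrix.trace_fin_two]

variable (hc : IsParabolicHom (Gamma0 N) c)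
  (hK : ∀ γ : Gamma0 N, (γ : SL(2, ℤ)) ∈ Gamma N → c (Additive.ofMul γ) = 0)
include hc hK

theorem kills_of_a_congr (δ : Gamma0 N) (h : (((δ : SL(2, ℤ)) 0 0 : ℤ) : ZMod N) = 1) :
    c (Additive.ofMul δ) = 0 := by
  set t := (δ : SL(2, ℤ)) 0 1 with ht
  have hmem : ((δ * unip N (-t) : Gamma0 N) : SL(2, ℤ)) ∈ Gamma N := by
    rw [Gamma_mem]
    have h10 : (((δ : SL(2, ℤ)) 1 0 : ℤ) : ZMod N) = 0 := Gamma0_mem.mp δ.2
    have hdet := congrArg (Int.cast : ℤ → ZMod N) (det_eq (δ : SL(2, ℤ)))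
    push_cast at hdet
    obtain ⟨e00, e01, e10, e11⟩ := mul_entries (δ : SL(2, ℤ)) (unip N (-t) : SL(2, ℤ))
    rw [Subgroup.coe_mul, e00, e01, e10, e11]
    have u00 : ((unip N (-t) : Gamma0 N) : SL(2, ℤ)) 0 0 = 1 := rfl
    have u01 : ((unip N (-t) : Gamma0 N) : SL(2, ℤ)) 0 1 = -t := rfl
    have u10 : ((unip N (-t) : Gamma0 N) : SL(2, ℤ)) 1 0 = 0 := rfl
    have u11 : ((unip N (-t) : Gamma0 N) : SL(2, ℤ)) 1 1 = 1 := rfl
    rw [u00, u01, u10, u11]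
    push_cast
    refine ⟨?_, ?_, ?_, ?_⟩
    · linear_combination h
    · linear_combination (-((t : ℤ) : ZMod N)) * h
    · linear_combination h10
    · linear_combination hdet - (((δ : SL(2, ℤ)) 1 1 : ℤ) : ZMod N) * h +
        ((((δ : SL(2, ℤ)) 0 1 : ℤ) : ZMod N) - ((t : ℤ) : ZMod N)) * h10
  have h0 := hK _ hmem
  rw [ofMul_mul, map_add, kills_unip c hc, add_zero] at h0
  exact h0

theorem eq_of_d_congr (γ₁ γ₂ : Gamma0 N)
    (h : (((γ₁ : SL(2, ℤ)) 1 1 : ℤ) : ZMod N) = (((γ₂ : SL(2, ℤ)) 1 1 : ℤ) : ZMod N)) :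
    c (Additive.ofMul γ₁) = c (Additive.ofMul γ₂) := by
  have h1 : (((γ₁ : SL(2, ℤ)) 1 0 : ℤ) : ZMod N) = 0 := Gamma0_mem.mp γ₁.2
  have h2 : (((γ₂ : SL(2, ℤ)) 1 0 : ℤ) : ZMod N) = 0 := Gamma0_mem.mp γ₂.2
  have hdet := congrArg (Int.cast : ℤ → ZMod N) (det_eq (γ₁ : SL(2, ℤ)))
  push_cast at hdet
  have key : c (Additive.ofMul (γ₁ * γ₂⁻¹)) = 0 := by
    apply kills_of_a_congr c hc hK
    obtain ⟨e00, -, -, -⟩ := mul_entries (γ₁ : SL(2, ℤ)) ((γ₂⁻¹ : Gamma0 N) : SL(2, ℤ))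
    obtain ⟨i00, -, i10, -⟩ := inv_entries (γ₂ : SL(2, ℤ))
    rw [Subgroup.coe_mul, e00, InvMemClass.coe_inv, i00, i10]
    push_cast
    linear_combination hdet + (((γ₁ : SL(2, ℤ)) 0 0 : ℤ) : ZMod N) * (-h) +
      (((γ₁ : SL(2, ℤ)) 0 1 : ℤ) : ZMod N) * h1 - (((γ₁ : SL(2, ℤ)) 0 1 : ℤ) : ZMod N) * h2
  rw [ofMul_mul, map_add, ofMul_inv, map_neg] at key
  exact add_neg_eq_zero.mp key

end Char


/-! ### The main theorem -/

/-- an element of `Γ₀(N)` with lower right entry `r`. -/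
theorem exists_d_eq (hrN : ¬ r ∣ N) : ∃ ρ : Gamma0 N, (ρ : SL(2, ℤ)) 1 1 = r := by
  have hcop : IsCoprime (r : ℤ) (N : ℤ) :=
    Nat.isCoprime_iff_coprime.mpr ((Nat.Prime.coprime_iff_not_dvd Fact.out).mpr hrN)
  obtain ⟨u, v, huv⟩ := hcop
  have hdet : (!![u, -v; (N : ℤ), (r : ℤ)] : Matrix (Fin 2) (Fin 2) ℤ).det = 1 := by
    rw [Matrix.det_fin_two_of]; linear_combination huv
  let g : SL(2, ℤ) := ⟨!![u, -v; (N : ℤ), (r : ℤ)], hdet⟩
  have hg : g ∈ Gamma0 N := by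
    rw [Gamma0_mem]
    simp [g]
  exact ⟨⟨g, hg⟩, rfl⟩

/-- **Eisenstein characters are `T_r`-eigen with eigenvalue `r + 1`.**  A parabolic homomorphism
on `Γ₀(N)` that kills `Γ(N)` satisfies `T_r c = (r + 1) c` for every prime `r ∤ N`. -/
theorem heckeHom_eq_of_kills_Gamma (hrN : ¬ r ∣ N) {A : Type*} [AddCommGroup A]
    (c : Additive (Gamma0 N) →+ A) (hc : IsParabolicHom (Gamma0 N) c)
    (hK : ∀ γ : Gamma0 N, (γ : SL(2, ℤ)) ∈ Gamma N → c (Additive.ofMul γ) = 0) :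
    heckeHom hrN A c = (r + 1) • c := by
  obtain ⟨ρ, hρ⟩ := exists_d_eq (N := N) (r := r) hrN
  let rho : OnePoint (ZMod r) → Gamma0 N := fun x => x.elim 1 (fun _ => ρ)
  have hrho : ∀ x, ((rho x : Gamma0 N) : SL(2, ℤ)) 1 1 = wt r x := by
    intro x
    induction x using OnePoint.rec with
    | infty => simp [rho, wt]
    | coe j => simp [rho, wt, hρ]
  refine DFunLike.ext _ _ fun γ' => ?_
  change heckeHom hrN A c (Additive.ofMul (Additive.toMul γ')) =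
    ((r + 1) • c) (Additive.ofMul (Additive.toMul γ'))
  generalize Additive.toMul γ' = γ
  rw [heckeHom_apply]
  set σ := redMatrix r (γ : SL(2, ℤ)) with hσ
  have key : ∀ x, c (Additive.ofMul (rho x)) + c (Additive.ofMul γ) =
      c (Additive.ofMul (stepG hrN γ x)) + c (Additive.ofMul (rho (σ • x))) := by
    intro x
    have e1 : c (Additive.ofMul (rho x)) + c (Additive.ofMul γ) =
        c (Additive.ofMul (rho x * γ)) := by rw [ofMul_mul, map_add]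
    have e2 : c (Additive.ofMul (stepG hrN γ x)) + c (Additive.ofMul (rho (σ • x))) =
        c (Additive.ofMul (stepG hrN γ x * rho (σ • x))) := by rw [ofMul_mul, map_add]
    rw [e1, e2]
    apply eq_of_d_congr c hc hK
    obtain ⟨-, -, -, e11⟩ := mul_entries ((rho x : Gamma0 N) : SL(2, ℤ)) (γ : SL(2, ℤ))
    obtain ⟨-, -, -, f11⟩ := mul_entries ((stepG hrN γ x : Gamma0 N) : SL(2, ℤ))
      ((rho (σ • x) : Gamma0 N) : SL(2, ℤ))
    rw [Subgroup.coe_mul, Subgroup.coe_mul, e11, f11, hrho, hrho, stepG_coe]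
    have hA : ((((rho x : Gamma0 N) : SL(2, ℤ)) 1 0 : ℤ) : ZMod N) = 0 :=
      Gamma0_mem.mp (rho x).2
    have hG : (((stepSL hrN γ x) 1 0 : ℤ) : ZMod N) = 0 :=
      Gamma0_mem.mp (stepG hrN γ x).2
    have hstep := congrArg (Int.cast : ℤ → ZMod N) (step_entry hrN γ x)
    push_cast at hstep ⊢
    linear_combination (((γ : SL(2, ℤ)) 0 1 : ℤ) : ZMod N) * hA +
      (((sh r (σ • x) : ℤ) : ZMod N) -
        ((((rho (σ • x) : Gamma0 N) : SL(2, ℤ)) 0 1 : ℤ) : ZMod N)) * hG + hstep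
  have hsum : ∑ x : OnePoint (ZMod r), (c (Additive.ofMul (rho x)) + c (Additive.ofMul γ)) =
      ∑ x : OnePoint (ZMod r),
        (c (Additive.ofMul (stepG hrN γ x)) + c (Additive.ofMul (rho (σ • x)))) :=
    Finset.sum_congr rfl fun x _ => key x
  rw [Finset.sum_add_distrib, Finset.sum_add_distrib] at hsum
  have hperm : ∑ x : OnePoint (ZMod r), c (Additive.ofMul (rho (σ • x))) =
      ∑ x : OnePoint (ZMod r), c (Additive.ofMul (rho x)) :=
    Equiv.sum_comp (MulAction.toPerm σ) (fun x => c (Additive.ofMul (rho x)))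
  rw [hperm, add_comm] at hsum
  have hsum2 := add_right_cancel hsum
  rw [← hsum2, Finset.sum_const, Finset.card_univ]
  have hcard : Fintype.card (OnePoint (ZMod r)) = r + 1 := by
    rw [show Fintype.card (OnePoint (ZMod r)) = Fintype.card (Option (ZMod r)) from rfl,
      Fintype.card_option, ZMod.card]
  rw [hcard]
  rfl


/-- pointwise form of `heckeHom_eq_of_kills_Gamma`. -/
theorem heckeHom_apply_of_kills_Gamma (hrN : ¬ r ∣ N) {A : Type*} [AddCommGroup A]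
    (c : Additive (Gamma0 N) →+ A) (hc : IsParabolicHom (Gamma0 N) c)
    (hK : ∀ γ : Gamma0 N, (γ : SL(2, ℤ)) ∈ Gamma N → c (Additive.ofMul γ) = 0) (γ : Gamma0 N) :
    heckeHom hrN A c (Additive.ofMul γ) = (r + 1) • c (Additive.ofMul γ) := by
  rw [heckeHom_eq_of_kills_Gamma hrN c hc hK]
  rfl

/-- **`(T_r - (r+1))² c = 0`** as soon as `c' = T_r c - (r+1) c` is parabolic and `T_r c = (r+1) c`
on `Γ(N)` (hom form, no module structure). -/
theorem heckeHom_sub_sq_eq_zero (hrN : ¬ r ∣ N) {A : Type*} [AddCommGroup A]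
    (c : Additive (Gamma0 N) →+ A)
    (hpar : IsParabolicHom (Gamma0 N) (heckeHom hrN A c - (r + 1) • c))
    (hG : ∀ g : Gamma0 N, (g : SL(2, ℤ)) ∈ Gamma N →
      heckeHom hrN A c (Additive.ofMul g) = (r + 1) • c (Additive.ofMul g)) :
    heckeHom hrN A (heckeHom hrN A c - (r + 1) • c) =
      (r + 1) • (heckeHom hrN A c - (r + 1) • c) := by
  apply heckeHom_eq_of_kills_Gamma hrN _ hpar
  intro g hg
  rw [AddMonoidHom.sub_apply, hG g hg]
  exact sub_self _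

end

end Fermat.Agent.S41.Menn.EisChar
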