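import Mathlib

/-!
# S41, block (L3b), abstract transfer core

Abstract group theory behind the step "centrality `(A)` implies that `T_r - (r+1)` kills a
parabolic class on the principal congruence subgroup".

* `Γ` is a group (think `SL(2, ℤ)`), `G K : Subgroup Γ` (think `Γ₀(N)`, `Γ(N)`), `K ≤ G`, `K` normal;
* `φ : G →* M` is a homomorphism into a commutative group whose restriction to `K` is invariant
  under conjugation by all of `Γ` (`ConjInv`);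
* `ι : Γ →* 𝔾` is an injective homomorphism into an ambient group (think `GL(2, ℝ)`), `α : 𝔾` is an
  element which "is central modulo `K`" (`hα`);
* `S = conjSub ι α = {s | α ι(s) α⁻¹ ∈ ι(Γ)}`, `c = conjHom : S →* Γ`.

Then `s ↦ φ (c s * s⁻¹)` is a homomorphism `S →* M` (`commHom`); composing with the transfer
`Γ → S^ab` gives a homomorphism on `Γ`, which is computed on `K` via a transversal contained in `K`
and is trivial as soon as it is trivial on a "unipotent generator".  The final statement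
`prod_hecke_eq_pow_card` is the resulting Hecke identity `∏ₓ φ (g'ₓ) = φ g ^ |X|` for `g ∈ K`.
-/

set_option autoImplicit false

namespace Fermat.Agent.S41.Menn.TransferEis

open scoped Pointwise

variable {Γ : Type*} [Group Γ] {M : Type*} [CommGroup M]

/-! ### Extension by one and the transfer with an explicit transversal -/

section Transfer

variable (S : Subgroup Γ)

/-- extension of a homomorphism on `S` to a function on `Γ` (value `1` outside `S`). -/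
noncomputable def extOne (ψ : S →* M) (g : Γ) : M := by
  classical exact if h : g ∈ S then ψ ⟨g, h⟩ else 1

theorem extOne_of_mem (ψ : S →* M) {g : Γ} (h : g ∈ S) : extOne S ψ g = ψ ⟨g, h⟩ := by
  classical
  unfold extOne
  rw [dif_pos h]

/-- the transfer computed with an explicit family of (inverse) coset representatives. -/
theorem transfer_eq_prod_extOne {X : Type*} [Fintype X] [S.FiniteIndex] (ψ : S →* M) (b : X → Γ)
    (hb : Function.Bijective (fun x => (((b x)⁻¹ : Γ) : Γ ⧸ S)))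
    (g : Γ) (σ : X → X) (hσ : ∀ x, b x * g * (b (σ x))⁻¹ ∈ S) :
    MonoidHom.transfer ψ g = ∏ x, extOne S ψ (b x * g * (b (σ x))⁻¹) := by
  classical
  let e : X ≃ Γ ⧸ S := Equiv.ofBijective _ hb
  let f : Γ ⧸ S → Γ := fun q => (b (e.symm q))⁻¹
  have hf : ∀ q, ((f q : Γ) : Γ ⧸ S) = q := fun q => e.apply_symm_apply q
  let T : S.LeftTransversal := ⟨Set.range f, Subgroup.isComplement_range_left hf⟩
  have hT : ∀ q, ((T.2.leftQuotientEquiv q : Γ)) = f q := fun q =>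
    Subgroup.IsComplement.leftQuotientEquiv_apply hf q
  have hgT : ∀ q, (((g • T).2.leftQuotientEquiv q : Γ)) = g * f (g⁻¹ • q) := fun q => by
    rw [Subgroup.smul_apply_eq_smul_apply_inv_smul, hT, smul_eq_mul]
  rw [MonoidHom.transfer_def ψ T g]
  unfold Subgroup.leftTransversals.diff
  simp only
  have hσ' : ∀ x, e.symm (g⁻¹ • e x) = σ x := fun x => by
    rw [Equiv.symm_apply_eq]
    show g⁻¹ • (((b x)⁻¹ : Γ) : Γ ⧸ S) = (((b (σ x))⁻¹ : Γ) : Γ ⧸ S)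
    rw [MulAction.Quotient.smul_mk, QuotientGroup.eq, smul_eq_mul]
    have := hσ x
    simpa [mul_assoc] using this
  have h1 : ∀ q : Γ ⧸ S, ∀ hq,
      ψ ⟨((T.2.leftQuotientEquiv q : Γ))⁻¹ * ((g • T).2.leftQuotientEquiv q : Γ), hq⟩ =
        extOne S ψ (b (e.symm q) * g * (b (σ (e.symm q)))⁻¹) := fun q hq => by
    rw [← extOne_of_mem]
    congr 1
    rw [hT, hgT]
    show ((b (e.symm q))⁻¹)⁻¹ * (g * (b (e.symm (g⁻¹ • q)))⁻¹) = _
    rw [inv_inv, mul_assoc]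
    congr 3
    rw [← hσ' (e.symm q), Equiv.apply_symm_apply]
  let _ := S.fintypeQuotientOfFiniteIndex
  refine (Finset.prod_congr rfl (fun q _ => h1 q _)).trans ?_
  exact Fintype.prod_equiv e.symm _ _ (fun q => rfl)

end Transfer

/-! ### The commutator homomorphism -/

section Comm

variable (G K : Subgroup Γ)

/-- `φ` restricted to `K` is invariant under conjugation by all of `Γ`. -/
def ConjInv (φ : G →* M) : Prop :=
  ∀ (x k : Γ) (_ : k ∈ K) (h1 : k ∈ G) (h2 : x * k * x⁻¹ ∈ G), φ ⟨x * k * x⁻¹, h2⟩ = φ ⟨k, h1⟩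

variable {G K} {S : Subgroup Γ}

/-- **(T1)** the commutator homomorphism `s ↦ φ (c s * s⁻¹)`. -/
def commHom (hKG : K ≤ G) [hK : K.Normal] (φ : G →* M) (hφ : ConjInv G K φ) (c : S →* Γ)
    (hc : ∀ s : S, c s * (s : Γ)⁻¹ ∈ K) : S →* M where
  toFun s := φ ⟨c s * (s : Γ)⁻¹, hKG (hc s)⟩
  map_one' := by
    have h : (⟨c 1 * ((1 : S) : Γ)⁻¹, hKG (hc 1)⟩ : G) = 1 := by
      apply Subtype.ext
      simp
    rw [h, map_one]
  map_mul' s s' := by
    have hconj : c s * (c s' * (s' : Γ)⁻¹) * (c s)⁻¹ ∈ K := hK.conj_mem _ (hc s') _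
    have key : (⟨c (s * s') * ((s * s' : S) : Γ)⁻¹, hKG (hc (s * s'))⟩ : G) =
        ⟨c s * (c s' * (s' : Γ)⁻¹) * (c s)⁻¹, hKG hconj⟩ * ⟨c s * (s : Γ)⁻¹, hKG (hc s)⟩ := by
      apply Subtype.ext
      show c (s * s') * ((s * s' : S) : Γ)⁻¹ =
        c s * (c s' * (s' : Γ)⁻¹) * (c s)⁻¹ * (c s * (s : Γ)⁻¹)
      rw [map_mul, Subgroup.coe_mul]
      group
    rw [key, map_mul, hφ (c s) _ (hc s') (hKG (hc s')) (hKG hconj), mul_comm]

theorem commHom_apply (hKG : K ≤ G) [K.Normal] (φ : G →* M) (hφ : ConjInv G K φ) (c : S →* Γ)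
    (hc : ∀ s : S, c s * (s : Γ)⁻¹ ∈ K) (s : S) :
    commHom hKG φ hφ c hc s = φ ⟨c s * (s : Γ)⁻¹, hKG (hc s)⟩ := rfl

/-- **(T2)** on elements of `S` which lie in `G` together with their image. -/
theorem commHom_apply_of_mem (hKG : K ≤ G) [K.Normal] (φ : G →* M) (hφ : ConjInv G K φ)
    (c : S →* Γ) (hc : ∀ s : S, c s * (s : Γ)⁻¹ ∈ K) (s : S) (h1 : (s : Γ) ∈ G) (h2 : c s ∈ G) :
    commHom hKG φ hφ c hc s = φ ⟨c s, h2⟩ * (φ ⟨s, h1⟩)⁻¹ := by
  rw [commHom_apply, ← map_inv, ← map_mul]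
  rfl

end Comm

/-! ### Conjugation by an element of an ambient group -/

section Ambient

variable {𝔾 : Type*} [Group 𝔾] (ι : Γ →* 𝔾) (α : 𝔾)

/-- `S = {s ∈ Γ | α ι(s) α⁻¹ ∈ ι(Γ)}`. -/
def conjSub : Subgroup Γ where
  carrier := {s | ∃ t : Γ, α * ι s * α⁻¹ = ι t}
  one_mem' := ⟨1, by simp⟩
  mul_mem' := by
    rintro s s' ⟨t, ht⟩ ⟨t', ht'⟩
    refine ⟨t * t', ?_⟩
    rw [map_mul, map_mul, ← ht, ← ht']
    group
  inv_mem' := by
    rintro s ⟨t, ht⟩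
    refine ⟨t⁻¹, ?_⟩
    rw [map_inv, map_inv, ← ht]
    group

theorem mem_conjSub_iff {s : Γ} : s ∈ conjSub ι α ↔ ∃ t : Γ, α * ι s * α⁻¹ = ι t := Iff.rfl

variable {ι}

/-- the conjugation map `s ↦ α s α⁻¹` as a map `S → Γ`. -/
noncomputable def conjFun (s : conjSub ι α) : Γ := s.2.choose

theorem conjFun_spec (s : conjSub ι α) : α * ι (s : Γ) * α⁻¹ = ι (conjFun α s) := s.2.choose_spec

theorem conjFun_eq (hι : Function.Injective ι) (s : conjSub ι α) {t : Γ}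
    (h : α * ι (s : Γ) * α⁻¹ = ι t) : conjFun α s = t :=
  hι ((conjFun_spec α s).symm.trans h)

/-- the conjugation homomorphism `c : S →* Γ`. -/
noncomputable def conjHom (hι : Function.Injective ι) : conjSub ι α →* Γ where
  toFun := conjFun α
  map_one' := conjFun_eq α hι 1 (by simp)
  map_mul' s s' := conjFun_eq α hι (s * s') (by
    rw [Subgroup.coe_mul, map_mul, map_mul, ← conjFun_spec, ← conjFun_spec]
    group)

theorem conjHom_spec (hι : Function.Injective ι) (s : conjSub ι α) :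
    α * ι (s : Γ) * α⁻¹ = ι (conjHom α hι s) := conjFun_spec α s

theorem conjHom_eq (hι : Function.Injective ι) (s : conjSub ι α) {t : Γ}
    (h : α * ι (s : Γ) * α⁻¹ = ι t) : conjHom α hι s = t := conjFun_eq α hι s h

end Ambient

/-! ### The main argument -/

section Main

variable {𝔾 : Type*} [Group 𝔾] {ι : Γ →* 𝔾} (hι : Function.Injective ι) (α : 𝔾)
variable {G K : Subgroup Γ} (hKG : K ≤ G) [hK : K.Normal]
variable (φ : G →* M) (hφ : ConjInv G K φ)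
variable (hα : ∀ s t : Γ, α * ι s * α⁻¹ = ι t → t * s⁻¹ ∈ K)

omit hK in
include hα in
theorem conjHom_mul_inv_mem (s : conjSub ι α) : conjHom α hι s * (s : Γ)⁻¹ ∈ K :=
  hα _ _ (conjHom_spec α hι s)

/-- the homomorphism `Ψ̃ : S →* M`, `s ↦ φ (α s α⁻¹ s⁻¹)`. -/
noncomputable def psi : conjSub ι α →* M :=
  commHom hKG φ hφ (conjHom α hι) (conjHom_mul_inv_mem hι α hα)

theorem psi_apply (s : conjSub ι α) :
    psi hι α hKG φ hφ hα s =
      φ ⟨conjHom α hι s * (s : Γ)⁻¹, hKG (conjHom_mul_inv_mem hι α hα s)⟩ := rfl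

theorem psi_apply_of_mem (s : conjSub ι α) (h1 : (s : Γ) ∈ G) (h2 : conjHom α hι s ∈ G) :
    psi hι α hKG φ hφ hα s = φ ⟨conjHom α hι s, h2⟩ * (φ ⟨s, h1⟩)⁻¹ :=
  commHom_apply_of_mem hKG φ hφ _ _ s h1 h2

/-- **(T3)** `Ψ̃` kills every element of `S` which is `Γ`-conjugate to a power of an element `u ∈ G`
such that `φ` kills every element of `G` which is conjugate in the ambient group to a power
of `u`. -/
theorem psi_conj_pow_eq_one (u : Γ) (hu : u ∈ G)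
    (hU : ∀ (h : G) (z : 𝔾) (n : ℕ), ι h = z * ι u ^ n * z⁻¹ → φ h = 1)
    (k : Γ) (n : ℕ) (hv : k⁻¹ * u ^ n * k ∈ conjSub ι α) :
    psi hι α hKG φ hφ hα ⟨k⁻¹ * u ^ n * k, hv⟩ = 1 := by
  set v : conjSub ι α := ⟨k⁻¹ * u ^ n * k, hv⟩ with hvdef
  set t : Γ := conjHom α hι v with htdef
  have ht : α * ι (v : Γ) * α⁻¹ = ι t := conjHom_spec α hι v
  have hκ : t * (v : Γ)⁻¹ ∈ K := conjHom_mul_inv_mem hι α hα v
  have hκ' : k * (t * (v : Γ)⁻¹) * k⁻¹ ∈ K := hK.conj_mem _ hκ _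
  have hun : u ^ n ∈ G := pow_mem hu n
  have hh : k * t * k⁻¹ ∈ G := by
    have : k * t * k⁻¹ = (k * (t * (v : Γ)⁻¹) * k⁻¹) * u ^ n := by
      show k * t * k⁻¹ = (k * (t * (k⁻¹ * u ^ n * k)⁻¹) * k⁻¹) * u ^ n
      group
    rw [this]
    exact mul_mem (hKG hκ') hun
  have hsplit : (⟨k * (t * (v : Γ)⁻¹) * k⁻¹, hKG hκ'⟩ : G) =
      ⟨k * t * k⁻¹, hh⟩ * (⟨u, hu⟩ ^ n)⁻¹ := by
    apply Subtype.ext
    show k * (t * (k⁻¹ * u ^ n * k)⁻¹) * k⁻¹ = k * t * k⁻¹ * (u ^ n)⁻¹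
    group
  have h1 : φ ⟨k * t * k⁻¹, hh⟩ = 1 := by
    apply hU _ (ι k * α * (ι k)⁻¹) n
    show ι (k * t * k⁻¹) = _
    rw [map_mul, map_mul, map_inv, ← ht]
    show ι k * (α * ι (k⁻¹ * u ^ n * k) * α⁻¹) * (ι k)⁻¹ = _
    rw [map_mul, map_mul, map_inv, map_pow]
    group
  have h2 : φ ⟨u, hu⟩ = 1 := by
    apply hU _ 1 1
    simp
  rw [psi_apply, ← hφ k _ hκ (hKG hκ) (hKG hκ'), hsplit, map_mul, map_inv, map_pow, h1, h2]
  simp

/-- **(T3')** the composite of the transfer with `Ψ̃` is trivial on `K`. -/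
theorem transfer_psi_eq_one [(conjSub ι α).FiniteIndex] (u : Γ) (hu : u ∈ G)
    (hU : ∀ (h : G) (z : 𝔾) (n : ℕ), ι h = z * ι u ^ n * z⁻¹ → φ h = 1)
    (hgen : ∀ f : Γ →* M, f u = 1 → ∀ g ∈ K, f g = 1) (g : Γ) (hg : g ∈ K) :
    MonoidHom.transfer (psi hι α hKG φ hφ hα) g = 1 := by
  classical
  refine hgen _ ?_ g hg
  let _ := (conjSub ι α).fintypeQuotientOfFiniteIndex
  rw [MonoidHom.transfer_eq_prod_quotient_orbitRel_zpowers_quot]
  refine Finset.prod_eq_one fun q _ => ?_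
  exact psi_conj_pow_eq_one hι α hKG φ hφ hα u hu hU _ _ _

/-! ### Comparison with a Hecke operator -/

section Hecke

variable {X : Type*} [Fintype X] (δ : X → 𝔾) (a : X → G) (β : X → K)
variable (hδ : ∀ x, δ x = ι (a x) * α * ι (β x))

omit [Fintype X] hK in
include hδ in
theorem conj_rel {x x' : X} {k k' : Γ} (h : δ x * ι k = ι k' * δ x') :
    α * ι ((β x : Γ) * k * (β x' : Γ)⁻¹) * α⁻¹ = ι (((a x : G) : Γ)⁻¹ * k' * (a x' : Γ)) := by
  rw [hδ x, hδ x'] at h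
  simp only [map_mul, map_inv]
  calc α * (ι (β x) * ι k * (ι (β x'))⁻¹) * α⁻¹
      = (ι (a x))⁻¹ * (ι (a x) * α * ι (β x) * ι k) * (ι (β x'))⁻¹ * α⁻¹ := by group
    _ = (ι (a x))⁻¹ * (ι k' * (ι (a x') * α * ι (β x'))) * (ι (β x'))⁻¹ * α⁻¹ := by rw [h]
    _ = (ι (a x))⁻¹ * ι k' * ι (a x') := by group

omit [Fintype X] hK in
include hδ in
theorem mem_conjSub_of_rel {x x' : X} {k k' : Γ} (h : δ x * ι k = ι k' * δ x') :
    (β x : Γ) * k * (β x' : Γ)⁻¹ ∈ conjSub ι α :=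
  ⟨_, conj_rel α δ a β hδ h⟩

variable (hdist : ∀ (x x' : X) (h : G), δ x = ι h * δ x' → x = x')
variable (hlev : ∀ (k : Γ) (x : X), ∃ (k' : Γ) (x' : X), δ x * ι k = ι k' * δ x')

omit [Fintype X] hK in
include hι hKG hα hδ hdist in
theorem injective_mk_inv :
    Function.Injective (fun x => ((((β x : Γ))⁻¹ : Γ) : Γ ⧸ conjSub ι α)) := by
  intro x x' h
  have h' : (β x : Γ) * (β x' : Γ)⁻¹ ∈ conjSub ι α := by
    have := QuotientGroup.eq.mp h
    simpa using this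
  set s : conjSub ι α := ⟨(β x : Γ) * (β x' : Γ)⁻¹, h'⟩ with hs
  have hsK : (s : Γ) ∈ K := mul_mem (β x).2 (inv_mem (β x').2)
  have hcs : conjHom α hι s ∈ K := by
    have := mul_mem (conjHom_mul_inv_mem hι α hα s) hsK
    simpa using this
  apply hdist x x' (a x * ⟨conjHom α hι s, hKG hcs⟩ * (a x')⁻¹)
  have hspec := conjHom_spec α hι s
  rw [hδ x, hδ x']
  show _ = ι ((a x : Γ) * conjHom α hι s * ((a x' : G) : Γ)⁻¹) * _
  rw [map_mul, map_mul, map_inv, ← hspec]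
  show _ = ι (a x) * (α * ι ((β x : Γ) * (β x' : Γ)⁻¹) * α⁻¹) * (ι (a x'))⁻¹ * _
  rw [map_mul, map_inv]
  group

omit [Fintype X] hK in
include hδ hlev in
theorem surjective_mk_inv [Nonempty X] :
    Function.Surjective (fun x => ((((β x : Γ))⁻¹ : Γ) : Γ ⧸ conjSub ι α)) := by
  intro q
  obtain ⟨m, rfl⟩ := QuotientGroup.mk_surjective q
  obtain ⟨x0⟩ := ‹Nonempty X›
  obtain ⟨k', x', h⟩ := hlev ((β x0 : Γ)⁻¹ * m⁻¹) x0
  refine ⟨x', ?_⟩
  have hmem := mem_conjSub_of_rel α δ a β hδ h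
  show (((β x' : Γ)⁻¹ : Γ) : Γ ⧸ conjSub ι α) = (m : Γ ⧸ conjSub ι α)
  rw [QuotientGroup.eq]
  have : ((β x' : Γ)⁻¹)⁻¹ * m = ((β x0 : Γ) * ((β x0 : Γ)⁻¹ * m⁻¹) * (β x' : Γ)⁻¹)⁻¹ := by group
  rw [this]
  exact inv_mem hmem

omit [Fintype X] hK in
include hι hKG hα hδ hdist hlev in
theorem bijective_mk_inv [Nonempty X] :
    Function.Bijective (fun x => ((((β x : Γ))⁻¹ : Γ) : Γ ⧸ conjSub ι α)) :=
  ⟨injective_mk_inv hι α hKG hα δ a β hδ hdist, surjective_mk_inv α δ a β hδ hlev⟩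

omit hK in
include hδ hlev in
theorem finiteIndex_conjSub [Nonempty X] : (conjSub ι α).FiniteIndex := by
  have : Finite (Γ ⧸ conjSub ι α) :=
    Finite.of_surjective _ (surjective_mk_inv α δ a β hδ hlev)
  exact Subgroup.finiteIndex_of_finite_quotient

omit [Fintype X] in
theorem prod_cancel_aux [Fintype X] (σ : Equiv.Perm X) (F B P : X → M) (c : M) :
    ∏ x, ((F x)⁻¹ * P x * F (σ x) * (B x * c * (B (σ x))⁻¹)⁻¹) =
      (∏ x, P x) * (c ^ Fintype.card X)⁻¹ := by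
  simp only [Finset.prod_mul_distrib, Finset.prod_inv_distrib, Finset.prod_const,
    Equiv.prod_comp σ F, Equiv.prod_comp σ B, Finset.card_univ]
  rw [mul_comm (∏ x, F x)⁻¹ (∏ x, P x), mul_assoc (∏ x, P x), inv_mul_cancel, mul_one,
    mul_comm (∏ x, B x), mul_inv_cancel_right]

include hι hφ hα hδ hdist hlev in
/-- **(T4)** the Hecke identity on `K`: if `δₓ = ι(aₓ) α ι(βₓ)` (`aₓ ∈ G`, `βₓ ∈ K`) are
representatives of distinct cosets `ι(G) δₓ`, permuted by right multiplication by `Γ`, then for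
`g ∈ K` with `δₓ ι(g) = ι(g'ₓ) δ_{σ x}` one has `∏ₓ φ(g'ₓ) = φ(g) ^ |X|`. -/
theorem prod_hecke_eq_pow_card [Nonempty X] (u : Γ) (hu : u ∈ G)
    (hU : ∀ (h : G) (z : 𝔾) (n : ℕ), ι h = z * ι u ^ n * z⁻¹ → φ h = 1)
    (hgen : ∀ f : Γ →* M, f u = 1 → ∀ g ∈ K, f g = 1)
    (g : Γ) (hg : g ∈ K) (σ : Equiv.Perm X) (g' : X → G)
    (hrel : ∀ x, δ x * ι g = ι (g' x) * δ (σ x)) :
    ∏ x, φ (g' x) = φ ⟨g, hKG hg⟩ ^ Fintype.card X := by
  have : (conjSub ι α).FiniteIndex := finiteIndex_conjSub α δ a β hδ hlev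
  have hγS : ∀ x, (β x : Γ) * g * (β (σ x) : Γ)⁻¹ ∈ conjSub ι α := fun x =>
    mem_conjSub_of_rel α δ a β hδ (hrel x)
  have hγK : ∀ x, (β x : Γ) * g * (β (σ x) : Γ)⁻¹ ∈ K := fun x =>
    mul_mem (mul_mem (β x).2 hg) (inv_mem (β (σ x)).2)
  have hc : ∀ x, conjHom α hι ⟨_, hγS x⟩ = ((a x : G) : Γ)⁻¹ * g' x * (a (σ x) : Γ) := fun x =>
    conjHom_eq α hι _ (conj_rel α δ a β hδ (hrel x))
  have hcG : ∀ x, conjHom α hι ⟨_, hγS x⟩ ∈ G := fun x => by
    rw [hc x]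
    exact mul_mem (mul_mem (inv_mem (a x).2) (g' x).2) (a (σ x)).2
  have h1 := transfer_psi_eq_one hι α hKG φ hφ hα u hu hU hgen g hg
  rw [transfer_eq_prod_extOne (conjSub ι α) (psi hι α hKG φ hφ hα) (fun x => (β x : Γ))
    (bijective_mk_inv hι α hKG hα δ a β hδ hdist hlev) g σ hγS] at h1
  have h2 : ∀ x, extOne (conjSub ι α) (psi hι α hKG φ hφ hα) ((β x : Γ) * g * (β (σ x) : Γ)⁻¹) =
      (φ (a x))⁻¹ * φ (g' x) * φ (a (σ x)) *
        (φ ⟨β x, hKG (β x).2⟩ * φ ⟨g, hKG hg⟩ * (φ ⟨β (σ x), hKG (β (σ x)).2⟩)⁻¹)⁻¹ := fun x => by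
    rw [extOne_of_mem _ _ (hγS x), psi_apply_of_mem hι α hKG φ hφ hα _ (hKG (hγK x)) (hcG x)]
    congr 1
    · rw [← map_inv, ← map_mul, ← map_mul]
      congr 1
      apply Subtype.ext
      exact hc x
    · congr 1
      rw [← map_inv, ← map_mul, ← map_mul]
      rfl
  rw [Finset.prod_congr rfl (fun x _ => h2 x),
    prod_cancel_aux σ (fun x => φ (a x)) (fun x => φ ⟨β x, hKG (β x).2⟩) (fun x => φ (g' x))
      (φ ⟨g, hKG hg⟩)] at h1
  exact mul_inv_eq_one.mp h1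

end Hecke

end Main

end Fermat.Agent.S41.Menn.TransferEis
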