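import Mathlib
import Fermat.Agent.S41.Menn.TransferEis
import Fermat.Agent.S29.Betti.HeckeHom

/-!
# S41, block (L3b): the transfer argument for `Betti.heckeHom`

Concrete instance of `TransferEis.prod_hecke_eq_pow_card` for `Γ = SL(2, ℤ)`, `G = Γ₀(N)`,
`K = Γ(N)`, the ambient group `GL (Fin 2) ℝ` and the Hecke representatives `heckeRep r x`:
if `c ∈ Hom(Γ₀(N), A)` is parabolic, `A` has odd exponent and `c` restricted to `Γ(N)` is invariant
under conjugation by `SL(2, ℤ)`, then for every prime `r ∤ N` which is a square modulo `N`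
`(T_r c)(g) = (r + 1) c(g)` for all `g ∈ Γ(N)`.
-/

set_option autoImplicit false

namespace Fermat.Agent.S41.Menn.TransferSL2

open CongruenceSubgroup Matrix.SpecialLinearGroup
open ModularCurve.Period
open P2MW.S_ModularForm_heckeT_slash_eq_self_of_mem_Gamma0.ModularForm.HeckeSlashInvariance
open Fermat.Agent.S29.Betti
open Fermat.Agent.S41.Menn.TransferEis
open scoped MatrixGroups
open OnePoint

noncomputable section

/-! ### Integer models of real matrices -/

/-- the entrywise cast `M₂(ℤ) → M₂(ℝ)`. -/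
def castM : Matrix (Fin 2) (Fin 2) ℤ →+* Matrix (Fin 2) (Fin 2) ℝ := (Int.castRingHom ℝ).mapMatrix

theorem castM_injective : Function.Injective castM := by
  intro A B h
  ext i j
  have := congrFun (congrFun h i) j
  simpa [castM] using this

theorem castM_apply (A : Matrix (Fin 2) (Fin 2) ℤ) (i j : Fin 2) : castM A i j = ((A i j : ℤ) : ℝ) := rfl

theorem coe_mapGL (g : SL(2, ℤ)) :
    ((mapGL ℝ g : GL (Fin 2) ℝ) : Matrix (Fin 2) (Fin 2) ℝ) = castM (g : Matrix (Fin 2) (Fin 2) ℤ) := by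
  ext i j
  simp [castM_apply]

variable (r : ℕ) [Fact r.Prime]

/-- integer model of `heckeRep r x`. -/
def repZ (x : OnePoint (ZMod r)) : Matrix (Fin 2) (Fin 2) ℤ :=
  x.elim !![(r : ℤ), 0; 0, 1] (fun j => !![1, (j.val : ℤ); 0, (r : ℤ)])

theorem coe_heckeRep (x : OnePoint (ZMod r)) :
    ((heckeRep r x : GL (Fin 2) ℝ) : Matrix (Fin 2) (Fin 2) ℝ) = castM (repZ r x) := by
  have hr : r ≠ 0 := (Fact.out : r.Prime).ne_zero
  induction x using OnePoint.rec with
  | infty =>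
    rw [heckeRep_infty, ModularForm.val_heckeDiagMatrix hr]
    ext i j
    fin_cases i <;> fin_cases j <;> simp [castM_apply, repZ]
  | coe j =>
    rw [heckeRep_coe, ModularForm.val_heckeMatrix hr]
    ext i j
    fin_cases i <;> fin_cases j <;> simp [castM_apply, repZ]

/-- relations in `GL (Fin 2) ℝ` between integral matrices descend to `M₂(ℤ)`. -/
theorem repZ_eq_of_rel {x x' : OnePoint (ZMod r)} {h : SL(2, ℤ)}
    (hh : heckeRep r x = mapGL ℝ h * heckeRep r x') :
    repZ r x = (h : Matrix (Fin 2) (Fin 2) ℤ) * repZ r x' := by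
  apply castM_injective
  rw [map_mul, ← coe_heckeRep, ← coe_heckeRep, ← coe_mapGL, hh]
  rfl

theorem rep_distinct {x x' : OnePoint (ZMod r)} {h : SL(2, ℤ)}
    (hh : heckeRep r x = mapGL ℝ h * heckeRep r x') : x = x' := by
  have hr : (r : ℤ) ≠ 0 := by exact_mod_cast (Fact.out : r.Prime).ne_zero
  have hr1 : (r : ℤ) ≠ 1 := by exact_mod_cast (Fact.out : r.Prime).one_lt.ne'
  have hrel := repZ_eq_of_rel r hh
  have e00 := congrFun (congrFun hrel 0) 0
  have e01 := congrFun (congrFun hrel 0) 1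
  have e10 := congrFun (congrFun hrel 1) 0
  have e11 := congrFun (congrFun hrel 1) 1
  induction x using OnePoint.rec with
  | infty =>
    induction x' using OnePoint.rec with
    | infty => rfl
    | coe j' =>
      exfalso
      simp [repZ, Matrix.mul_apply, Fin.sum_univ_two] at e00 e01 e10 e11
      -- e10 : 0 = h 1 0, e11 : 1 = h 1 0 * j' + h 1 1 * r
      rw [← e10] at e11
      have : (r : ℤ) ∣ 1 := ⟨h 1 1, by linarith⟩
      exact (Fact.out : r.Prime).one_lt.ne' (by exact_mod_cast Int.eq_one_of_dvd_one (by positivity) this)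
  | coe j =>
    induction x' using OnePoint.rec with
    | infty =>
      exfalso
      simp [repZ, Matrix.mul_apply, Fin.sum_univ_two] at e00 e01 e10 e11
      -- e00 : 1 = h 0 0 * r
      have : (r : ℤ) ∣ 1 := ⟨h 0 0, by linarith⟩
      exact (Fact.out : r.Prime).one_lt.ne' (by exact_mod_cast Int.eq_one_of_dvd_one (by positivity) this)
    | coe j' =>
      simp [repZ, Matrix.mul_apply, Fin.sum_univ_two] at e00 e01 e10 e11
      -- e00 : 1 = h 0 0 ; e01 : j = h 0 0 * j' + h 0 1 * r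
      congr 1
      have h1 := congrArg (Int.cast : ℤ → ZMod r) e01
      rw [← e00] at h1
      simpa using h1

/-! ### The element `α` -/

variable {r} {N : ℕ}

theorem isCoprime_of_not_dvd (hrN : ¬ r ∣ N) : IsCoprime (r : ℤ) (N : ℤ) :=
  Nat.isCoprime_iff_coprime.mpr ((Nat.Prime.coprime_iff_not_dvd Fact.out).mpr hrN)

/-- normalisation of the square root: coprime to `N * N * r`. -/
theorem exists_lam (hrN : ¬ r ∣ N) {lam : ℤ} (hlam : lam ^ 2 ≡ (r : ℤ) [ZMOD N]) :
    ∃ l : ℤ, l ^ 2 ≡ (r : ℤ) [ZMOD N] ∧ IsCoprime l ((N : ℤ) * N * r) := by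
  have hrN' := isCoprime_of_not_dvd hrN
  have hprime : Prime (r : ℤ) := Nat.prime_iff_prime_int.mp Fact.out
  have key : ∀ l : ℤ, l ^ 2 ≡ (r : ℤ) [ZMOD N] → IsCoprime l (N : ℤ) := fun l hl => by
    have h1 : IsCoprime (l ^ 2) (N : ℤ) := by
      obtain ⟨k, hk⟩ := hl.symm.dvd
      have : l ^ 2 = (r : ℤ) + N * k := by linarith
      rw [this]
      exact hrN'.add_mul_left_left k
    exact IsCoprime.pow_left_iff (by norm_num) |>.mp h1
  by_cases hdiv : (r : ℤ) ∣ lam
  · refine ⟨lam + N, ?_, ?_⟩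
    · have : (lam + N) ^ 2 ≡ lam ^ 2 [ZMOD N] := by
        apply Int.ModEq.pow
        exact (Int.emod_emod_of_dvd _ dvd_rfl ▸ Int.add_mul_emod_self_left lam N 1 ▸ by simp :
          (lam + N) % N = lam % N)
      exact this.trans hlam
    · have h2 : IsCoprime (lam + N) (N : ℤ) := by
        have := key lam hlam
        simpa using this.add_mul_left_left 1
      have h3 : IsCoprime (lam + N) (r : ℤ) := by
        rw [isCoprime_comm, hprime.coprime_iff_not_dvd]
        intro hd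
        have : (r : ℤ) ∣ N := by simpa using dvd_sub hd hdiv
        exact hrN (by exact_mod_cast this)
      exact (h2.mul_right h2).mul_right h3
  · refine ⟨lam, hlam, ?_⟩
    have h2 := key lam hlam
    have h3 : IsCoprime lam (r : ℤ) := by
      rw [isCoprime_comm, hprime.coprime_iff_not_dvd]
      exact hdiv
    exact (h2.mul_right h2).mul_right h3

/-- the matrix `y = [[u, -N v], [N r, l]] ∈ Γ₀(N)`. -/
def yMat (N r : ℕ) (l u v : ℤ) (h : u * l + v * ((N : ℤ) * N * r) = 1) : SL(2, ℤ) :=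
  ⟨!![u, -((N : ℤ) * v); (N : ℤ) * r, l], by rw [Matrix.det_fin_two_of]; linear_combination h⟩

/-- integer model of `α = heckeRep r ∞ * y`. -/
def alphaZ (N r : ℕ) (l u v : ℤ) : Matrix (Fin 2) (Fin 2) ℤ :=
  !![(r : ℤ) * u, -((r : ℤ) * N * v); (N : ℤ) * r, l]

theorem repZ_infty_mul_yMat (l u v : ℤ) (h : u * l + v * ((N : ℤ) * N * r) = 1) :
    repZ r ∞ * (yMat N r l u v h : Matrix (Fin 2) (Fin 2) ℤ) = alphaZ N r l u v := by
  ext i j
  fin_cases i <;> fin_cases j <;>
    (simp [repZ, yMat, alphaZ, Matrix.mul_apply, Fin.sum_univ_two]; try ring)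

omit [Fact (Nat.Prime r)] in
/-- `α` is scalar modulo `N`, hence conjugation by `α` is trivial modulo `N`. -/
theorem slmod_eq_of_alphaZ_mul {l u v : ℤ} (hl : l ^ 2 ≡ (r : ℤ) [ZMOD N])
    (h : u * l + v * ((N : ℤ) * N * r) = 1) {s t : SL(2, ℤ)}
    (hst : alphaZ N r l u v * (s : Matrix (Fin 2) (Fin 2) ℤ) =
      (t : Matrix (Fin 2) (Fin 2) ℤ) * alphaZ N r l u v) :
    Matrix.SpecialLinearGroup.map (Int.castRingHom (ZMod N)) s =
      Matrix.SpecialLinearGroup.map (Int.castRingHom (ZMod N)) t := by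
  have hN : ((N : ℤ) : ZMod N) = 0 := by simp
  have hul : ((u : ℤ) : ZMod N) * (l : ZMod N) = 1 := by
    have := congrArg (Int.cast : ℤ → ZMod N) h
    push_cast at this
    have hN' : (N : ZMod N) = 0 := by simp
    rw [hN'] at this
    simpa using this
  have hr : ((r : ℕ) : ZMod N) = (l : ZMod N) ^ 2 := by
    have := (ZMod.intCast_eq_intCast_iff _ _ _).mpr hl
    push_cast at this
    exact this.symm
  have hru : ((r : ℕ) : ZMod N) * (u : ZMod N) = (l : ZMod N) := by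
    rw [hr]
    linear_combination (l : ZMod N) * hul
  have hcancel : ∀ a b : ZMod N, (l : ZMod N) * a = l * b → a = b := fun a b hab => by
    linear_combination (u : ZMod N) * hab - (a - b) * hul
  have e00 := congrArg (Int.cast : ℤ → ZMod N) (congrFun (congrFun hst 0) 0)
  have e01 := congrArg (Int.cast : ℤ → ZMod N) (congrFun (congrFun hst 0) 1)
  have e10 := congrArg (Int.cast : ℤ → ZMod N) (congrFun (congrFun hst 1) 0)
  have e11 := congrArg (Int.cast : ℤ → ZMod N) (congrFun (congrFun hst 1) 1)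
  simp only [alphaZ, Matrix.mul_apply, Fin.sum_univ_two, Matrix.of_apply, Matrix.cons_val',
    Matrix.cons_val_zero, Matrix.cons_val_one, Matrix.cons_val_fin_one] at e00 e01 e10 e11
  push_cast at e00 e01 e10 e11
  have hN' : (N : ZMod N) = 0 := by simp
  apply Subtype.ext
  ext i j
  fin_cases i <;> fin_cases j
  · show ((s 0 0 : ℤ) : ZMod N) = ((t 0 0 : ℤ) : ZMod N)
    apply hcancel
    linear_combination e00 - ((s 0 0 : ZMod N) - (t 0 0 : ZMod N)) * hru +
      ((r : ZMod N) * v * (s 1 0 : ZMod N) + (t 0 1 : ZMod N) * r) * hN'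
  · show ((s 0 1 : ℤ) : ZMod N) = ((t 0 1 : ℤ) : ZMod N)
    apply hcancel
    linear_combination e01 - ((s 0 1 : ZMod N)) * hru +
      ((r : ZMod N) * v * (s 1 1 : ZMod N) - (t 0 0 : ZMod N) * r * v) * hN'
  · show ((s 1 0 : ℤ) : ZMod N) = ((t 1 0 : ℤ) : ZMod N)
    apply hcancel
    linear_combination e10 + ((t 1 0 : ZMod N)) * hru +
      (-(r : ZMod N) * (s 0 0 : ZMod N) + (t 1 1 : ZMod N) * r) * hN'
  · show ((s 1 1 : ℤ) : ZMod N) = ((t 1 1 : ℤ) : ZMod N)
    apply hcancel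
    linear_combination e11 +
      (-(r : ZMod N) * (s 0 1 : ZMod N) - (t 1 0 : ZMod N) * r * v) * hN'

/-- the element `α = heckeRep r ∞ * y` of `GL (Fin 2) ℝ`. -/
def alphaGL (N r : ℕ) [Fact r.Prime] (l u v : ℤ) (h : u * l + v * ((N : ℤ) * N * r) = 1) :
    GL (Fin 2) ℝ :=
  heckeRep r ∞ * mapGL ℝ (yMat N r l u v h)

theorem coe_alphaGL (l u v : ℤ) (h : u * l + v * ((N : ℤ) * N * r) = 1) :
    ((alphaGL N r l u v h : GL (Fin 2) ℝ) : Matrix (Fin 2) (Fin 2) ℝ) = castM (alphaZ N r l u v) := by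
  rw [alphaGL, Units.val_mul, coe_heckeRep, coe_mapGL, ← map_mul, repZ_infty_mul_yMat]

/-- **`α` is central modulo `Γ(N)`.** -/
theorem alpha_central {l u v : ℤ} (hl : l ^ 2 ≡ (r : ℤ) [ZMOD N])
    (h : u * l + v * ((N : ℤ) * N * r) = 1) (s t : SL(2, ℤ))
    (hst : alphaGL N r l u v h * mapGL ℝ s * (alphaGL N r l u v h)⁻¹ = mapGL ℝ t) :
    t * s⁻¹ ∈ Gamma N := by
  have h1 : alphaGL N r l u v h * mapGL ℝ s = mapGL ℝ t * alphaGL N r l u v h :=
    mul_inv_eq_iff_eq_mul.mp hst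
  have h2 : alphaZ N r l u v * (s : Matrix (Fin 2) (Fin 2) ℤ) =
      (t : Matrix (Fin 2) (Fin 2) ℤ) * alphaZ N r l u v := by
    apply castM_injective
    rw [map_mul, map_mul, ← coe_alphaGL l u v h, ← coe_mapGL, ← coe_mapGL, ← Units.val_mul,
      ← Units.val_mul, h1]
  have h3 := slmod_eq_of_alphaZ_mul hl h h2
  rw [Gamma_mem', map_mul, map_inv, h3, mul_inv_cancel]

/-! ### The representatives `β_x ∈ Γ(N)` -/

/-- `e21(N) e12(N t) = [[1, N t], [N, 1 + N² t]] ∈ Γ(N)`. -/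
def betaMat (N : ℕ) (t : ℤ) : SL(2, ℤ) :=
  ⟨!![1, (N : ℤ) * t; (N : ℤ), 1 + (N : ℤ) * N * t], by rw [Matrix.det_fin_two_of]; ring⟩

theorem betaMat_mem (t : ℤ) : betaMat N t ∈ Gamma N := by
  rw [Gamma_mem]
  simp [betaMat]

/-- the parameter `t_j ≡ (j N - 1) / N² mod r`. -/
def tOf (N r : ℕ) (j : ZMod r) : ℤ := (((j * (N : ZMod r) - 1) * ((N : ZMod r) ^ 2)⁻¹ : ZMod r).val : ℤ)

theorem tOf_cast (j : ZMod r) :
    ((tOf N r j : ℤ) : ZMod r) = (j * (N : ZMod r) - 1) * ((N : ZMod r) ^ 2)⁻¹ := by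
  rw [tOf, Int.cast_natCast, ZMod.natCast_zmod_val]

/-- the representatives `β_x`. -/
def betaFun (N r : ℕ) (x : OnePoint (ZMod r)) : SL(2, ℤ) := x.elim 1 (fun j => betaMat N (tOf N r j))

omit [Fact (Nat.Prime r)] in
theorem betaFun_mem (x : OnePoint (ZMod r)) : betaFun N r x ∈ Gamma N := by
  induction x using OnePoint.rec with
  | infty => exact one_mem _
  | coe j => exact betaMat_mem _

theorem natCast_ne_zero (hrN : ¬ r ∣ N) : (N : ZMod r) ≠ 0 := by
  rw [Ne, ZMod.natCast_eq_zero_iff]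
  exact hrN

theorem intCast_ne_zero_of_isCoprime {l : ℤ} (hl : IsCoprime l (r : ℤ)) : (l : ZMod r) ≠ 0 := by
  rw [Ne, ZMod.intCast_zmod_eq_zero_iff_dvd]
  intro hd
  have hprime : Prime (r : ℤ) := Nat.prime_iff_prime_int.mp Fact.out
  exact (hprime.coprime_iff_not_dvd.mp hl.symm) hd

omit [Fact (Nat.Prime r)] in
theorem betaFun_infty : betaFun N r ∞ = 1 := rfl

omit [Fact (Nat.Prime r)] in
theorem betaFun_coe (j : ZMod r) : betaFun N r (j : OnePoint (ZMod r)) = betaMat N (tOf N r j) := rfl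

theorem sl_mul_10 (A B : SL(2, ℤ)) : (A * B) 1 0 = A 1 0 * B 0 0 + A 1 1 * B 1 0 := by
  rw [Matrix.SpecialLinearGroup.coe_mul, Matrix.mul_apply, Fin.sum_univ_two]

theorem sl_mul_11 (A B : SL(2, ℤ)) : (A * B) 1 1 = A 1 0 * B 0 1 + A 1 1 * B 1 1 := by
  rw [Matrix.SpecialLinearGroup.coe_mul, Matrix.mul_apply, Fin.sum_univ_two]

theorem red_smul_infty (hrN : ¬ r ∣ N) {l u v : ℤ} (h : u * l + v * ((N : ℤ) * N * r) = 1)
    (hlr : IsCoprime l (r : ℤ)) (x : OnePoint (ZMod r)) :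
    redMatrix r (yMat N r l u v h * betaFun N r x) • (∞ : OnePoint (ZMod r)) = x := by
  have hN0 := natCast_ne_zero hrN
  have hl0 := intCast_ne_zero_of_isCoprime hlr
  have hr0 : ((r : ℕ) : ZMod r) = 0 := ZMod.natCast_self r
  rw [OnePoint.smul_infty_eq_ite, redMatrix_apply_one_zero, redMatrix_apply_zero_zero]
  induction x using OnePoint.rec with
  | infty =>
    have hZ : (yMat N r l u v h * betaFun N r ∞) 1 0 = (N : ℤ) * r := by
      rw [betaFun_infty, mul_one]
      simp [yMat]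
    have : (((yMat N r l u v h * betaFun N r ∞) 1 0 : ℤ) : ZMod r) = 0 := by
      rw [hZ]
      push_cast
      rw [hr0, mul_zero]
    rw [if_pos this]
  | coe j =>
    have h10Z : (yMat N r l u v h * betaFun N r (j : OnePoint (ZMod r))) 1 0 =
        (N : ℤ) * r + l * N := by
      rw [betaFun_coe, sl_mul_10]
      simp [yMat, betaMat]
    have h11Z : (yMat N r l u v h * betaFun N r (j : OnePoint (ZMod r))) 1 1 =
        (N : ℤ) * r * (N * tOf N r j) + l * (1 + N * N * tOf N r j) := by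
      rw [betaFun_coe, sl_mul_11]
      simp [yMat, betaMat]
    have h10 : (((yMat N r l u v h * betaFun N r (j : OnePoint (ZMod r))) 1 0 : ℤ) : ZMod r) =
        (N : ZMod r) * l := by
      rw [h10Z]
      push_cast
      rw [hr0]
      ring
    have h11 : (((yMat N r l u v h * betaFun N r (j : OnePoint (ZMod r))) 1 1 : ℤ) : ZMod r) =
        (l : ZMod r) * (1 + (N : ZMod r) ^ 2 * (tOf N r j : ZMod r)) := by
      rw [h11Z]
      push_cast
      rw [hr0]
      ring
    rw [h10, h11, if_neg (mul_ne_zero hN0 hl0), tOf_cast]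
    congr 1
    field_simp
    ring

/-! ### The Hecke data -/

omit [Fact (Nat.Prime r)] in
theorem yMat_mem (l u v : ℤ) (h : u * l + v * ((N : ℤ) * N * r) = 1) :
    yMat N r l u v h ∈ Gamma0 N := by
  apply mem_Gamma0_of_dvd
  simp [yMat]

theorem Gamma_le_Gamma0 : Gamma N ≤ Gamma0 N := by
  intro g hg
  rw [Gamma_mem] at hg
  rw [Gamma0_mem]
  exact hg.2.2.1

omit [Fact (Nat.Prime r)] in
theorem yb_mem (l u v : ℤ) (h : u * l + v * ((N : ℤ) * N * r) = 1) (x : OnePoint (ZMod r)) :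
    yMat N r l u v h * betaFun N r x ∈ Gamma0 N :=
  mul_mem (yMat_mem l u v h) (Gamma_le_Gamma0 (betaFun_mem x))

/-- the elements `a_x ∈ Γ₀(N)`. -/
def aFun (hrN : ¬ r ∣ N) (l u v : ℤ) (h : u * l + v * ((N : ℤ) * N * r) = 1)
    (x : OnePoint (ZMod r)) : Gamma0 N :=
  (stepG hrN ⟨yMat N r l u v h * betaFun N r x, yb_mem l u v h x⟩ ∞)⁻¹

/-- **the decomposition `δ_x = a_x α β_x`.** -/
theorem heckeRep_eq (hrN : ¬ r ∣ N) {l u v : ℤ} (h : u * l + v * ((N : ℤ) * N * r) = 1)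
    (hlr : IsCoprime l (r : ℤ)) (x : OnePoint (ZMod r)) :
    heckeRep r x = mapGL ℝ ((aFun hrN l u v h x : Gamma0 N) : SL(2, ℤ)) * alphaGL N r l u v h *
      mapGL ℝ (betaFun N r x) := by
  have hrel := stepSL_rel hrN ⟨yMat N r l u v h * betaFun N r x, yb_mem l u v h x⟩ ∞
  rw [show ((⟨yMat N r l u v h * betaFun N r x, yb_mem l u v h x⟩ : Gamma0 N) : SL(2, ℤ)) =
    yMat N r l u v h * betaFun N r x from rfl, red_smul_infty hrN h hlr x, map_mul] at hrel
  rw [aFun, InvMemClass.coe_inv, map_inv, stepG_coe, alphaGL, mul_assoc, mul_assoc, hrel,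
    inv_mul_cancel_left]

/-- the level one Hecke relation. -/
theorem heckeRep_level_one (k : SL(2, ℤ)) (x : OnePoint (ZMod r)) :
    ∃ (k' : SL(2, ℤ)) (x' : OnePoint (ZMod r)),
      heckeRep r x * mapGL ℝ k = mapGL ℝ k' * heckeRep r x' := by
  have h1 : ¬ r ∣ 1 := (Fact.out : r.Prime).one_lt.ne' ∘ Nat.dvd_one.mp
  obtain ⟨g', -, hg'⟩ := heckeRep_mul (N := 1) h1 k (by simp) x
  exact ⟨g', _, hg'⟩

/-! ### The unipotent generator -/

theorem trace_castM (A : Matrix (Fin 2) (Fin 2) ℤ) : (castM A).trace = ((A.trace : ℤ) : ℝ) := by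
  rw [Matrix.trace_fin_two, Matrix.trace_fin_two, castM_apply, castM_apply]
  push_cast
  rfl

/-- an element of `SL(2, ℤ)` which is conjugate in `GL (Fin 2) ℝ` to a power of `T` has trace `2`. -/
theorem trace_eq_two_of_conj {h : SL(2, ℤ)} {z : GL (Fin 2) ℝ} {n : ℕ}
    (hh : mapGL ℝ h = z * mapGL ℝ ModularGroup.T ^ n * z⁻¹) :
    (h : Matrix (Fin 2) (Fin 2) ℤ).trace = 2 := by
  have h1 : ((mapGL ℝ h : GL (Fin 2) ℝ) : Matrix (Fin 2) (Fin 2) ℝ).trace =
      ((z * mapGL ℝ ModularGroup.T ^ n * z⁻¹ : GL (Fin 2) ℝ) : Matrix (Fin 2) (Fin 2) ℝ).trace := by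
    rw [hh]
  rw [← map_pow, Units.val_mul, Units.val_mul, Matrix.trace_units_conj, coe_mapGL, coe_mapGL,
    trace_castM, trace_castM] at h1
  have h2 : ((ModularGroup.T ^ n : SL(2, ℤ)) : Matrix (Fin 2) (Fin 2) ℤ).trace = 2 := by
    rw [← zpow_natCast, ModularGroup.coe_T_zpow, Matrix.trace_fin_two_of]
    norm_num
  rw [h2] at h1
  exact_mod_cast h1

theorem T_mem_Gamma0 : ModularGroup.T ∈ Gamma0 N := by
  apply mem_Gamma0_of_dvd
  simp [ModularGroup.T]

theorem S_pow_four : ModularGroup.S ^ 4 = 1 := by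
  have h2 : ModularGroup.S * ModularGroup.S = -1 := by
    apply Subtype.ext
    rw [Matrix.SpecialLinearGroup.coe_mul, ModularGroup.S_mul_S_eq]
    simp
  rw [show (4 : ℕ) = 2 + 2 from rfl, pow_add, pow_two, h2]
  simp

/-- a homomorphism from `SL(2, ℤ)` to a commutative group of odd exponent which kills `T` is
trivial. -/
theorem hom_eq_one_of_T {M : Type*} [CommGroup M] {p : ℕ} (hp : Odd p) (hpM : ∀ m : M, m ^ p = 1)
    (f : SL(2, ℤ) →* M) (hT : f ModularGroup.T = 1) (g : SL(2, ℤ)) : f g = 1 := by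
  have hS : f ModularGroup.S = 1 := by
    have hcop : Nat.Coprime 4 p := by
      rw [show (4 : ℕ) = 2 ^ 2 from rfl]
      exact Nat.Coprime.pow_left 2 (Nat.coprime_two_left.mpr hp)
    apply (pow_eq_one_iff_of_coprime hcop).mp
    refine ⟨?_, hpM _⟩
    rw [← map_pow, S_pow_four, map_one]
  have : f = 1 := by
    apply MonoidHom.eq_of_eqOn_dense SpecialLinearGroup.SL2Z_generators
    intro x hx
    rcases hx with rfl | hx
    · simpa using hS
    · rw [Set.mem_singleton_iff] at hx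
      subst hx
      simpa using hT
  rw [this]
  rfl

/-! ### The main theorem -/

theorem card_onePoint : Fintype.card (OnePoint (ZMod r)) = r + 1 := by
  show Fintype.card (Option (ZMod r)) = r + 1
  rw [Fintype.card_option, ZMod.card]

/-- **(T4) for `Betti.heckeHom`**: if `c` is parabolic with values in a group of odd exponent and
`c` restricted to `Γ(N)` is invariant under conjugation by `SL(2, ℤ)`, then for a prime `r ∤ N`
which is a square modulo `N` one has `(T_r c)(g) = (r + 1) c(g)` for `g ∈ Γ(N)`. -/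
theorem heckeHom_apply_of_mem_Gamma (hrN : ¬ r ∣ N) {lam : ℤ} (hlam : lam ^ 2 ≡ (r : ℤ) [ZMOD N])
    {p : ℕ} (hp : Odd p) {A : Type*} [AddCommGroup A] (hpA : ∀ a : A, p • a = 0)
    (c : Additive (Gamma0 N) →+ A) (hc : IsParabolicHom (Gamma0 N) c)
    (hA : ∀ (x : SL(2, ℤ)) (k : Gamma0 N), (k : SL(2, ℤ)) ∈ Gamma N →
      ∀ h : x * k * x⁻¹ ∈ Gamma0 N, c (Additive.ofMul ⟨x * k * x⁻¹, h⟩) = c (Additive.ofMul k))
    (g : Gamma0 N) (hg : (g : SL(2, ℤ)) ∈ Gamma N) :
    heckeHom hrN A c (Additive.ofMul g) = (r + 1) • c (Additive.ofMul g) := by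
  obtain ⟨l, hl, hcop⟩ := exists_lam hrN hlam
  obtain ⟨u, v, huv⟩ := hcop
  have hlr : IsCoprime l (r : ℤ) := ⟨u, v * ((N : ℤ) * N), by linear_combination huv⟩
  have : (Gamma N).Normal := Gamma_normal N
  let φ : Gamma0 N →* Multiplicative A := AddMonoidHom.toMultiplicativeRight c
  have hφapp : ∀ k : Gamma0 N, φ k = Multiplicative.ofAdd (c (Additive.ofMul k)) := fun k => rfl
  have hφ : ConjInv (Gamma0 N) (Gamma N) φ := fun x k hk h1 h2 => by
    rw [hφapp, hφapp, hA x ⟨k, h1⟩ hk h2]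
  have hU : ∀ (h : Gamma0 N) (z : GL (Fin 2) ℝ) (n : ℕ),
      mapGL ℝ (h : SL(2, ℤ)) = z * mapGL ℝ ModularGroup.T ^ n * z⁻¹ → φ h = 1 := by
    intro h z n hh
    have htr := trace_eq_two_of_conj hh
    rw [hφapp, hc h (by rw [htr]; norm_num)]
    rfl
  have hgen : ∀ f : SL(2, ℤ) →* Multiplicative A, f ModularGroup.T = 1 →
      ∀ g ∈ Gamma N, f g = 1 := fun f hT g _ =>
    hom_eq_one_of_T hp (fun m => by
      apply Multiplicative.toAdd.injective
      rw [toAdd_pow, hpA]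
      rfl) f hT g
  have key := prod_hecke_eq_pow_card (ι := mapGL ℝ) mapGL_injective (alphaGL N r l u v huv)
    Gamma_le_Gamma0 φ hφ (alpha_central hl huv) (heckeRep r) (aFun hrN l u v huv)
    (fun x => ⟨betaFun N r x, betaFun_mem x⟩) (heckeRep_eq hrN huv hlr)
    (fun x x' h hh => rep_distinct r hh) heckeRep_level_one
    ModularGroup.T T_mem_Gamma0 hU hgen (g : SL(2, ℤ)) hg
    (MulAction.toPerm (redMatrix r (g : SL(2, ℤ)))) (fun x => stepG hrN g x)
    (fun x => stepSL_rel hrN g x)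
  have key2 := congrArg Multiplicative.toAdd key
  rw [toAdd_prod, toAdd_pow, card_onePoint] at key2
  rw [heckeHom_apply]
  exact key2

end

end Fermat.Agent.S41.Menn.TransferSL2
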