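/-
S41 / Menn: `SL₂(ℤ[1/q]) = G · e21(ℤ[1/q]) · e12(ℤ[1/q])` (for `gcd(q, N) = 1`), hence the full
centrality statement: `Φ (x k x⁻¹) = Φ k` for ALL `x ∈ SL₂(ℤ[1/q])`, `k ∈ Γ(N)(ℤ[1/q])`
(`SLA_le_invSub`, `central_SLA`), on top of `Central4` (which has `G`, `e21 t`, `SL(2,ℤ)`).
Needed e.g. for `x = conjD (castSL y) = [[a, b/q],[q c, d]]`, `y ∈ SL(2,ℤ)`.
-/
import Fermat.Agent.S41.Menn.Central4

set_option autoImplicit false
set_option linter.unusedSectionVars false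
set_option linter.unusedTactic false
set_option linter.unreachableTactic false
set_option linter.unnecessarySeqFocus false
set_option linter.unusedSimpArgs false
set_option linter.unusedVariables false

namespace Fermat.Agent.S41.Menn

open Matrix

variable {B : Type*} [CommGroup B]

/-- integer lemma: if `gcd(c,d)` is prime to `N` then some `d + c s` is prime to `N`. -/
theorem exists_isCoprime_add_mul {N : ℤ} (hN : N ≠ 0) (c d : ℤ)
    (h : IsCoprime (Int.gcd c d : ℤ) N) : ∃ s : ℤ, IsCoprime (d + c * s) N := by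
  set g : ℕ := Int.gcd c N with hg
  have hgN : g ∣ N.natAbs := by
    have : (g : ℤ) ∣ N := Int.gcd_dvd_right c N
    exact Int.natCast_dvd.mp this
  have : NeZero N.natAbs := ⟨Int.natAbs_ne_zero.mpr hN⟩
  have hdg : IsCoprime (g : ℤ) d := by
    rw [Int.isCoprime_iff_gcd_eq_one]
    set e : ℕ := Int.gcd (g : ℤ) d with he
    have e1 : (e : ℤ) ∣ d := Int.gcd_dvd_right _ _
    have e2 : (e : ℤ) ∣ (g : ℤ) := Int.gcd_dvd_left _ _
    have e3 : (e : ℤ) ∣ c := e2.trans (Int.gcd_dvd_left c N)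
    have e4 : (e : ℤ) ∣ N := e2.trans (Int.gcd_dvd_right c N)
    have e5 : (e : ℤ) ∣ (Int.gcd c d : ℤ) := Int.dvd_coe_gcd e3 e1
    have := h.isUnit_of_dvd' e5 e4
    have h' := Int.isUnit_iff.mp this
    omega
  have hu : IsUnit ((d : ℤ) : ZMod g) := (ZMod.coe_int_isUnit_iff_isCoprime d g).mpr hdg
  obtain ⟨u, hu'⟩ := ZMod.unitsMap_surjective hgN hu.unit
  obtain ⟨d', hd'⟩ := ZMod.intCast_surjective (u : ZMod N.natAbs)
  have h1 : IsCoprime d' N := by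
    have : IsUnit ((d' : ℤ) : ZMod N.natAbs) := by rw [hd']; exact u.isUnit
    have h2 := (ZMod.coe_int_isUnit_iff_isCoprime d' N.natAbs).mp this
    have h3 : IsCoprime N d' := by
      rcases Int.natAbs_eq N with hh | hh
      · rw [hh]; exact h2
      · rw [hh]; exact h2.neg_left
    exact h3.symm
  have h2 : (g : ℤ) ∣ d' - d := by
    have h3 : ((d' : ℤ) : ZMod g) = ((d : ℤ) : ZMod g) := by
      have := congrArg (fun v : (ZMod g)ˣ => (v : ZMod g)) hu'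
      simp only [ZMod.unitsMap, Units.coe_map, IsUnit.unit_spec] at this
      rw [← hd'] at this
      simpa using this
    have := (ZMod.intCast_eq_intCast_iff_dvd_sub d d' g).mp h3.symm
    exact this
  obtain ⟨m, hm⟩ := h2
  have hxy : (g : ℤ) = c * Int.gcdA c N + N * Int.gcdB c N := Int.gcd_eq_gcd_ab c N
  refine ⟨Int.gcdA c N * m, ?_⟩
  have : d + c * (Int.gcdA c N * m) = d' + (-(Int.gcdB c N * m)) * N := by
    linear_combination (-1 : ℤ) * hm - m * hxy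
  rw [this]
  exact IsCoprime.add_mul_right_left h1 _

theorem AQ.exists_common_den {q : ℕ} (hq : 0 < q) {x y : ℚ} (hx : AQ q x) (hy : AQ q y) :
    ∃ (n m : ℤ) (k : ℕ), x = (n : ℚ) / (q : ℚ) ^ k ∧ y = (m : ℚ) / (q : ℚ) ^ k := by
  obtain ⟨n, k, rfl⟩ := hx
  obtain ⟨m, l, rfl⟩ := hy
  refine ⟨n * q ^ l, m * q ^ k, k + l, ?_, ?_⟩
  · have h1 := qpow_ne hq k
    have h2 := qpow_ne hq l
    field_simp
    push_cast
    ring
  · have h1 := qpow_ne hq k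
    have h2 := qpow_ne hq l
    field_simp
    push_cast
    ring

/-- a unimodular row `(c, d)` over `ℤ[1/q]` can be moved by `d ↦ d + c s` to make `d` a unit
mod `N`. -/
theorem exists_unit_mod {q : ℕ} (hq : 0 < q) {N : ℤ} (hqN : IsCoprime (q : ℤ) N) (hN : N ≠ 0)
    {a b c d : ℚ} (ha : AQ q a) (hb : AQ q b) (hc : AQ q c) (hd : AQ q d)
    (hdet : a * d - b * c = 1) :
    ∃ s d' : ℚ, AQ q s ∧ AQ q d' ∧ AQm q N ((d + c * s) * d' - 1) := by
  obtain ⟨c0, d0, k, rfl, rfl⟩ := AQ.exists_common_den hq hc hd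
  obtain ⟨a0, b0, j, rfl, rfl⟩ := AQ.exists_common_den hq ha hb
  have h1 := qpow_ne hq k
  have h2 := qpow_ne hq j
  have hdetZ : a0 * d0 - b0 * c0 = (q : ℤ) ^ (j + k) := by
    have : ((a0 * d0 - b0 * c0 : ℤ) : ℚ) = (((q : ℤ) ^ (j + k) : ℤ) : ℚ) := by
      push_cast
      field_simp at hdet
      rw [pow_add]
      linear_combination hdet
    exact_mod_cast this
  have hcop : IsCoprime (Int.gcd c0 d0 : ℤ) N := by
    have hdvd : (Int.gcd c0 d0 : ℤ) ∣ (q : ℤ) ^ (j + k) := by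
      rw [← hdetZ]
      exact dvd_sub (Dvd.dvd.mul_left (Int.gcd_dvd_right c0 d0) _)
        (Dvd.dvd.mul_left (Int.gcd_dvd_left c0 d0) _)
    exact IsCoprime.of_isCoprime_of_dvd_left (hqN.pow_left) hdvd
  obtain ⟨s0, hs0⟩ := exists_isCoprime_add_mul hN c0 d0 hcop
  obtain ⟨e, f, hef⟩ := hs0
  refine ⟨(s0 : ℚ), (e : ℚ) * (q : ℚ) ^ k, AQ.int q s0,
    AQm.mul_left hq (AQ.int q e) (AQ.qpow hq k), -f, 0, ?_⟩
  have hef' : (e : ℚ) * (d0 + c0 * s0) + f * N = 1 := by exact_mod_cast hef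
  field_simp
  push_cast
  linear_combination hef'

section decomp
variable {q : ℕ} {hq : 0 < q} {N : ℤ}

/-- `SL₂(ℤ[1/q]) = G · e21(ℤ[1/q]) · e12(ℤ[1/q])`. -/
theorem SLA_decomp (hqN : IsCoprime (q : ℤ) N) (hN : N ≠ 0) {x : SLQ} (hx : x ∈ SLA q hq) :
    ∃ g₁ ∈ GG q hq N, ∃ t s : ℚ, AQ q t ∧ AQ q s ∧ x = g₁ * e21 t * e12 s := by
  obtain ⟨x0, x1, x2, x3⟩ := hx
  obtain ⟨s, d', hs, hd', hu⟩ := exists_unit_mod hq hqN hN x0 x1 x2 x3 (det_eq x)
  set t' : ℚ := -(x.1 1 0 * d') with ht'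
  have ht'A : AQ q t' := AQm.neg hq (AQm.mul_left hq x2 hd')
  have hmem : x * e12 s * e21 t' ∈ SLA q hq :=
    Subgroup.mul_mem _ (Subgroup.mul_mem _ ⟨x0, x1, x2, x3⟩ (e12_mem_SLA hs)) (e21_mem_SLA ht'A)
  obtain ⟨m0, m1, m2, m3⟩ := hmem
  refine ⟨x * e12 s * e21 t', ⟨m0, m1, ?_, m3⟩, -t', -s, AQm.neg hq ht'A, AQm.neg hq hs, ?_⟩
  · have e : (x * e12 s * e21 t').1 1 0 = -(x.1 1 0 * ((x.1 1 1 + x.1 1 0 * s) * d' - 1)) := by
      simp only [mul_10, mul_11, e12_00, e12_01, e12_10, e12_11, e21_00, e21_10, ht']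
      ring
    rw [e]
    exact AQm.neg hq (AQm.mul_left hq x2 hu)
  · have h1 : e21 (-t') = (e21 t')⁻¹ := (e21_inv t').symm
    have h2 : e12 (-s) = (e12 s)⁻¹ := (e12_inv s).symm
    rw [h1, h2]
    group

end decomp

section central
variable {q : ℕ} {hq : 0 < q} {N : ℕ} {Φ : SLQ → B}

/-- every element of `SL₂(ℤ[1/q])` conjugates `Γ(N)(ℤ[1/q])` `Φ`-invariantly. -/
theorem SLA_le_invSub (hN : 0 < N) (hA : GoodRepA q (N : ℤ)) (hI : 1 < N → IntRep q hq (N : ℤ))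
    (hΦ : IsParHom q hq (N : ℤ) Φ) (hqN : IsCoprime (q : ℤ) (N : ℤ)) :
    SLA q hq ≤ invSub q hq N Φ := by
  intro x hx
  have hN' : (N : ℤ) ≠ 0 := by exact_mod_cast hN.ne'
  obtain ⟨g₁, hg₁, t, s, ht, hs, rfl⟩ := SLA_decomp (hq := hq) hqN hN' hx
  exact Subgroup.mul_mem _ (Subgroup.mul_mem _ (GG_le_invSub hΦ hg₁)
    (e21_mem_invSub hN hA hI hΦ ht)) (e12_mem_invSub hN hA hI hΦ hs)

/-- **Centrality (A), full form**: conjugation by `SL₂(ℤ[1/q])` does not change `Φ` on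
`Γ(N)(ℤ[1/q])`. -/
theorem central_SLA (hN : 0 < N) (hA : GoodRepA q (N : ℤ)) (hI : 1 < N → IntRep q hq (N : ℤ))
    (hΦ : IsParHom q hq (N : ℤ) Φ) (hqN : IsCoprime (q : ℤ) (N : ℤ)) {x k : SLQ}
    (hx : x ∈ SLA q hq) (hk : k ∈ KK q hq (N : ℤ)) : Φ (x * k * x⁻¹) = Φ k :=
  (SLA_le_invSub hN hA hI hΦ hqN hx).2 k hk

end central

end Fermat.Agent.S41.Menn
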