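/-
S41 / Menn (helper3, NT2 of helper10's plan, board #1795): the pure number theory
"Dirichlet existence" lemmas used by the Mennicke-symbol argument.  Mathlib only.

* `exists_prime_gt_modEq_modEq`   : Dirichlet + CRT for two coprime moduli;
* `exists_prime_l3`               : (B)  a prime `l ≡ x mod a₀`, `l ≡ 2 mod r`;
* `exists_primes_mul_modEq`       : (Z)  primes `l₁ < l₂`, `l₁ l₂ ≡ a mod b`, `r ∤ lᵢ - 1`;
* `exists_primes_mul_modEq_of_qr` : (D)  primes `l₁ < l₂`, `l₁ l₂ ≡ a mod b`,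
                                         `l₁ l₂ ∣ r ^ (2 k) - r` for some `k ≥ 1`.
-/
import Mathlib

set_option autoImplicit false

namespace Fermat.Agent.S41.Menn.Dirichlet

/-- Dirichlet's theorem combined with the Chinese remainder theorem for two coprime moduli. -/
theorem exists_prime_gt_modEq_modEq (B : ℕ) {m₁ m₂ : ℕ} (h₁ : m₁ ≠ 0) (h₂ : m₂ ≠ 0)
    (hm : Nat.Coprime m₁ m₂) {x₁ x₂ : ℤ} (hx₁ : IsCoprime x₁ (m₁ : ℤ))
    (hx₂ : IsCoprime x₂ (m₂ : ℤ)) :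
    ∃ l : ℕ, B < l ∧ l.Prime ∧ (l : ℤ) ≡ x₁ [ZMOD m₁] ∧ (l : ℤ) ≡ x₂ [ZMOD m₂] := by
  obtain ⟨u, v, huv⟩ : IsCoprime (m₁ : ℤ) (m₂ : ℤ) := Nat.isCoprime_iff_coprime.mpr hm
  set z : ℤ := x₁ * v * m₂ + x₂ * u * m₁ with hz
  have hz₁ : z = x₁ + (m₁ : ℤ) * (u * (x₂ - x₁)) := by
    have : v * (m₂ : ℤ) = 1 - u * m₁ := by linarith
    rw [hz, mul_assoc x₁, this]; ring
  have hz₂ : z = x₂ + (m₂ : ℤ) * (v * (x₁ - x₂)) := by
    have : u * (m₁ : ℤ) = 1 - v * m₂ := by linarith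
    rw [hz, mul_assoc x₂, this]; ring
  have hc₁ : IsCoprime z (m₁ : ℤ) := by
    rw [hz₁]; exact hx₁.add_mul_left_left _
  have hc₂ : IsCoprime z (m₂ : ℤ) := by
    rw [hz₂]; exact hx₂.add_mul_left_left _
  have hc : IsCoprime z ((m₁ * m₂ : ℕ) : ℤ) := by
    push_cast; exact hc₁.mul_right hc₂
  obtain ⟨l, hlB, hl, hlz⟩ :=
    Nat.forall_exists_prime_gt_and_zmodEq B (q := m₁ * m₂) (a := z) (Nat.mul_ne_zero h₁ h₂) hc
  refine ⟨l, hlB, hl, ?_, ?_⟩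
  · have h := hlz
    push_cast at h
    have h' := Int.ModEq.of_mul_right _ h
    refine h'.trans ?_
    rw [hz₁]
    exact (Int.modEq_iff_dvd.mpr ⟨-(u * (x₂ - x₁)), by ring⟩)
  · have h := hlz
    push_cast at h
    have h' := Int.ModEq.of_mul_left _ h
    refine h'.trans ?_
    rw [hz₂]
    exact (Int.modEq_iff_dvd.mpr ⟨-(v * (x₁ - x₂)), by ring⟩)

/-- A prime `l > b` is coprime to `b ≠ 0`. -/
theorem isCoprime_of_prime_gt {l b : ℕ} (hl : l.Prime) (hb : b ≠ 0) (hlb : b < l) :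
    IsCoprime (l : ℤ) (b : ℤ) := by
  rw [Nat.isCoprime_iff_coprime]
  exact (Nat.Prime.coprime_iff_not_dvd hl).mpr fun h => by
    have := Nat.le_of_dvd (Nat.pos_of_ne_zero hb) h
    omega

/-- Solving `l * y ≡ a mod b` with `y` coprime to `b`, for `l`, `a` coprime to `b`. -/
theorem exists_isCoprime_mul_modEq {l a b : ℤ} (hl : IsCoprime l b) (ha : IsCoprime a b) :
    ∃ y : ℤ, IsCoprime y b ∧ l * y ≡ a [ZMOD b] := by
  obtain ⟨u, v, huv⟩ := hl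
  refine ⟨a * u, ?_, ?_⟩
  · have hu : IsCoprime u b := ⟨l, v, by linarith⟩
    exact ha.mul_left hu
  · refine (Int.modEq_iff_dvd.mpr ⟨a * v, ?_⟩)
    have : u * l = 1 - v * b := by linarith
    calc a - l * (a * u) = a * (1 - u * l) := by ring
      _ = b * (a * v) := by rw [this]; ring

/-- **(B) / (A)(5)(i).**  A large prime `l ≡ x mod a₀` with `l ≡ 2 mod r` (so `r ∤ l - 1`,
`r ∤ l`), for an odd prime `r` not dividing `a₀`. -/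
theorem exists_prime_l3 (B : ℕ) {a₀ r : ℕ} (ha₀ : a₀ ≠ 0) (hr : r.Prime) (hr2 : r ≠ 2)
    (har : Nat.Coprime a₀ r) {x : ℤ} (hx : IsCoprime x (a₀ : ℤ)) :
    ∃ l : ℕ, B < l ∧ l.Prime ∧ (l : ℤ) ≡ x [ZMOD a₀] ∧ (l : ℤ) ≡ 2 [ZMOD r] ∧
      ¬ r ∣ l - 1 := by
  have h2r : IsCoprime (2 : ℤ) (r : ℤ) := by
    have : Nat.Coprime 2 r := (Nat.coprime_primes Nat.prime_two hr).mpr (Ne.symm hr2)
    exact_mod_cast Nat.isCoprime_iff_coprime.mpr this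
  obtain ⟨l, hlB, hl, h1, h2⟩ :=
    exists_prime_gt_modEq_modEq B ha₀ hr.ne_zero har hx h2r
  refine ⟨l, hlB, hl, h1, h2, ?_⟩
  intro hdvd
  have h3 : (r : ℤ) ∣ (l : ℤ) - 2 := (Int.modEq_iff_dvd.mp h2.symm)
  have hl1 : 1 ≤ l := hl.one_lt.le
  have h4 : (r : ℤ) ∣ (l : ℤ) - 1 := by
    have : ((l - 1 : ℕ) : ℤ) = (l : ℤ) - 1 := by push_cast [hl1]; ring
    rw [← this]; exact_mod_cast hdvd
  have h5 : (r : ℤ) ∣ 1 := by
    have := dvd_sub h4 h3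
    simpa using this
  have : r ∣ 1 := by exact_mod_cast h5
  exact hr.one_lt.ne' (Nat.dvd_one.mp this)

/-- **(Z) / (A)(5)(ii).**  For an odd prime `r ∣ b` and `a` coprime to `b` with `a ≡ 1 mod r`:
two large primes `l₁ < l₂` with `l₁ * l₂ ≡ a mod b` and `r ∤ l₁ - 1`, `r ∤ l₂ - 1`. -/
theorem exists_primes_mul_modEq (B : ℕ) {b r : ℕ} (hb : b ≠ 0) (hr : r.Prime) (hr2 : r ≠ 2)
    (hrb : r ∣ b) {a : ℤ} (hab : IsCoprime a (b : ℤ)) (har : a ≡ 1 [ZMOD r]) :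
    ∃ l₁ l₂ : ℕ, B < l₁ ∧ l₁ < l₂ ∧ l₁.Prime ∧ l₂.Prime ∧
      ((l₁ : ℤ) * (l₂ : ℤ)) ≡ a [ZMOD b] ∧ ¬ r ∣ l₁ - 1 ∧ ¬ r ∣ l₂ - 1 := by
  -- `l₁ ≡ 2 mod r`, `l₁ > max B b`
  have h2r : IsCoprime (2 : ℤ) (r : ℤ) := by
    have : Nat.Coprime 2 r := (Nat.coprime_primes Nat.prime_two hr).mpr (Ne.symm hr2)
    exact_mod_cast Nat.isCoprime_iff_coprime.mpr this
  obtain ⟨l₁, hl₁B, hl₁, hl₁r⟩ :=
    Nat.forall_exists_prime_gt_and_zmodEq (max B b) (q := r) (a := 2) hr.ne_zero h2r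
  have hl₁b : IsCoprime (l₁ : ℤ) (b : ℤ) :=
    isCoprime_of_prime_gt hl₁ hb (lt_of_le_of_lt (le_max_right _ _) hl₁B)
  obtain ⟨y, hy, hly⟩ := exists_isCoprime_mul_modEq hl₁b hab
  obtain ⟨l₂, hl₂B, hl₂, hl₂y⟩ :=
    Nat.forall_exists_prime_gt_and_zmodEq l₁ (q := b) (a := y) hb hy
  have hprod : ((l₁ : ℤ) * (l₂ : ℤ)) ≡ a [ZMOD b] := (hl₂y.mul_left _).trans hly
  have hrZ : ∀ l : ℕ, l.Prime → r ∣ l - 1 → (l : ℤ) ≡ 1 [ZMOD r] := by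
    intro l hl hdvd
    have hl1 : 1 ≤ l := hl.one_lt.le
    have : ((l - 1 : ℕ) : ℤ) = (l : ℤ) - 1 := by push_cast [hl1]; ring
    have h4 : (r : ℤ) ∣ (l : ℤ) - 1 := by rw [← this]; exact_mod_cast hdvd
    exact (Int.modEq_iff_dvd.mpr h4).symm
  have hr1 : ¬ (r : ℤ) ∣ 1 := by
    intro h
    have : r ∣ 1 := by exact_mod_cast h
    exact hr.one_lt.ne' (Nat.dvd_one.mp this)
  refine ⟨l₁, l₂, lt_of_le_of_lt (le_max_left _ _) hl₁B, hl₂B, hl₁, hl₂, hprod, ?_, ?_⟩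
  · intro hdvd
    have h := (hrZ l₁ hl₁ hdvd).symm.trans hl₁r
    -- 1 ≡ 2 mod r
    have : (r : ℤ) ∣ 2 - 1 := Int.modEq_iff_dvd.mp h
    exact hr1 (by simpa using this)
  · intro hdvd
    have h2 := hrZ l₂ hl₂ hdvd
    -- l₁ * l₂ ≡ a ≡ 1 mod r, l₂ ≡ 1, l₁ ≡ 2  ⟹ 2 ≡ 1
    have hprod_r : ((l₁ : ℤ) * (l₂ : ℤ)) ≡ 1 [ZMOD r] :=
      (hprod.of_dvd (by exact_mod_cast hrb)).trans har
    have h3 : ((l₁ : ℤ) * (l₂ : ℤ)) ≡ 2 * 1 [ZMOD r] := hl₁r.mul h2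
    have h4 : (1 : ℤ) ≡ 2 * 1 [ZMOD r] := hprod_r.symm.trans h3
    have : (r : ℤ) ∣ 2 * 1 - 1 := Int.modEq_iff_dvd.mp h4
    exact hr1 (by simpa using this)

/-- Monotonicity of `padicValNat` along divisibility. -/
theorem padicValNat_le_of_dvd_ne_zero {p a b : ℕ} [Fact p.Prime] (hb : b ≠ 0) (h : a ∣ b) :
    padicValNat p a ≤ padicValNat p b :=
  (padicValNat_dvd_iff_le hb).mp (dvd_trans pow_padicValNat_dvd h)

/-- The multiplicative order of `q` modulo `n` divides `φ n` (for `q` coprime to `n`). -/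
theorem orderOf_natCast_dvd_totient {q n : ℕ} (h : Nat.Coprime q n) :
    orderOf (q : ZMod n) ∣ Nat.totient n := by
  apply orderOf_dvd_of_pow_eq_one
  have h1 := (ZMod.natCast_eq_natCast_iff _ _ _).mpr (Nat.ModEq.pow_totient h)
  simpa using h1

/-- **(ord)** glue between the Dirichlet lemmas and the LTE lemma (NT1): for distinct primes
`l₁ l₂ l₃` not dividing `N'`, with `r ∤ lᵢ - 1`, the `r`-adic valuation of the order of `q`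
modulo `l₁ l₂ l₃ N'` is at most that of `φ N'`. -/
theorem padicValNat_orderOf_le {r l₁ l₂ l₃ N' q : ℕ} (hr : r.Prime) (h₁ : l₁.Prime)
    (h₂ : l₂.Prime) (h₃ : l₃.Prime) (hN' : N' ≠ 0) (h12 : l₁ ≠ l₂) (h13 : l₁ ≠ l₃)
    (h23 : l₂ ≠ l₃) (hN1 : ¬ l₁ ∣ N') (hN2 : ¬ l₂ ∣ N') (hN3 : ¬ l₃ ∣ N')
    (hr1 : ¬ r ∣ l₁ - 1) (hr2 : ¬ r ∣ l₂ - 1) (hr3 : ¬ r ∣ l₃ - 1)
    (hq : Nat.Coprime q (l₁ * l₂ * l₃ * N')) :
    padicValNat r (orderOf (q : ZMod (l₁ * l₂ * l₃ * N'))) ≤ padicValNat r (Nat.totient N') := by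
  have : Fact r.Prime := ⟨hr⟩
  have c12 : Nat.Coprime l₁ l₂ := (Nat.coprime_primes h₁ h₂).mpr h12
  have c13 : Nat.Coprime l₁ l₃ := (Nat.coprime_primes h₁ h₃).mpr h13
  have c23 : Nat.Coprime l₂ l₃ := (Nat.coprime_primes h₂ h₃).mpr h23
  have c123 : Nat.Coprime (l₁ * l₂) l₃ := Nat.Coprime.mul_left c13 c23
  have cN1 : Nat.Coprime l₁ N' := (Nat.Prime.coprime_iff_not_dvd h₁).mpr hN1
  have cN2 : Nat.Coprime l₂ N' := (Nat.Prime.coprime_iff_not_dvd h₂).mpr hN2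
  have cN3 : Nat.Coprime l₃ N' := (Nat.Prime.coprime_iff_not_dvd h₃).mpr hN3
  have cN : Nat.Coprime (l₁ * l₂ * l₃) N' :=
    Nat.Coprime.mul_left (Nat.Coprime.mul_left cN1 cN2) cN3
  have htot : Nat.totient (l₁ * l₂ * l₃ * N') =
      (l₁ - 1) * (l₂ - 1) * (l₃ - 1) * Nat.totient N' := by
    rw [Nat.totient_mul cN, Nat.totient_mul c123, Nat.totient_mul c12, Nat.totient_prime h₁,
      Nat.totient_prime h₂, Nat.totient_prime h₃]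
  have hpos1 : l₁ - 1 ≠ 0 := by have := h₁.one_lt; omega
  have hpos2 : l₂ - 1 ≠ 0 := by have := h₂.one_lt; omega
  have hpos3 : l₃ - 1 ≠ 0 := by have := h₃.one_lt; omega
  have hposN : Nat.totient N' ≠ 0 := (Nat.totient_pos.mpr (Nat.pos_of_ne_zero hN')).ne'
  have hval : padicValNat r (Nat.totient (l₁ * l₂ * l₃ * N')) = padicValNat r (Nat.totient N') := by
    rw [htot, padicValNat.mul (by positivity) hposN, padicValNat.mul (by positivity) hpos3,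
      padicValNat.mul hpos1 hpos2, padicValNat.eq_zero_of_not_dvd hr1,
      padicValNat.eq_zero_of_not_dvd hr2, padicValNat.eq_zero_of_not_dvd hr3]
    simp
  rw [← hval]
  refine padicValNat_le_of_dvd_ne_zero ?_ (orderOf_natCast_dvd_totient hq)
  rw [htot]
  positivity

end Fermat.Agent.S41.Menn.Dirichlet
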