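import Fermat.Agent.S41.Menn.EisChar
import Fermat.Agent.S29.Betti.EigenSupport

/-!
# S41 / Menn: `(T_r - (r+1))²` kills every `u ∈ XMod N R A` with `T_r u = (r+1) u` on `Γ(N)`

The `XMod`-form of `EisChar.heckeHom_sub_sq_eq_zero`: the character `u' = T_r u - (r+1) u` is again
admissible (`isAdmChar_heckeHom`), hence parabolic, and it kills `Γ(N)`; so `T_r u' = (r+1) u'`.
-/

set_option autoImplicit false

namespace Fermat.Agent.S41.Menn.EisChar

open CongruenceSubgroup Matrix.SpecialLinearGroup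
open ModularCurve.Period
open Fermat.Agent.S29.Betti
open scoped MatrixGroups

noncomputable section

variable {N r : ℕ} [Fact r.Prime]

theorem isParabolicHom_of_isAdmChar {A : Type*} [AddCommGroup A]
    {c : Additive (Gamma0 N) →+ A} (hc : IsAdmChar c) : IsParabolicHom (Gamma0 N) c :=
  fun γ hγ => hc γ (Or.inl hγ)

/-- hom form for admissible characters: no separate parabolicity hypothesis. -/
theorem heckeHom_sub_sq_eq_zero_of_isAdmChar (hrN : ¬ r ∣ N) {A : Type*} [AddCommGroup A]
    (c : Additive (Gamma0 N) →+ A) (hc : IsAdmChar c)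
    (hG : ∀ g : Gamma0 N, (g : SL(2, ℤ)) ∈ Gamma N →
      heckeHom hrN A c (Additive.ofMul g) = (r + 1) • c (Additive.ofMul g)) :
    heckeHom hrN A (heckeHom hrN A c - (r + 1) • c) =
      (r + 1) • (heckeHom hrN A c - (r + 1) • c) := by
  refine heckeHom_sub_sq_eq_zero hrN c (isParabolicHom_of_isAdmChar ?_) hG
  intro γ hγ
  rw [AddMonoidHom.sub_apply, isAdmChar_heckeHom hrN hc γ hγ]
  change (0 : A) - (r + 1) • c (Additive.ofMul γ) = 0
  rw [hc γ hγ, smul_zero, sub_zero]

/-- **`(T_r - b)² u = 0` in `XMod N R A`** whenever `b : R` acts on `A` as `r + 1` and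
`T_r u = (r+1) u` on `Γ(N)`. -/
theorem heckeX_sub_sq_apply_eq_zero (hrN : ¬ r ∣ N) {R : Type*} [CommRing R] {A : Type*}
    [AddCommGroup A] [Module R A] (b : R) (hb : ∀ a : A, b • a = (r + 1) • a)
    (u : XMod N R A)
    (hG : ∀ g : Gamma0 N, (g : SL(2, ℤ)) ∈ Gamma N →
      heckeHom hrN A (u : Additive (Gamma0 N) →+ A) (Additive.ofMul g) =
        (r + 1) • (u : Additive (Gamma0 N) →+ A) (Additive.ofMul g)) :
    ((heckeX hrN R A - b • (1 : Module.End R (XMod N R A))) ^ 2) u = 0 := by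
  have hbhom : ∀ c : Additive (Gamma0 N) →+ A, b • c = (r + 1) • c := by
    intro c
    refine DFunLike.ext _ _ fun γ => ?_
    change b • c γ = (r + 1) • c γ
    exact hb _
  have key := heckeHom_sub_sq_eq_zero_of_isAdmChar hrN (u : Additive (Gamma0 N) →+ A) u.2 hG
  rw [pow_two, Module.End.mul_apply]
  apply Subtype.ext
  have e1 : (((heckeX hrN R A - b • (1 : Module.End R (XMod N R A))) u : XMod N R A) :
      Additive (Gamma0 N) →+ A) =
      heckeHom hrN A (u : Additive (Gamma0 N) →+ A) -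
        (r + 1) • (u : Additive (Gamma0 N) →+ A) := by
    rw [LinearMap.sub_apply, LinearMap.smul_apply, Module.End.one_apply,
      AddSubgroupClass.coe_sub, heckeX_coe, Submodule.coe_smul, hbhom]
  rw [LinearMap.sub_apply, LinearMap.smul_apply, Module.End.one_apply,
    AddSubgroupClass.coe_sub, heckeX_coe, Submodule.coe_smul, hbhom, e1, key, sub_self]
  rfl

/-- the `ZMod p`-instance with the shift written as an integer cast (the shape consumed by
`Betti.RedP.noEigen_zsmul_of_nilpotent`). -/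
theorem heckeX_sub_sq_apply_eq_zero_zmod (hrN : ¬ r ∣ N) (p : ℕ)
    (u : XMod N (ZMod p) (ZMod p))
    (hG : ∀ g : Gamma0 N, (g : SL(2, ℤ)) ∈ Gamma N →
      heckeHom hrN (ZMod p) (u : Additive (Gamma0 N) →+ ZMod p) (Additive.ofMul g) =
        (r + 1) • (u : Additive (Gamma0 N) →+ ZMod p) (Additive.ofMul g)) :
    ((heckeX hrN (ZMod p) (ZMod p) -
      ((((r : ℤ) + 1 : ℤ) : ZMod p)) • (1 : Module.End (ZMod p) (XMod N (ZMod p) (ZMod p)))) ^ 2)
      u = 0 := by
  apply heckeX_sub_sq_apply_eq_zero hrN _ _ u hG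
  intro a
  rw [smul_eq_mul, nsmul_eq_mul]
  push_cast
  ring

end

end Fermat.Agent.S41.Menn.EisChar
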