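/-
S41 / Menn (NT-D): pure number theory for step (D) of the Mennicke-type argument.

For an odd prime `r` and coprime integers `a`, `b` with `r ∣ b`, `a ≡ 1 mod r`
(and `a ≡ 1 mod 4` if `4 ∣ b`) there is a representative `a' = a + b s` of the class of `a`
mod `b` such that `r` has ODD multiplicative order modulo `a'`, i.e. `a' ∣ r ^ (2k-1) - 1`
for some `k ≥ 1`.  (Take `a' = l₁ l₂` with primes `l_i ≡ 3 mod 4`, `l_i ≡ -1 mod r`: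
by quadratic reciprocity `r` is a square mod `l_i`, so `r ^ ((l_i - 1)/2) ≡ 1`, an odd exponent.)
Mathlib only.
-/
import Mathlib

set_option autoImplicit false

namespace Fermat.Agent.S41.Menn.NT_D

/-- A prime `l ≡ 3 mod 4` is different from any prime `r` with `l ≡ -1 mod r`. -/
theorem ne_of_modEq_neg_one {r l : ℕ} (hr : r.Prime) (hlr : (l : ℤ) ≡ -1 [ZMOD r]) : l ≠ r := by
  rintro rfl
  have h1 : (l : ℤ) ∣ -1 - (l : ℤ) := (Int.modEq_iff_dvd).1 hlr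
  have h2 : (l : ℤ) ∣ 1 := by
    have h3 : (l : ℤ) ∣ -1 - (l : ℤ) + (l : ℤ) := dvd_add h1 (dvd_refl _)
    have h4 : (-1 - (l : ℤ) + (l : ℤ)) = -1 := by ring
    rw [h4] at h3
    exact (dvd_neg).1 h3
  have h5 : l ∣ 1 := by exact_mod_cast h2
  exact hr.one_lt.ne' (Nat.dvd_one.1 h5)

/-- Quadratic reciprocity step: for primes `l ≡ 3 mod 4`, `r` odd, `l ≡ -1 mod r`,
`r` is a square modulo `l`. -/
theorem isSquare_of_modEq_neg_one {r l : ℕ} (hr : r.Prime) (hr2 : r ≠ 2) (hl : l.Prime)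
    (hl4 : l % 4 = 3) (hlr : (l : ℤ) ≡ -1 [ZMOD r]) : IsSquare ((r : ℕ) : ZMod l) := by
  have hne : l ≠ r := ne_of_modEq_neg_one hr hlr
  have hFr : Fact r.Prime := ⟨hr⟩
  have hFl : Fact l.Prime := ⟨hl⟩
  have hl2 : l ≠ 2 := by
    rintro rfl
    omega
  -- `(l : ZMod r) = -1`
  have hcast : ((l : ℕ) : ZMod r) = -1 := by
    have h := (ZMod.intCast_eq_intCast_iff (a := (l : ℤ)) (b := -1) (c := r)).2 hlr
    simpa using h
  have hrodd : r % 2 = 1 := hr.eq_two_or_odd.resolve_left hr2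
  have hr4 : r % 4 = 1 ∨ r % 4 = 3 := by omega
  rcases hr4 with h1 | h3
  · -- `r ≡ 1 mod 4`: `r` square mod `l` iff `l` square mod `r`; `-1` is a square mod `r`
    have hiff := @ZMod.exists_sq_eq_prime_iff_of_mod_four_eq_one r l hFr hFl h1 hl2
    -- hiff : IsSquare (l : ZMod r) ↔ IsSquare (r : ZMod l)
    refine hiff.1 ?_
    rw [hcast]
    exact (ZMod.exists_sq_eq_neg_one_iff (p := r)).2 (by omega)
  · -- `r ≡ 3 mod 4`: `r` square mod `l` iff `l` is NOT a square mod `r`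
    have hiff := @ZMod.exists_sq_eq_prime_iff_of_mod_four_eq_three l r hFl hFr hl4 h3 hne
    -- hiff : IsSquare (r : ZMod l) ↔ ¬ IsSquare (l : ZMod r)
    refine hiff.2 ?_
    rw [hcast]
    intro hsq
    exact (ZMod.exists_sq_eq_neg_one_iff (p := r)).1 hsq h3

/-- Euler's criterion: `l ∣ r ^ (l / 2) - 1`, and `l / 2` is odd. -/
theorem dvd_pow_half_sub_one {r l : ℕ} (hr : r.Prime) (hr2 : r ≠ 2) (hl : l.Prime)
    (hl4 : l % 4 = 3) (hlr : (l : ℤ) ≡ -1 [ZMOD r]) :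
    (l : ℤ) ∣ (r : ℤ) ^ (l / 2) - 1 := by
  have hne : l ≠ r := ne_of_modEq_neg_one hr hlr
  have hFr : Fact r.Prime := ⟨hr⟩
  have hFl : Fact l.Prime := ⟨hl⟩
  have hsq := isSquare_of_modEq_neg_one hr hr2 hl hl4 hlr
  have hr0 : ((r : ℕ) : ZMod l) ≠ 0 := ZMod.prime_ne_zero l r hne
  have hpow : ((r : ℕ) : ZMod l) ^ (l / 2) = 1 := (ZMod.euler_criterion l hr0).1 hsq
  rw [← ZMod.intCast_zmod_eq_zero_iff_dvd]
  push_cast
  rw [hpow, sub_self]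

/-- adjusting `a` in its class mod `b` to be `≡ 1 mod 4`. -/
theorem exists_add_mul_modEq_one_mod_four {a b : ℤ} (hab : IsCoprime a b)
    (h4 : (4 : ℤ) ∣ b → a ≡ 1 [ZMOD 4]) : ∃ t : ℤ, a + b * t ≡ 1 [ZMOD 4] := by
  have hnot : ¬ ((2 : ℤ) ∣ a ∧ (2 : ℤ) ∣ b) := by
    rintro ⟨h1, h2⟩
    have hu : IsUnit (2 : ℤ) := hab.isUnit_of_dvd' h1 h2
    rw [Int.isUnit_iff] at hu
    omega
  have hb4 : b % 4 = 0 ∨ b % 4 = 1 ∨ b % 4 = 2 ∨ b % 4 = 3 := by omega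
  rcases hb4 with h | h | h | h
  · refine ⟨0, ?_⟩
    have := h4 (Int.dvd_of_emod_eq_zero h)
    simpa using this
  · refine ⟨1 - a, ?_⟩
    unfold Int.ModEq
    have e : a + b * (1 - a) = (b - 1) * (1 - a) + 1 := by ring
    rw [e]
    have hd : (4 : ℤ) ∣ b - 1 := by omega
    obtain ⟨c, hc⟩ := hd
    rw [hc]
    have : 4 * c * (1 - a) + 1 = 1 + 4 * (c * (1 - a)) := by ring
    rw [this, Int.add_mul_emod_self_left]
  · have ha2 : a % 2 = 1 := by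
      by_contra hcon
      apply hnot
      constructor <;> omega
    have ha4 : a % 4 = 1 ∨ a % 4 = 3 := by omega
    rcases ha4 with h1 | h3
    · refine ⟨0, ?_⟩
      unfold Int.ModEq
      simp only [mul_zero, add_zero]
      omega
    · refine ⟨1, ?_⟩
      unfold Int.ModEq
      simp only [mul_one]
      omega
  · refine ⟨a - 1, ?_⟩
    unfold Int.ModEq
    have e : a + b * (a - 1) = (b + 1) * (a - 1) + 1 := by ring
    rw [e]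
    have hd : (4 : ℤ) ∣ b + 1 := by omega
    obtain ⟨c, hc⟩ := hd
    rw [hc]
    have : 4 * c * (a - 1) + 1 = 1 + 4 * (c * (a - 1)) := by ring
    rw [this, Int.add_mul_emod_self_left]

/-- STRONG FORM.  There are primes `B < l₁ < l₂`, both `≡ 3 mod 4` and `≡ -1 mod r`, with
`l₁ l₂ = a + b s`; and `l_i ∣ r ^ (l_i / 2) - 1` with `l_i / 2` odd. -/
theorem exists_primes_odd_order (B : ℕ) {r : ℕ} (hr : r.Prime) (hr2 : r ≠ 2) {a b : ℤ}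
    (hab : IsCoprime a b) (hb : b ≠ 0) (hrb : (r : ℤ) ∣ b) (har : a ≡ 1 [ZMOD r])
    (h4 : (4 : ℤ) ∣ b → a ≡ 1 [ZMOD 4]) :
    ∃ (l₁ l₂ : ℕ) (s : ℤ), B < l₁ ∧ l₁ < l₂ ∧ l₁.Prime ∧ l₂.Prime ∧
      l₁ % 4 = 3 ∧ l₂ % 4 = 3 ∧ (l₁ : ℤ) ≡ -1 [ZMOD r] ∧ (l₂ : ℤ) ≡ -1 [ZMOD r] ∧
      (l₁ : ℤ) * (l₂ : ℤ) = a + b * s ∧
      (l₁ : ℤ) ∣ (r : ℤ) ^ (l₁ / 2) - 1 ∧ (l₂ : ℤ) ∣ (r : ℤ) ^ (l₂ / 2) - 1 := by
  obtain ⟨t, ht⟩ := exists_add_mul_modEq_one_mod_four hab h4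
  set a1 : ℤ := a + b * t with ha1
  -- the modulus
  set m : ℕ := 4 * b.natAbs with hm
  have hm0 : m ≠ 0 := by
    have : b.natAbs ≠ 0 := Int.natAbs_ne_zero.2 hb
    omega
  have hmZ : (m : ℤ) = 4 * |b| := by
    rw [hm]
    push_cast
    rfl
  have h4m : (4 : ℤ) ∣ (m : ℤ) := by
    rw [hmZ]
    exact Dvd.intro _ rfl
  have hbm : b ∣ (m : ℤ) := by
    rw [hmZ]
    exact Dvd.dvd.mul_left ((dvd_abs b b).2 (dvd_refl b)) 4
  have hrm : (r : ℤ) ∣ (m : ℤ) := dvd_trans hrb hbm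
  -- coprimality of `a1` with `m`
  have hcop1 : IsCoprime a1 b := by
    rw [ha1]
    exact IsCoprime.add_mul_left_left hab t
  have hcop4 : IsCoprime a1 4 := by
    have hodd : a1 % 2 = 1 := by
      unfold Int.ModEq at ht
      omega
    have h2 : IsCoprime a1 2 := by
      refine ⟨1, -(a1 / 2), ?_⟩
      have := Int.emod_add_mul_ediv a1 2
      linarith
    have : IsCoprime a1 (2 * 2) := IsCoprime.mul_right h2 h2
    norm_num at this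
    exact this
  have hcopm : IsCoprime a1 (m : ℤ) := by
    rw [hmZ]
    refine IsCoprime.mul_right hcop4 ?_
    rcases abs_choice b with h | h
    · rw [h]; exact hcop1
    · rw [h]; exact hcop1.neg_right
  have hcopm' : IsCoprime (-a1) (m : ℤ) := hcopm.neg_left
  have hcop1' : IsCoprime (-1 : ℤ) (m : ℤ) := (isCoprime_one_left).neg_left
  obtain ⟨l₁, hl1B, hl1p, hl1m⟩ := Nat.forall_exists_prime_gt_and_zmodEq B hm0 hcop1'
  obtain ⟨l₂, hl2B, hl2p, hl2m⟩ := Nat.forall_exists_prime_gt_and_zmodEq l₁ hm0 hcopm'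
  -- congruences mod 4 and mod r
  have hl1_4 : (l₁ : ℤ) ≡ -1 [ZMOD 4] := Int.ModEq.of_dvd h4m hl1m
  have hl2_4 : (l₂ : ℤ) ≡ -a1 [ZMOD 4] := Int.ModEq.of_dvd h4m hl2m
  have hl1_r : (l₁ : ℤ) ≡ -1 [ZMOD r] := Int.ModEq.of_dvd hrm hl1m
  have ha1_r : a1 ≡ 1 [ZMOD r] := by
    have h0 : b * t ≡ 0 [ZMOD r] := by
      rw [Int.modEq_zero_iff_dvd]
      exact Dvd.dvd.mul_right hrb t
    have := Int.ModEq.add har h0
    simpa [ha1] using this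
  have hl2_r : (l₂ : ℤ) ≡ -1 [ZMOD r] :=
    (Int.ModEq.of_dvd hrm hl2m).trans (Int.ModEq.neg ha1_r)
  have hl1mod : l₁ % 4 = 3 := by
    unfold Int.ModEq at hl1_4
    omega
  have hl2mod : l₂ % 4 = 3 := by
    have h : (l₂ : ℤ) ≡ -1 [ZMOD 4] := hl2_4.trans (Int.ModEq.neg ht)
    unfold Int.ModEq at h
    omega
  -- the product
  have hprod : (l₁ : ℤ) * (l₂ : ℤ) ≡ a1 [ZMOD (m : ℤ)] := by
    have := Int.ModEq.mul hl1m hl2m
    simpa using this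
  have hprodb : b ∣ (l₁ : ℤ) * (l₂ : ℤ) - a1 := by
    have h1 : (m : ℤ) ∣ a1 - (l₁ : ℤ) * (l₂ : ℤ) := (Int.modEq_iff_dvd).1 hprod
    have h2 : b ∣ a1 - (l₁ : ℤ) * (l₂ : ℤ) := dvd_trans hbm h1
    have : (l₁ : ℤ) * (l₂ : ℤ) - a1 = -(a1 - (l₁ : ℤ) * (l₂ : ℤ)) := by ring
    rw [this]
    exact (dvd_neg).2 h2
  obtain ⟨s', hs'⟩ := hprodb
  refine ⟨l₁, l₂, t + s', hl1B, hl2B, hl1p, hl2p, hl1mod, hl2mod, hl1_r, hl2_r, ?_,
    dvd_pow_half_sub_one hr hr2 hl1p hl1mod hl1_r, dvd_pow_half_sub_one hr hr2 hl2p hl2mod hl2_r⟩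
  have : (l₁ : ℤ) * (l₂ : ℤ) = a1 + b * s' := by linarith
  rw [this, ha1]
  ring

/-- **(NT-D)**  `r` odd prime, `a b` coprime, `r ∣ b`, `b ≠ 0`, `a ≡ 1 mod r`,
(`4 ∣ b → a ≡ 1 mod 4`): there are `s` and `k ≥ 1` with `a + b s ∣ r ^ (2k-1) - 1`. -/
theorem exists_rep_odd_order {r : ℕ} (hr : r.Prime) (hr2 : r ≠ 2) {a b : ℤ}
    (hab : IsCoprime a b) (hb : b ≠ 0) (hrb : (r : ℤ) ∣ b) (har : a ≡ 1 [ZMOD r])
    (h4 : (4 : ℤ) ∣ b → a ≡ 1 [ZMOD 4]) :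
    ∃ (s : ℤ) (k : ℕ), 1 ≤ k ∧ (a + b * s) ∣ (r : ℤ) ^ (2 * k - 1) - 1 := by
  obtain ⟨l₁, l₂, s, -, hlt, hl1p, hl2p, hl1mod, hl2mod, -, -, hprod, hd1, hd2⟩ :=
    exists_primes_odd_order 0 hr hr2 hab hb hrb har h4
  -- exponent `E = (l₁/2) * (l₂/2)`, odd
  obtain ⟨j1, hj1⟩ : ∃ j, l₁ / 2 = 2 * j + 1 := ⟨l₁ / 4, by omega⟩
  obtain ⟨j2, hj2⟩ : ∃ j, l₂ / 2 = 2 * j + 1 := ⟨l₂ / 4, by omega⟩
  set k : ℕ := 2 * j1 * j2 + j1 + j2 + 1 with hk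
  have hE : 2 * k - 1 = (l₁ / 2) * (l₂ / 2) := by
    rw [hj1, hj2, hk]
    have : (2 * j1 + 1) * (2 * j2 + 1) = 2 * (2 * j1 * j2 + j1 + j2) + 1 := by ring
    rw [this]
    omega
  refine ⟨s, k, by omega, ?_⟩
  rw [← hprod, hE]
  have hcop : IsCoprime (l₁ : ℤ) (l₂ : ℤ) := by
    rw [Nat.isCoprime_iff_coprime]
    exact (Nat.coprime_primes hl1p hl2p).2 hlt.ne
  refine hcop.mul_dvd ?_ ?_
  · have h : (r : ℤ) ^ (l₁ / 2) - 1 ∣ ((r : ℤ) ^ (l₁ / 2)) ^ (l₂ / 2) - 1 := by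
      have := sub_dvd_pow_sub_pow ((r : ℤ) ^ (l₁ / 2)) 1 (l₂ / 2)
      simpa using this
    rw [pow_mul]
    exact dvd_trans hd1 h
  · have h : (r : ℤ) ^ (l₂ / 2) - 1 ∣ ((r : ℤ) ^ (l₂ / 2)) ^ (l₁ / 2) - 1 := by
      have := sub_dvd_pow_sub_pow ((r : ℤ) ^ (l₂ / 2)) 1 (l₁ / 2)
      simpa using this
    rw [mul_comm, pow_mul]
    exact dvd_trans hd2 h

end Fermat.Agent.S41.Menn.NT_D
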