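/-
S41 / Menn / NT1 (helper18): the "good exponent" lemma (pure number theory, Mathlib only).

For `n = r^M * n'` coprime to `q > 1`, `r` an odd prime not dividing `q n'`,
`m_r := v_r(q^(ord_r q) - 1) ≤ M` and `v_r(ord_{n'} q) ≤ M - m_r`,
there is an exponent `e > 0` with `n ∣ q^e - 1` and `r ∤ (q^e - 1)/n`
(lifting the exponent).  Also the 2-adic twin.
-/
import Mathlib

set_option autoImplicit false

namespace Fermat.Agent.S41.Menn.NT_GoodExp

/-- `n ∣ q^e - 1` iff `q^e = 1` in `ZMod n` (for `0 < q`). -/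
theorem dvd_pow_sub_one_iff {q : ℕ} (hq : 0 < q) (n e : ℕ) :
    n ∣ q ^ e - 1 ↔ ((q : ZMod n)) ^ e = 1 := by
  have h1 : 1 ≤ q ^ e := Nat.one_le_pow _ _ hq
  rw [← ZMod.natCast_eq_zero_iff, Nat.cast_sub h1, Nat.cast_pow, Nat.cast_one, sub_eq_zero]

/-- the order of `q` modulo `n'` is positive when `q` is coprime to `n' ≠ 0`. -/
theorem orderOf_pos_of_coprime {q n' : ℕ} (hn' : n' ≠ 0) (hc : Nat.Coprime q n') :
    0 < orderOf (q : ZMod n') := by
  have h := Nat.ModEq.pow_totient hc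
  have h2 : ((q : ZMod n')) ^ Nat.totient n' = 1 := by
    have := (ZMod.natCast_eq_natCast_iff _ _ _).2 h
    simpa using this
  have hd := orderOf_dvd_of_pow_eq_one h2
  have hpos : 0 < Nat.totient n' := Nat.totient_pos.2 (Nat.pos_of_ne_zero hn')
  exact Nat.pos_of_dvd_of_pos hd hpos

/-- `v_r` of an lcm is the max. -/
theorem padicValNat_lcm {r a b : ℕ} (hr : r.Prime) (ha : a ≠ 0) (hb : b ≠ 0) :
    padicValNat r (Nat.lcm a b) = max (padicValNat r a) (padicValNat r b) := by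
  have h := Nat.factorization_lcm ha hb
  have h2 := congrArg (fun f => f r) h
  simp only [Finsupp.sup_apply] at h2
  rw [Nat.factorization_def _ hr, Nat.factorization_def _ hr, Nat.factorization_def _ hr] at h2
  exact h2

/-- **NT1 (`good_exponent`)**. -/
theorem good_exponent {q r n M n' : ℕ} (hq : 1 < q) (hr : r.Prime) (hr2 : r ≠ 2) (hrq : ¬ r ∣ q)
    (hnq : Nat.Coprime n q) (hn : n = r ^ M * n') (hrn' : ¬ r ∣ n')
    (hmM : padicValNat r (q ^ (orderOf (q : ZMod r)) - 1) ≤ M)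
    (hord : padicValNat r (orderOf (q : ZMod n'))
      ≤ M - padicValNat r (q ^ (orderOf (q : ZMod r)) - 1)) :
    ∃ e : ℕ, 0 < e ∧ n ∣ q ^ e - 1 ∧ ¬ r ∣ (q ^ e - 1) / n := by
  have : Fact r.Prime := ⟨hr⟩
  have hq0 : 0 < q := by omega
  have hrodd : Odd r := hr.odd_of_ne_two hr2
  -- basic facts on n'
  have hn0 : n ≠ 0 := by
    rintro rfl
    have : q = 1 := by simpa using hnq
    omega
  have hn'0 : n' ≠ 0 := by
    rintro rfl
    exact hn0 (by simp [hn])
  have hn'q : Nat.Coprime q n' := by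
    have : Nat.Coprime n' q := Nat.Coprime.coprime_dvd_left (Dvd.intro_left _ hn.symm) hnq
    exact this.symm
  -- the order modulo r
  set er := orderOf (q : ZMod r) with her
  have hqr : (q : ZMod r) ≠ 0 := by
    rw [Ne, ZMod.natCast_eq_zero_iff]
    exact hrq
  have her_dvd : er ∣ r - 1 := ZMod.orderOf_dvd_card_sub_one hqr
  have hr1 : 0 < r - 1 := by have := hr.two_le; omega
  have her_pos : 0 < er := Nat.pos_of_dvd_of_pos her_dvd hr1
  have her_lt : er < r := by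
    have := Nat.le_of_dvd hr1 her_dvd
    omega
  have hr_er : ¬ r ∣ er := fun h => by
    have := Nat.le_of_dvd her_pos h
    omega
  have hv_er : padicValNat r er = 0 := padicValNat.eq_zero_of_not_dvd hr_er
  -- x = q ^ er
  set x := q ^ er with hx
  have hx1 : 1 < x := Nat.one_lt_pow her_pos.ne' hq
  have hrx : r ∣ x - 1 := by
    rw [hx, dvd_pow_sub_one_iff hq0]
    exact pow_orderOf_eq_one _
  have hrx' : ¬ r ∣ x := fun h => hrq (hr.dvd_of_dvd_pow h)
  set m := padicValNat r (x - 1) with hm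
  -- the two orders
  set t := r ^ (M - m) with ht
  have ht0 : t ≠ 0 := pow_ne_zero _ hr.ne_zero
  set e1 := er * t with he1
  have he1_0 : e1 ≠ 0 := Nat.mul_ne_zero her_pos.ne' ht0
  set e2 := orderOf (q : ZMod n') with he2
  have he2_pos : 0 < e2 := orderOf_pos_of_coprime hn'0 hn'q
  set e := Nat.lcm e1 e2 with he
  have he_pos : 0 < e := Nat.lcm_pos (Nat.pos_of_ne_zero he1_0) he2_pos
  have her_e : er ∣ e := (Dvd.intro _ rfl : er ∣ e1).trans (Nat.dvd_lcm_left e1 e2)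
  obtain ⟨k, hk⟩ := her_e
  have hk0 : k ≠ 0 := by
    rintro rfl
    rw [Nat.mul_zero] at hk
    omega
  -- valuation of e
  have hv_e1 : padicValNat r e1 = M - m := by
    rw [he1, padicValNat.mul her_pos.ne' ht0, hv_er, ht, padicValNat.prime_pow, zero_add]
  have hv_e : padicValNat r e = M - m := by
    rw [he, padicValNat_lcm hr he1_0 he2_pos.ne', hv_e1]
    exact max_eq_left hord
  have hv_k : padicValNat r k = M - m := by
    have := padicValNat.mul (p := r) her_pos.ne' hk0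
    rw [← hk, hv_e, hv_er, zero_add] at this
    exact this.symm
  -- LTE
  have hqe : q ^ e = x ^ k := by rw [hk, pow_mul]
  have hlte : padicValNat r (q ^ e - 1) = M := by
    have h := padicValNat.pow_sub_pow (p := r) hrodd (x := x) (y := 1) hx1 hrx hrx' hk0
    rw [one_pow] at h
    rw [hqe, h, hv_k, ← hm]
    omega
  have hqe_ne : q ^ e - 1 ≠ 0 := by
    have : 1 < q ^ e := Nat.one_lt_pow he_pos.ne' hq
    omega
  have hrM : r ^ M ∣ q ^ e - 1 := by
    have := pow_padicValNat_dvd (p := r) (n := q ^ e - 1)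
    rwa [hlte] at this
  have hn'd : n' ∣ q ^ e - 1 := by
    rw [dvd_pow_sub_one_iff hq0]
    exact orderOf_dvd_iff_pow_eq_one.1 (Nat.dvd_lcm_right e1 e2)
  have hcop : Nat.Coprime (r ^ M) n' :=
    Nat.Coprime.pow_left _ ((Nat.Prime.coprime_iff_not_dvd hr).2 hrn')
  have hnd : n ∣ q ^ e - 1 := by
    rw [hn]
    exact Nat.Coprime.mul_dvd_of_dvd_of_dvd hcop hrM hn'd
  refine ⟨e, he_pos, hnd, ?_⟩
  intro hdiv
  obtain ⟨c, hc⟩ := hnd
  have hcn : (q ^ e - 1) / n = c := by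
    rw [hc]
    exact Nat.mul_div_cancel_left _ (Nat.pos_of_ne_zero hn0)
  rw [hcn] at hdiv
  obtain ⟨c', rfl⟩ := hdiv
  have hbig : r ^ (M + 1) ∣ q ^ e - 1 := by
    rw [hc, hn, pow_succ]
    exact ⟨n' * c', by ring⟩
  have := (padicValNat_dvd_iff_le (p := r) hqe_ne).1 hbig
  omega

/-- **NT1, 2-adic twin (`good_exponent_two`)**: `v_2(q^e - 1) = v_2(q^2 - 1) + v_2(e) - 1` for even `e`. -/
theorem good_exponent_two {q n M n' : ℕ} (hq : 1 < q) (hq2 : ¬ 2 ∣ q)
    (hnq : Nat.Coprime n q) (hn : n = 2 ^ M * n') (h2n' : ¬ 2 ∣ n')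
    (hmM : padicValNat 2 (q ^ 2 - 1) ≤ M)
    (hord : padicValNat 2 (orderOf (q : ZMod n')) ≤ M + 1 - padicValNat 2 (q ^ 2 - 1)) :
    ∃ e : ℕ, 0 < e ∧ Even e ∧ n ∣ q ^ e - 1 ∧ ¬ 2 ∣ (q ^ e - 1) / n := by
  have hq0 : 0 < q := by omega
  have hn0 : n ≠ 0 := by
    rintro rfl
    have : q = 1 := by simpa using hnq
    omega
  have hn'0 : n' ≠ 0 := by
    rintro rfl
    exact hn0 (by simp [hn])
  have hn'q : Nat.Coprime q n' := by
    have : Nat.Coprime n' q := Nat.Coprime.coprime_dvd_left (Dvd.intro_left _ hn.symm) hnq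
    exact this.symm
  set m := padicValNat 2 (q ^ 2 - 1) with hm
  -- m = v_2(q+1) + v_2(q-1)
  have hsq : q ^ 2 - 1 = (q + 1) * (q - 1) := by
    obtain ⟨k, rfl⟩ : ∃ k, q = k + 1 := ⟨q - 1, by omega⟩
    have : (k + 1) ^ 2 = (k + 1 + 1) * (k + 1 - 1) + 1 := by
      simp only [Nat.add_sub_cancel]
      ring
    omega
  have hm' : m = padicValNat 2 (q + 1) + padicValNat 2 (q - 1) := by
    rw [hm, hsq, padicValNat.mul (by omega) (by omega)]
  set t := 2 ^ (M + 1 - m) with ht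
  have ht0 : t ≠ 0 := pow_ne_zero _ (by norm_num)
  set e2 := orderOf (q : ZMod n') with he2
  have he2_pos : 0 < e2 := orderOf_pos_of_coprime hn'0 hn'q
  set e := Nat.lcm t e2 with he
  have he_pos : 0 < e := Nat.lcm_pos (Nat.pos_of_ne_zero ht0) he2_pos
  have hv_t : padicValNat 2 t = M + 1 - m := by
    rw [ht, padicValNat.prime_pow]
  have hv_e : padicValNat 2 e = M + 1 - m := by
    rw [he, padicValNat_lcm Nat.prime_two ht0 he2_pos.ne', hv_t]
    exact max_eq_left hord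
  have he_even : Even e := by
    have h2t : 2 ∣ t := by
      rw [ht]
      exact dvd_pow_self 2 (by omega)
    exact (even_iff_two_dvd).2 (h2t.trans (Nat.dvd_lcm_left t e2))
  have hlte := padicValNat.pow_two_sub_one hq hq2 he_pos.ne' he_even
  have hval : padicValNat 2 (q ^ e - 1) = M := by
    rw [hv_e, ← hm'] at hlte
    omega
  have hqe_ne : q ^ e - 1 ≠ 0 := by
    have : 1 < q ^ e := Nat.one_lt_pow he_pos.ne' hq
    omega
  have h2M : 2 ^ M ∣ q ^ e - 1 := by
    have := pow_padicValNat_dvd (p := 2) (n := q ^ e - 1)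
    rwa [hval] at this
  have hn'd : n' ∣ q ^ e - 1 := by
    rw [dvd_pow_sub_one_iff hq0]
    exact orderOf_dvd_iff_pow_eq_one.1 (Nat.dvd_lcm_right t e2)
  have hcop : Nat.Coprime (2 ^ M) n' :=
    Nat.Coprime.pow_left _ ((Nat.Prime.coprime_iff_not_dvd Nat.prime_two).2 h2n')
  have hnd : n ∣ q ^ e - 1 := by
    rw [hn]
    exact Nat.Coprime.mul_dvd_of_dvd_of_dvd hcop h2M hn'd
  refine ⟨e, he_pos, he_even, hnd, ?_⟩
  intro hdiv
  obtain ⟨c, hc⟩ := hnd
  have hcn : (q ^ e - 1) / n = c := by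
    rw [hc]
    exact Nat.mul_div_cancel_left _ (Nat.pos_of_ne_zero hn0)
  rw [hcn] at hdiv
  obtain ⟨c', rfl⟩ := hdiv
  have hbig : 2 ^ (M + 1) ∣ q ^ e - 1 := by
    rw [hc, hn, pow_succ]
    exact ⟨n' * c', by ring⟩
  have := (padicValNat_dvd_iff_le (p := 2) hqe_ne).1 hbig
  omega

end Fermat.Agent.S41.Menn.NT_GoodExp
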