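/-
S41 / Menn (helper3, NT-A2 of helper10's plan, board #1814): existence of `r`-good
representatives, integer form (= #1783 (A)(5)), assembled from the Dirichlet lemmas of
`Menn/Dirichlet.lean` and the LTE lemma NT1 (`GoodExponent`, taken here as a hypothesis so that
this file does not depend on the file proving it).
-/
import Fermat.Agent.S41.Menn.Dirichlet

set_option autoImplicit false

namespace Fermat.Agent.S41.Menn.GoodRepA

open Fermat.Agent.S41.Menn.Dirichlet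

/-- The statement NT1 (LTE): shape of helper10 #1814 (NT1). -/
def GoodExponent : Prop :=
  ∀ (q r n M n' : ℕ), r.Prime → r ≠ 2 → ¬ r ∣ q → Nat.Coprime n q → n = r ^ M * n' → ¬ r ∣ n' →
    padicValNat r (q ^ (orderOf (q : ZMod r)) - 1) ≤ M →
    padicValNat r (orderOf (q : ZMod n')) ≤ M - padicValNat r (q ^ (orderOf (q : ZMod r)) - 1) →
    ∃ e : ℕ, 0 < e ∧ n ∣ q ^ e - 1 ∧ ¬ r ∣ (q ^ e - 1) / n

/-- **NT-A2 (`goodrep_A`)**, odd prime `r ∣ N`. -/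
theorem goodrep_A_of (hNT1 : GoodExponent) {q N r : ℕ} (hq : q.Prime) (hN : 0 < N)
    (hqN : Nat.Coprime q N) (hr : r.Prime) (hr2 : r ≠ 2) (hrN : r ∣ N) {a b : ℤ}
    (hab : IsCoprime a b) (hNb : (N : ℤ) ∣ b) (hNa : (N : ℤ) ∣ a - 1) :
    ∃ (s s' : ℤ) (e : ℕ), 0 < e ∧
      ((a + N * (b + N * a * s) * s') * (b + N * a * s)) ∣ (q : ℤ) ^ e - 1 ∧
      ¬ (r : ℤ) ∣ ((q : ℤ) ^ e - 1) / ((a + N * (b + N * a * s) * s') * (b + N * a * s)) := by
  have hFr : Fact r.Prime := ⟨hr⟩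
  -- `N = r ^ ν * N'`, `r ∤ N'`
  obtain ⟨ν, N', hN'r, hNeq⟩ := Nat.exists_eq_pow_mul_and_not_dvd hN.ne' r hr.ne_one
  have hN'0 : N' ≠ 0 := by
    rintro rfl
    exact hN'r (dvd_zero _)
  have hN'N : N' ∣ N := ⟨r ^ ν, by rw [hNeq]; ring⟩
  -- the exponent `M`
  set mr : ℕ := padicValNat r (q ^ (orderOf (q : ZMod r)) - 1) with hmr
  set M : ℕ := mr + padicValNat r (Nat.totient N') with hM
  -- `a = 1 + N k`, `b = N b₁`
  obtain ⟨k, hk⟩ := hNa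
  obtain ⟨b₁, hb₁⟩ := hNb
  have ha_eq : a = 1 + N * k := by linarith
  obtain ⟨rN, hrN'⟩ := hrN
  have haN : IsCoprime a (N : ℤ) := ⟨1, -k, by rw [ha_eq]; ring⟩
  have har : IsCoprime a (r : ℤ) := by
    refine ⟨1, -(rN * k), ?_⟩
    rw [ha_eq, hrN']; push_cast; ring
  have hab₁ : IsCoprime a b₁ := by
    rw [hb₁] at hab
    exact hab.of_mul_right_right
  have ha0 : a ≠ 0 := by
    rintro rfl
    have h1 : IsUnit (r : ℤ) := isCoprime_zero_left.mp har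
    have h2 : (r : ℤ) ∣ 1 := h1.dvd
    have h3 : r ∣ 1 := by exact_mod_cast h2
    exact hr.one_lt.ne' (Nat.dvd_one.mp h3)
  have ha₀ : a.natAbs ≠ 0 := Int.natAbs_ne_zero.mpr ha0
  have ha₀r : Nat.Coprime a.natAbs r := by
    have := Int.isCoprime_iff_gcd_eq_one.mp har
    simpa [Int.gcd] using this
  -- `y` with `r ^ M * y ≡ b₁ mod a`
  obtain ⟨y, hya, hy⟩ := exists_isCoprime_mul_modEq (l := (r : ℤ) ^ M) (a := b₁) (b := a)
    (har.symm.pow_left) hab₁.symm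
  have hya₀ : IsCoprime y (a.natAbs : ℤ) := by
    rcases Int.natAbs_eq a with h | h
    · rw [← h]; exact hya
    · have : ((a.natAbs : ℕ) : ℤ) = -a := by rw [h]; simp
      rw [this]; exact hya.neg_right
  -- the prime `l₃`
  obtain ⟨l₃, hl₃B, hl₃, hl₃y, -, hl₃r⟩ :=
    exists_prime_l3 (max N q) ha₀ hr hr2 ha₀r hya₀
  have hl₃N : N < l₃ := lt_of_le_of_lt (le_max_left _ _) hl₃B
  have hl₃q : q < l₃ := lt_of_le_of_lt (le_max_right _ _) hl₃B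
  have hl₃a : (l₃ : ℤ) ≡ y [ZMOD a] := by
    have := Int.modEq_iff_dvd.mp hl₃y
    exact Int.modEq_iff_dvd.mpr (Int.natAbs_dvd.mp this)
  -- `b' = N r^M l₃ = b + N a s`
  have hs : a ∣ (r : ℤ) ^ M * l₃ - b₁ := by
    have h1 : (r : ℤ) ^ M * l₃ ≡ b₁ [ZMOD a] := (hl₃a.mul_left _).trans hy
    exact (Int.modEq_iff_dvd.mp h1.symm)
  obtain ⟨s, hs⟩ := hs
  set b' : ℕ := N * r ^ M * l₃ with hb'
  have hb'eq : (b' : ℤ) = b + N * a * s := by
    rw [hb', hb₁]; push_cast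
    have : (r : ℤ) ^ M * l₃ = b₁ + a * s := by linarith
    calc (N : ℤ) * (r : ℤ) ^ M * l₃ = N * ((r : ℤ) ^ M * l₃) := by ring
      _ = N * b₁ + N * a * s := by rw [this]; ring
  have hb'0 : b' ≠ 0 := by
    rw [hb']
    exact Nat.mul_ne_zero (Nat.mul_ne_zero hN.ne' (pow_ne_zero _ hr.ne_zero)) hl₃.ne_zero
  -- the primes `l₁ l₂`
  have hab' : IsCoprime a ((N * b' : ℕ) : ℤ) := by
    push_cast
    refine haN.mul_right ?_
    rw [hb'eq, show (N : ℤ) * a * s = a * (N * s) by ring]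
    exact hab.add_mul_left_right _
  have har1 : a ≡ 1 [ZMOD r] := by
    refine (Int.modEq_iff_dvd.mpr ⟨-(rN * k), ?_⟩)
    rw [ha_eq, hrN']; push_cast; ring
  obtain ⟨l₁, l₂, hl₁B, hl₁₂, hl₁, hl₂, hprod, hl₁r, hl₂r⟩ :=
    exists_primes_mul_modEq (max l₃ (N * b')) (b := N * b') (Nat.mul_ne_zero hN.ne' hb'0) hr hr2
      (Dvd.dvd.mul_right ⟨rN, hrN'⟩ _) hab' har1
  have hl₁l₃ : l₃ < l₁ := lt_of_le_of_lt (le_max_left _ _) hl₁B
  obtain ⟨s', hs'⟩ : ((N * b' : ℕ) : ℤ) ∣ (l₁ : ℤ) * l₂ - a := Int.modEq_iff_dvd.mp hprod.symm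
  have ha'eq : ((l₁ * l₂ : ℕ) : ℤ) = a + N * (b + N * a * s) * s' := by
    rw [← hb'eq]; push_cast at hs' ⊢; linarith
  -- apply NT1
  set n' : ℕ := l₁ * l₂ * l₃ * N' with hn'
  set n : ℕ := (l₁ * l₂) * b' with hn
  have hn_eq : n = r ^ (ν + M) * n' := by
    rw [hn, hb', hn', hNeq, pow_add]; ring
  have hrq : ¬ r ∣ q := by
    intro h
    have h1 : r ∣ Nat.gcd q N := Nat.dvd_gcd h ⟨rN, hrN'⟩
    rw [hqN] at h1
    exact hr.one_lt.ne' (Nat.dvd_one.mp h1)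
  have hlt : ∀ {l m : ℕ}, l.Prime → m ≠ 0 → m < l → ¬ l ∣ m := by
    intro l m _ hm hml h
    have := Nat.le_of_dvd (Nat.pos_of_ne_zero hm) h
    omega
  have hl₁N : N < l₁ := hl₃N.trans hl₁l₃
  have hl₂N : N < l₂ := hl₁N.trans hl₁₂
  have hN'le : N' ≤ N := Nat.le_of_dvd hN hN'N
  have hrle : r ≤ N := Nat.le_of_dvd hN ⟨rN, hrN'⟩
  have hl₁n : ¬ l₁ ∣ N' := hlt hl₁ hN'0 (lt_of_le_of_lt hN'le hl₁N)
  have hl₂n : ¬ l₂ ∣ N' := hlt hl₂ hN'0 (lt_of_le_of_lt hN'le hl₂N)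
  have hl₃n : ¬ l₃ ∣ N' := hlt hl₃ hN'0 (lt_of_le_of_lt hN'le hl₃N)
  have hcop : ∀ {l : ℕ}, l.Prime → q < l → Nat.Coprime l q := by
    intro l hl hql
    exact (Nat.Prime.coprime_iff_not_dvd hl).mpr (hlt hl hq.ne_zero hql)
  have hrn' : ¬ r ∣ n' := by
    rw [hn']
    intro h
    rcases (Nat.Prime.dvd_mul hr).mp h with h | h
    · rcases (Nat.Prime.dvd_mul hr).mp h with h | h
      · rcases (Nat.Prime.dvd_mul hr).mp h with h | h
        · have := (Nat.prime_dvd_prime_iff_eq hr hl₁).mp h; omega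
        · have := (Nat.prime_dvd_prime_iff_eq hr hl₂).mp h; omega
      · have := (Nat.prime_dvd_prime_iff_eq hr hl₃).mp h; omega
    · exact hN'r h
  have hqN' : Nat.Coprime q N' := Nat.Coprime.coprime_dvd_right hN'N hqN
  have hqn' : Nat.Coprime q n' := by
    rw [hn']
    exact Nat.Coprime.mul_right (Nat.Coprime.mul_right (Nat.Coprime.mul_right
      (hcop hl₁ (hl₃q.trans hl₁l₃)).symm (hcop hl₂ ((hl₃q.trans hl₁l₃).trans hl₁₂)).symm)
      (hcop hl₃ hl₃q).symm) hqN'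
  have hnq : Nat.Coprime n q := by
    rw [hn_eq]
    refine Nat.Coprime.mul_left (Nat.Coprime.pow_left _ ?_) hqn'.symm
    exact (Nat.Prime.coprime_iff_not_dvd hr).mpr hrq
  have hord : padicValNat r (orderOf (q : ZMod n')) ≤ (ν + M) - mr := by
    have h1 := padicValNat_orderOf_le (q := q) hr hl₁ hl₂ hl₃ hN'0 hl₁₂.ne
      (hl₁l₃.ne') ((hl₁l₃.trans hl₁₂).ne') hl₁n hl₂n hl₃n hl₁r hl₂r hl₃r hqn'
    rw [hM]
    omega
  obtain ⟨e, he, hdvd, hndvd⟩ := hNT1 q r n (ν + M) n' hr hr2 hrq hnq hn_eq hrn'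
    (by rw [hM]; omega) hord
  -- back to `ℤ`
  have hqe : 1 ≤ q ^ e := Nat.one_le_pow _ _ hq.pos
  have hcast : ((q ^ e - 1 : ℕ) : ℤ) = (q : ℤ) ^ e - 1 := by
    push_cast [hqe]; ring
  have hncast : (n : ℤ) = (a + N * (b + N * a * s) * s') * (b + N * a * s) := by
    rw [hn, ← ha'eq, ← hb'eq]; push_cast; ring
  refine ⟨s, s', e, he, ?_, ?_⟩
  · rw [← hncast, ← hcast]
    exact_mod_cast hdvd
  · rw [← hncast, ← hcast, ← Int.natCast_div]
    exact_mod_cast hndvd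

end Fermat.Agent.S41.Menn.GoodRepA
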