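/-
S41 / Menn (helper3): the 2-adic twin of `NT_GoodRepA.lean` (= #1783 (A)(5) for the prime
`r' = 2 ∣ N`), complete (Dirichlet + the 2-adic lifting-the-exponent lemma of Mathlib).
-/
import Fermat.Agent.S41.Menn.Dirichlet

set_option autoImplicit false

namespace Fermat.Agent.S41.Menn.GoodRepA2

open Fermat.Agent.S41.Menn.Dirichlet

/-- General form of `padicValNat_orderOf_le`. -/
theorem padicValNat_orderOf_le_add {r l₁ l₂ l₃ N' q : ℕ} (hr : r.Prime) (h₁ : l₁.Prime)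
    (h₂ : l₂.Prime) (h₃ : l₃.Prime) (hN' : N' ≠ 0) (h12 : l₁ ≠ l₂) (h13 : l₁ ≠ l₃)
    (h23 : l₂ ≠ l₃) (hN1 : ¬ l₁ ∣ N') (hN2 : ¬ l₂ ∣ N') (hN3 : ¬ l₃ ∣ N')
    (hq : Nat.Coprime q (l₁ * l₂ * l₃ * N')) :
    padicValNat r (orderOf (q : ZMod (l₁ * l₂ * l₃ * N'))) ≤
      padicValNat r (l₁ - 1) + padicValNat r (l₂ - 1) + padicValNat r (l₃ - 1) +
        padicValNat r (Nat.totient N') := by
  have : Fact r.Prime := ⟨hr⟩
  have c12 : Nat.Coprime l₁ l₂ := (Nat.coprime_primes h₁ h₂).mpr h12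
  have c13 : Nat.Coprime l₁ l₃ := (Nat.coprime_primes h₁ h₃).mpr h13
  have c23 : Nat.Coprime l₂ l₃ := (Nat.coprime_primes h₂ h₃).mpr h23
  have c123 : Nat.Coprime (l₁ * l₂) l₃ := Nat.Coprime.mul_left c13 c23
  have cN1 : Nat.Coprime l₁ N' := (Nat.Prime.coprime_iff_not_dvd h₁).mpr hN1
  have cN2 : Nat.Coprime l₂ N' := (Nat.Prime.coprime_iff_not_dvd h₂).mpr hN2
  have cN3 : Nat.Coprime l₃ N' := (Nat.Prime.coprime_iff_not_dvd h₃).mpr hN3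
  have cN : Nat.Coprime (l₁ * l₂ * l₃) N' :=
    Nat.Coprime.mul_left (Nat.Coprime.mul_left cN1 cN2) cN3
  have htot : Nat.totient (l₁ * l₂ * l₃ * N') =
      (l₁ - 1) * (l₂ - 1) * (l₃ - 1) * Nat.totient N' := by
    rw [Nat.totient_mul cN, Nat.totient_mul c123, Nat.totient_mul c12, Nat.totient_prime h₁,
      Nat.totient_prime h₂, Nat.totient_prime h₃]
  have hpos1 : l₁ - 1 ≠ 0 := by have := h₁.one_lt; omega
  have hpos2 : l₂ - 1 ≠ 0 := by have := h₂.one_lt; omega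
  have hpos3 : l₃ - 1 ≠ 0 := by have := h₃.one_lt; omega
  have hposN : Nat.totient N' ≠ 0 := (Nat.totient_pos.mpr (Nat.pos_of_ne_zero hN')).ne'
  have hval : padicValNat r (Nat.totient (l₁ * l₂ * l₃ * N')) =
      padicValNat r (l₁ - 1) + padicValNat r (l₂ - 1) + padicValNat r (l₃ - 1) +
        padicValNat r (Nat.totient N') := by
    rw [htot, padicValNat.mul (by positivity) hposN, padicValNat.mul (by positivity) hpos3,
      padicValNat.mul hpos1 hpos2]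
  rw [← hval]
  refine padicValNat_le_of_dvd_ne_zero ?_ (orderOf_natCast_dvd_totient hq)
  rw [htot]
  positivity

/-- `¬ 2 ^ k ∣ m` bounds the 2-adic valuation. -/
theorem padicValNat_lt_of_not_dvd {p k m : ℕ} [Fact p.Prime] (hm : m ≠ 0) (h : ¬ p ^ k ∣ m) :
    padicValNat p m < k := by
  by_contra hc
  exact h ((padicValNat_dvd_iff_le hm).mpr (not_lt.mp hc))

/-- From a valuation computation to the conclusion of NT1. -/
theorem dvd_and_not_dvd_of_padicValNat {r n' M m : ℕ} (hr : r.Prime) (hm : m ≠ 0)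
    (hn' : n' ∣ m) (hrn' : ¬ r ∣ n') (hM : padicValNat r m = M) :
    r ^ M * n' ∣ m ∧ ¬ r ∣ m / (r ^ M * n') := by
  have : Fact r.Prime := ⟨hr⟩
  have hcop : Nat.Coprime (r ^ M) n' :=
    Nat.Coprime.pow_left _ ((Nat.Prime.coprime_iff_not_dvd hr).mpr hrn')
  have hdvd : r ^ M * n' ∣ m :=
    Nat.Coprime.mul_dvd_of_dvd_of_dvd hcop (hM ▸ pow_padicValNat_dvd) hn'
  refine ⟨hdvd, ?_⟩
  have hn'0 : n' ≠ 0 := by
    rintro rfl
    exact hrn' (dvd_zero _)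
  have hquot : m / (r ^ M * n') ≠ 0 := by
    obtain ⟨c, hc⟩ := hdvd
    have hpos : 0 < r ^ M * n' := Nat.pos_of_ne_zero (Nat.mul_ne_zero (pow_ne_zero _ hr.ne_zero) hn'0)
    rw [hc, Nat.mul_div_cancel_left _ hpos]
    rintro rfl
    exact hm (by simpa using hc)
  have hval : padicValNat r (m / (r ^ M * n')) = 0 := by
    rw [padicValNat.div_of_dvd hdvd, hM,
      padicValNat.mul (pow_ne_zero _ hr.ne_zero) hn'0, padicValNat.prime_pow,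
      padicValNat.eq_zero_of_not_dvd hrn']
    simp
  intro h
  exact (dvd_iff_padicValNat_ne_zero hquot).mp h hval

/-- `n' ∣ q ^ e - 1` when the order of `q` modulo `n'` divides `e`. -/
theorem dvd_pow_sub_one_of_orderOf_dvd {q n' e : ℕ} (hq : 0 < q)
    (h : orderOf (q : ZMod n') ∣ e) : n' ∣ q ^ e - 1 := by
  have h1 : (q : ZMod n') ^ e = 1 := orderOf_dvd_iff_pow_eq_one.mp h
  have h2 : ((q ^ e : ℕ) : ZMod n') = ((1 : ℕ) : ZMod n') := by push_cast; exact h1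
  have h3 : q ^ e ≡ 1 [MOD n'] := (ZMod.natCast_eq_natCast_iff _ _ _).mp h2
  exact (Nat.modEq_iff_dvd' (Nat.one_le_pow _ _ hq)).mp h3.symm

/-- The 2-adic NT1. -/
theorem good_exponent_two {q n' M : ℕ} (hq1 : 1 < q) (hq2 : ¬ 2 ∣ q) (hqn' : Nat.Coprime q n')
    (hn'2 : ¬ 2 ∣ n')
    (hM : padicValNat 2 (q + 1) + padicValNat 2 (q - 1) ≤ M)
    (hord : padicValNat 2 (orderOf (q : ZMod n')) ≤
      M + 1 - (padicValNat 2 (q + 1) + padicValNat 2 (q - 1))) :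
    ∃ e : ℕ, 0 < e ∧ 2 ^ M * n' ∣ q ^ e - 1 ∧ ¬ 2 ∣ (q ^ e - 1) / (2 ^ M * n') := by
  have hF : Fact (Nat.Prime 2) := ⟨Nat.prime_two⟩
  set s2 := padicValNat 2 (q + 1) + padicValNat 2 (q - 1) with hs2
  have hn'0 : n' ≠ 0 := by
    rintro rfl
    exact hn'2 (dvd_zero _)
  -- the order is positive
  have hE0 : orderOf (q : ZMod n') ≠ 0 := by
    intro h0
    have h1 := orderOf_natCast_dvd_totient hqn'
    rw [h0] at h1
    exact (Nat.totient_pos.mpr (Nat.pos_of_ne_zero hn'0)).ne' (Nat.eq_zero_of_zero_dvd h1)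
  obtain ⟨j, c, hc, hE⟩ := Nat.exists_eq_two_pow_mul_odd hE0
  have hc2 : ¬ 2 ∣ c := by
    rw [← even_iff_two_dvd, Nat.not_even_iff_odd]; exact hc
  have hc0 : c ≠ 0 := by
    rintro rfl
    exact hc2 (dvd_zero _)
  have hj : padicValNat 2 (orderOf (q : ZMod n')) = j := by
    rw [hE, padicValNat.mul (pow_ne_zero _ two_ne_zero) hc0, padicValNat.prime_pow,
      padicValNat.eq_zero_of_not_dvd hc2]
    simp
  set t := M + 1 - s2 with ht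
  have ht1 : 1 ≤ t := by omega
  have hjt : j ≤ t := by rw [← hj]; exact hord
  set e := 2 ^ t * c with he
  have he0 : e ≠ 0 := Nat.mul_ne_zero (pow_ne_zero _ two_ne_zero) hc0
  have hEe : orderOf (q : ZMod n') ∣ e := by
    rw [hE, he]
    exact Nat.mul_dvd_mul (pow_dvd_pow _ hjt) dvd_rfl
  have heven : Even e := by
    rw [he, even_iff_two_dvd]
    exact Dvd.dvd.mul_right (dvd_pow_self 2 (by omega)) _
  have hve : padicValNat 2 e = t := by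
    rw [he, padicValNat.mul (pow_ne_zero _ two_ne_zero) hc0, padicValNat.prime_pow,
      padicValNat.eq_zero_of_not_dvd hc2]
    simp
  have hLTE := padicValNat.pow_two_sub_one hq1 hq2 he0 heven
  have hval : padicValNat 2 (q ^ e - 1) = M := by
    rw [hve] at hLTE
    omega
  have hm0 : q ^ e - 1 ≠ 0 := by
    have : 1 < q ^ e := Nat.one_lt_pow he0 hq1
    omega
  obtain ⟨h1, h2⟩ := dvd_and_not_dvd_of_padicValNat Nat.prime_two hm0
    (dvd_pow_sub_one_of_orderOf_dvd (by omega) hEe) hn'2 hval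
  exact ⟨e, Nat.pos_of_ne_zero he0, h1, h2⟩

/-- 2-adic `l₃`: a large prime `l ≡ x mod a₀` (`a₀` odd) with `l ≡ 3 mod 4`. -/
theorem exists_prime_l3_two (B : ℕ) {a₀ : ℕ} (ha₀ : a₀ ≠ 0) (hodd : Nat.Coprime a₀ 4) {x : ℤ}
    (hx : IsCoprime x (a₀ : ℤ)) :
    ∃ l : ℕ, B < l ∧ l.Prime ∧ (l : ℤ) ≡ x [ZMOD a₀] ∧ ¬ 4 ∣ l - 1 := by
  have h34 : IsCoprime (3 : ℤ) ((4 : ℕ) : ℤ) := ⟨-1, 1, by norm_num⟩
  obtain ⟨l, hlB, hl, h1, h2⟩ :=
    exists_prime_gt_modEq_modEq B ha₀ (by norm_num) hodd hx h34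
  refine ⟨l, hlB, hl, h1, ?_⟩
  have h3 : (l : ℤ) % 4 = 3 := by
    have := h2
    unfold Int.ModEq at this
    push_cast at this
    omega
  have hl1 := hl.one_lt
  omega

/-- 2-adic `l₁ l₂`: for `8 ∣ b` and `a` coprime to `b`, two large primes `l₁ < l₂` with
`l₁ * l₂ ≡ a mod b` and `lᵢ ≢ 1 mod 8`. -/
theorem exists_primes_mul_modEq_two (B : ℕ) {b : ℕ} (hb : b ≠ 0) (h8 : 8 ∣ b) {a : ℤ}
    (hab : IsCoprime a (b : ℤ)) :
    ∃ l₁ l₂ : ℕ, B < l₁ ∧ l₁ < l₂ ∧ l₁.Prime ∧ l₂.Prime ∧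
      ((l₁ : ℤ) * (l₂ : ℤ)) ≡ a [ZMOD b] ∧ ¬ 8 ∣ l₁ - 1 ∧ ¬ 8 ∣ l₂ - 1 := by
  -- `x₀ ∈ {3, 5}`, `x₀ ≢ a mod 8`
  obtain ⟨x₀, hx₀, hx₀a⟩ : ∃ x₀ : ℤ, (x₀ = 3 ∨ x₀ = 5) ∧ ¬ a ≡ x₀ [ZMOD 8] := by
    by_cases h : a ≡ 3 [ZMOD 8]
    · refine ⟨5, Or.inr rfl, ?_⟩
      intro h5
      have := h.symm.trans h5
      unfold Int.ModEq at this
      omega
    · exact ⟨3, Or.inl rfl, h⟩
  have hx₀8 : IsCoprime x₀ ((8 : ℕ) : ℤ) := by
    rcases hx₀ with rfl | rfl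
    · exact ⟨3, -1, by norm_num⟩
    · exact ⟨5, -3, by norm_num⟩
  obtain ⟨l₁, hl₁B, hl₁, hl₁8⟩ :=
    Nat.forall_exists_prime_gt_and_zmodEq (max B b) (q := 8) (a := x₀) (by norm_num) hx₀8
  have hl₁b : IsCoprime (l₁ : ℤ) (b : ℤ) :=
    isCoprime_of_prime_gt hl₁ hb (lt_of_le_of_lt (le_max_right _ _) hl₁B)
  obtain ⟨y, hy, hly⟩ := exists_isCoprime_mul_modEq hl₁b hab
  obtain ⟨l₂, hl₂B, hl₂, hl₂y⟩ :=
    Nat.forall_exists_prime_gt_and_zmodEq l₁ (q := b) (a := y) hb hy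
  have hprod : ((l₁ : ℤ) * (l₂ : ℤ)) ≡ a [ZMOD b] := (hl₂y.mul_left _).trans hly
  have hprod8 : ((l₁ : ℤ) * (l₂ : ℤ)) ≡ a [ZMOD 8] :=
    hprod.of_dvd (by exact_mod_cast h8)
  have hl₁8' : (l₁ : ℤ) ≡ x₀ [ZMOD 8] := by simpa using hl₁8
  refine ⟨l₁, l₂, lt_of_le_of_lt (le_max_left _ _) hl₁B, hl₂B, hl₁, hl₂, hprod, ?_, ?_⟩
  · intro hdvd
    have hl1 := hl₁.one_lt
    have h := hl₁8'
    unfold Int.ModEq at h
    rcases hx₀ with rfl | rfl <;> omega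
  · intro hdvd
    have hl1 := hl₂.one_lt
    have h2 : (l₂ : ℤ) ≡ 1 [ZMOD 8] := by
      unfold Int.ModEq
      omega
    have h3 : ((l₁ : ℤ) * (l₂ : ℤ)) ≡ x₀ * 1 [ZMOD 8] := hl₁8'.mul h2
    rw [mul_one] at h3
    exact hx₀a (hprod8.symm.trans h3)

/-- **NT-A2 for `r' = 2`.** -/
theorem goodrep_A_two {q N : ℕ} (hq : q.Prime) (hN : 0 < N) (hqN : Nat.Coprime q N)
    (h2N : 2 ∣ N) {a b : ℤ} (hab : IsCoprime a b) (hNb : (N : ℤ) ∣ b) (hNa : (N : ℤ) ∣ a - 1) :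
    ∃ (s s' : ℤ) (e : ℕ), 0 < e ∧
      ((a + N * (b + N * a * s) * s') * (b + N * a * s)) ∣ (q : ℤ) ^ e - 1 ∧
      ¬ ((2 : ℕ) : ℤ) ∣ ((q : ℤ) ^ e - 1) / ((a + N * (b + N * a * s) * s') * (b + N * a * s)) := by
  have hF : Fact (Nat.Prime 2) := ⟨Nat.prime_two⟩
  have hr := Nat.prime_two
  -- `N = 2 ^ ν * N'`, `N'` odd
  obtain ⟨ν, N', hN'r, hNeq⟩ := Nat.exists_eq_pow_mul_and_not_dvd hN.ne' 2 (by norm_num)
  have hN'0 : N' ≠ 0 := by
    rintro rfl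
    exact hN'r (dvd_zero _)
  have hN'N : N' ∣ N := ⟨2 ^ ν, by rw [hNeq]; ring⟩
  -- `q` is odd
  have hq2 : ¬ 2 ∣ q := by
    intro h
    have h1 : 2 ∣ Nat.gcd q N := Nat.dvd_gcd h h2N
    rw [hqN] at h1
    omega
  -- the exponent `M`
  set s2 : ℕ := padicValNat 2 (q + 1) + padicValNat 2 (q - 1) with hs2
  set M : ℕ := s2 + 5 + padicValNat 2 (Nat.totient N') with hM
  -- `a = 1 + N k`, `b = N b₁`
  obtain ⟨k, hk⟩ := hNa
  obtain ⟨b₁, hb₁⟩ := hNb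
  have ha_eq : a = 1 + N * k := by linarith
  obtain ⟨rN, hrN'⟩ := h2N
  have haN : IsCoprime a (N : ℤ) := ⟨1, -k, by rw [ha_eq]; ring⟩
  have har : IsCoprime a (2 : ℤ) := by
    refine ⟨1, -(rN * k), ?_⟩
    rw [ha_eq, hrN']; push_cast; ring
  have hab₁ : IsCoprime a b₁ := by
    rw [hb₁] at hab
    exact hab.of_mul_right_right
  have ha0 : a ≠ 0 := by
    rintro rfl
    have h1 : IsUnit (2 : ℤ) := isCoprime_zero_left.mp har
    have h2 : (2 : ℤ) ∣ 1 := h1.dvd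
    omega
  have ha₀ : a.natAbs ≠ 0 := Int.natAbs_ne_zero.mpr ha0
  have ha₀r : Nat.Coprime a.natAbs 4 := by
    have h4 : IsCoprime a ((2 : ℤ) ^ 2) := har.pow_right
    have := Int.isCoprime_iff_gcd_eq_one.mp h4
    simpa [Int.gcd] using this
  -- `y` with `2 ^ M * y ≡ b₁ mod a`
  obtain ⟨y, hya, hy⟩ := exists_isCoprime_mul_modEq (l := (2 : ℤ) ^ M) (a := b₁) (b := a)
    (har.symm.pow_left) hab₁.symm
  have hya₀ : IsCoprime y (a.natAbs : ℤ) := by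
    rcases Int.natAbs_eq a with h | h
    · rw [← h]; exact hya
    · have : ((a.natAbs : ℕ) : ℤ) = -a := by rw [h]; simp
      rw [this]; exact hya.neg_right
  -- the prime `l₃`
  obtain ⟨l₃, hl₃B, hl₃, hl₃y, hl₃r⟩ := exists_prime_l3_two (max N q) ha₀ ha₀r hya₀
  have hl₃N : N < l₃ := lt_of_le_of_lt (le_max_left _ _) hl₃B
  have hl₃q : q < l₃ := lt_of_le_of_lt (le_max_right _ _) hl₃B
  have hl₃a : (l₃ : ℤ) ≡ y [ZMOD a] := by
    have := Int.modEq_iff_dvd.mp hl₃y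
    exact Int.modEq_iff_dvd.mpr (Int.natAbs_dvd.mp this)
  -- `b' = N 2^M l₃ = b + N a s`
  have hs : a ∣ (2 : ℤ) ^ M * l₃ - b₁ := by
    have h1 : (2 : ℤ) ^ M * l₃ ≡ b₁ [ZMOD a] := (hl₃a.mul_left _).trans hy
    exact (Int.modEq_iff_dvd.mp h1.symm)
  obtain ⟨s, hs⟩ := hs
  set b' : ℕ := N * 2 ^ M * l₃ with hb'
  have hb'eq : (b' : ℤ) = b + N * a * s := by
    rw [hb', hb₁]; push_cast
    have : (2 : ℤ) ^ M * l₃ = b₁ + a * s := by linarith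
    calc (N : ℤ) * (2 : ℤ) ^ M * l₃ = N * ((2 : ℤ) ^ M * l₃) := by ring
      _ = N * b₁ + N * a * s := by rw [this]; ring
  have hb'0 : b' ≠ 0 := by
    rw [hb']
    exact Nat.mul_ne_zero (Nat.mul_ne_zero hN.ne' (pow_ne_zero _ two_ne_zero)) hl₃.ne_zero
  -- the primes `l₁ l₂`
  have hab' : IsCoprime a ((N * b' : ℕ) : ℤ) := by
    push_cast
    refine haN.mul_right ?_
    rw [hb'eq, show (N : ℤ) * a * s = a * (N * s) by ring]
    exact hab.add_mul_left_right _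
  have h8 : 8 ∣ N * b' := by
    have hM3 : 3 ≤ M := by omega
    have : (8 : ℕ) ∣ 2 ^ M := by
      have := pow_dvd_pow 2 hM3
      simpa using this
    rw [hb']
    exact Dvd.dvd.mul_left (Dvd.dvd.mul_right (Dvd.dvd.mul_left this _) _) _
  obtain ⟨l₁, l₂, hl₁B, hl₁₂, hl₁, hl₂, hprod, hl₁r, hl₂r⟩ :=
    exists_primes_mul_modEq_two (max l₃ (N * b')) (b := N * b') (Nat.mul_ne_zero hN.ne' hb'0)
      h8 hab'
  have hl₁l₃ : l₃ < l₁ := lt_of_le_of_lt (le_max_left _ _) hl₁B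
  obtain ⟨s', hs'⟩ : ((N * b' : ℕ) : ℤ) ∣ (l₁ : ℤ) * l₂ - a := Int.modEq_iff_dvd.mp hprod.symm
  have ha'eq : ((l₁ * l₂ : ℕ) : ℤ) = a + N * (b + N * a * s) * s' := by
    rw [← hb'eq]; push_cast at hs' ⊢; linarith
  -- apply the 2-adic NT1
  set n' : ℕ := l₁ * l₂ * l₃ * N' with hn'
  set n : ℕ := (l₁ * l₂) * b' with hn
  have hn_eq : n = 2 ^ (ν + M) * n' := by
    rw [hn, hb', hn', hNeq, pow_add]; ring
  have hlt : ∀ {l m : ℕ}, l.Prime → m ≠ 0 → m < l → ¬ l ∣ m := by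
    intro l m _ hm hml h
    have := Nat.le_of_dvd (Nat.pos_of_ne_zero hm) h
    omega
  have hl₁N : N < l₁ := hl₃N.trans hl₁l₃
  have hl₂N : N < l₂ := hl₁N.trans hl₁₂
  have hN'le : N' ≤ N := Nat.le_of_dvd hN hN'N
  have hrle : 2 ≤ N := Nat.le_of_dvd hN ⟨rN, hrN'⟩
  have hl₁n : ¬ l₁ ∣ N' := hlt hl₁ hN'0 (lt_of_le_of_lt hN'le hl₁N)
  have hl₂n : ¬ l₂ ∣ N' := hlt hl₂ hN'0 (lt_of_le_of_lt hN'le hl₂N)
  have hl₃n : ¬ l₃ ∣ N' := hlt hl₃ hN'0 (lt_of_le_of_lt hN'le hl₃N)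
  have hcop : ∀ {l : ℕ}, l.Prime → q < l → Nat.Coprime l q := by
    intro l hl hql
    exact (Nat.Prime.coprime_iff_not_dvd hl).mpr (hlt hl hq.ne_zero hql)
  have hrn' : ¬ 2 ∣ n' := by
    rw [hn']
    intro h
    rcases (Nat.Prime.dvd_mul hr).mp h with h | h
    · rcases (Nat.Prime.dvd_mul hr).mp h with h | h
      · rcases (Nat.Prime.dvd_mul hr).mp h with h | h
        · have := (Nat.prime_dvd_prime_iff_eq hr hl₁).mp h; omega
        · have := (Nat.prime_dvd_prime_iff_eq hr hl₂).mp h; omega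
      · have := (Nat.prime_dvd_prime_iff_eq hr hl₃).mp h; omega
    · exact hN'r h
  have hqN' : Nat.Coprime q N' := Nat.Coprime.coprime_dvd_right hN'N hqN
  have hqn' : Nat.Coprime q n' := by
    rw [hn']
    exact Nat.Coprime.mul_right (Nat.Coprime.mul_right (Nat.Coprime.mul_right
      (hcop hl₁ (hl₃q.trans hl₁l₃)).symm (hcop hl₂ ((hl₃q.trans hl₁l₃).trans hl₁₂)).symm)
      (hcop hl₃ hl₃q).symm) hqN'
  have hv1 : padicValNat 2 (l₁ - 1) < 3 :=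
    padicValNat_lt_of_not_dvd (by have := hl₁.one_lt; omega) (by simpa using hl₁r)
  have hv2 : padicValNat 2 (l₂ - 1) < 3 :=
    padicValNat_lt_of_not_dvd (by have := hl₂.one_lt; omega) (by simpa using hl₂r)
  have hv3 : padicValNat 2 (l₃ - 1) < 2 :=
    padicValNat_lt_of_not_dvd (by have := hl₃.one_lt; omega) (by simpa using hl₃r)
  have hord : padicValNat 2 (orderOf (q : ZMod n')) ≤ (ν + M) + 1 - s2 := by
    have h1 := padicValNat_orderOf_le_add (q := q) hr hl₁ hl₂ hl₃ hN'0 hl₁₂.ne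
      (hl₁l₃.ne') ((hl₁l₃.trans hl₁₂).ne') hl₁n hl₂n hl₃n hqn'
    rw [hM]
    omega
  obtain ⟨e, he, hdvd, hndvd⟩ := good_exponent_two (M := ν + M) hq.one_lt hq2 hqn' hrn'
    (by rw [hM]; omega) hord
  rw [← hn_eq] at hdvd hndvd
  -- back to `ℤ`
  have hqe : 1 ≤ q ^ e := Nat.one_le_pow _ _ hq.pos
  have hcast : ((q ^ e - 1 : ℕ) : ℤ) = (q : ℤ) ^ e - 1 := by
    push_cast [hqe]; ring
  have hncast : (n : ℤ) = (a + N * (b + N * a * s) * s') * (b + N * a * s) := by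
    rw [hn, ← ha'eq, ← hb'eq]; push_cast; ring
  refine ⟨s, s', e, he, ?_, ?_⟩
  · rw [← hncast, ← hcast]
    exact_mod_cast hdvd
  · rw [← hncast, ← hcast, ← Int.natCast_div]
    exact_mod_cast hndvd

end Fermat.Agent.S41.Menn.GoodRepA2
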