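import Fermat.Agent.S41.Menn.TransferEis

/-!
# S41, block (L3b): the transfer core on ALL of `G` (not only on `K`)

Strengthening of `TransferEis.prod_hecke_eq_pow_card` (helper26): the Hecke identity
`∏ₓ φ (g'ₓ) = φ g ^ |X|` holds for every `g ∈ G` (not only `g ∈ K`) as soon as the generation
hypothesis is available on `G`: every homomorphism `f : Γ →* M` with `f u = 1` is trivial on `G`
(for `Γ = SL(2, ℤ)`, `u = T`: every such `f` is trivial on all of `Γ`, because `(S T)³ = S²`).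

Reason: for `g ∈ G` the elements `γₓ = βₓ g β_{σ x}⁻¹` still lie in `G ∩ S`, and
`Ψ̃ (γₓ) = φ (α γₓ α⁻¹) / φ (γₓ)` only needs `γₓ ∈ G`, `α γₓ α⁻¹ ∈ G`.

Consequence: `T_r φ = (r + 1) φ` on the whole of `Γ₀(N)`; no "character of `(ℤ/N)ˣ`" step is needed.
-/

set_option autoImplicit false

namespace Fermat.Agent.S41.Menn.TransferEisG

open Fermat.Agent.S41.Menn.TransferEis

variable {Γ : Type*} [Group Γ] {M : Type*} [CommGroup M]
variable {𝔾 : Type*} [Group 𝔾] {ι : Γ →* 𝔾} (hι : Function.Injective ι) (α : 𝔾)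
variable {G K : Subgroup Γ} (hKG : K ≤ G) [hK : K.Normal]
variable (φ : G →* M) (hφ : ConjInv G K φ)
variable (hα : ∀ s t : Γ, α * ι s * α⁻¹ = ι t → t * s⁻¹ ∈ K)

/-- **(T3'')** the composite of the transfer with `Ψ̃` is trivial on `G`. -/
theorem transfer_psi_eq_one_of_mem [(conjSub ι α).FiniteIndex] (u : Γ) (hu : u ∈ G)
    (hU : ∀ (h : G) (z : 𝔾) (n : ℕ), ι h = z * ι u ^ n * z⁻¹ → φ h = 1)
    (hgen : ∀ f : Γ →* M, f u = 1 → ∀ g ∈ G, f g = 1) (g : Γ) (hg : g ∈ G) :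
    MonoidHom.transfer (psi hι α hKG φ hφ hα) g = 1 := by
  classical
  refine hgen _ ?_ g hg
  let _ := (conjSub ι α).fintypeQuotientOfFiniteIndex
  rw [MonoidHom.transfer_eq_prod_quotient_orbitRel_zpowers_quot]
  refine Finset.prod_eq_one fun q _ => ?_
  exact psi_conj_pow_eq_one hι α hKG φ hφ hα u hu hU _ _ _

variable {X : Type*} [Fintype X] (δ : X → 𝔾) (a : X → G) (β : X → K)
variable (hδ : ∀ x, δ x = ι (a x) * α * ι (β x))
variable (hdist : ∀ (x x' : X) (h : G), δ x = ι h * δ x' → x = x')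
variable (hlev : ∀ (k : Γ) (x : X), ∃ (k' : Γ) (x' : X), δ x * ι k = ι k' * δ x')

include hι hKG hφ hα hδ hdist hlev in
/-- **(T4')** the Hecke identity on `G`: for `g ∈ G` with `δₓ ι(g) = ι(g'ₓ) δ_{σ x}` one has
`∏ₓ φ(g'ₓ) = φ(g) ^ |X|`. -/
theorem prod_hecke_eq_pow_card_of_mem [Nonempty X] (u : Γ) (hu : u ∈ G)
    (hU : ∀ (h : G) (z : 𝔾) (n : ℕ), ι h = z * ι u ^ n * z⁻¹ → φ h = 1)
    (hgen : ∀ f : Γ →* M, f u = 1 → ∀ g ∈ G, f g = 1)
    (g : Γ) (hg : g ∈ G) (σ : Equiv.Perm X) (g' : X → G)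
    (hrel : ∀ x, δ x * ι g = ι (g' x) * δ (σ x)) :
    ∏ x, φ (g' x) = φ ⟨g, hg⟩ ^ Fintype.card X := by
  have : (conjSub ι α).FiniteIndex := finiteIndex_conjSub α δ a β hδ hlev
  have hγS : ∀ x, (β x : Γ) * g * (β (σ x) : Γ)⁻¹ ∈ conjSub ι α := fun x =>
    mem_conjSub_of_rel α δ a β hδ (hrel x)
  have hγG : ∀ x, (β x : Γ) * g * (β (σ x) : Γ)⁻¹ ∈ G := fun x =>
    mul_mem (mul_mem (hKG (β x).2) hg) (inv_mem (hKG (β (σ x)).2))
  have hc : ∀ x, conjHom α hι ⟨_, hγS x⟩ = ((a x : G) : Γ)⁻¹ * g' x * (a (σ x) : Γ) := fun x =>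
    conjHom_eq α hι _ (conj_rel α δ a β hδ (hrel x))
  have hcG : ∀ x, conjHom α hι ⟨_, hγS x⟩ ∈ G := fun x => by
    rw [hc x]
    exact mul_mem (mul_mem (inv_mem (a x).2) (g' x).2) (a (σ x)).2
  have h1 := transfer_psi_eq_one_of_mem hι α hKG φ hφ hα u hu hU hgen g hg
  rw [transfer_eq_prod_extOne (conjSub ι α) (psi hι α hKG φ hφ hα) (fun x => (β x : Γ))
    (bijective_mk_inv hι α hKG hα δ a β hδ hdist hlev) g σ hγS] at h1
  have h2 : ∀ x, extOne (conjSub ι α) (psi hι α hKG φ hφ hα) ((β x : Γ) * g * (β (σ x) : Γ)⁻¹) =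
      (φ (a x))⁻¹ * φ (g' x) * φ (a (σ x)) *
        (φ ⟨β x, hKG (β x).2⟩ * φ ⟨g, hg⟩ * (φ ⟨β (σ x), hKG (β (σ x)).2⟩)⁻¹)⁻¹ := fun x => by
    rw [extOne_of_mem _ _ (hγS x), psi_apply_of_mem hι α hKG φ hφ hα _ (hγG x) (hcG x)]
    congr 1
    · rw [← map_inv, ← map_mul, ← map_mul]
      congr 1
      apply Subtype.ext
      exact hc x
    · congr 1
      rw [← map_inv, ← map_mul, ← map_mul]
      rfl
  rw [Finset.prod_congr rfl (fun x _ => h2 x),
    prod_cancel_aux σ (fun x => φ (a x)) (fun x => φ ⟨β x, hKG (β x).2⟩) (fun x => φ (g' x))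
      (φ ⟨g, hg⟩)] at h1
  exact mul_inv_eq_one.mp h1

/-- the generation hypothesis for `Γ = SL(2, ℤ)`, `u = T`: a homomorphism to a commutative group
which kills `T` is trivial. -/
theorem SL2Z_hom_eq_one_of_T (f : Matrix.SpecialLinearGroup (Fin 2) ℤ →* M)
    (hT : f ModularGroup.T = 1) (g : Matrix.SpecialLinearGroup (Fin 2) ℤ) : f g = 1 := by
  have hS : f ModularGroup.S = 1 := by
    -- `(S * T) ^ 3 = S ^ 2` in `SL(2, ℤ)`
    have hrel : (ModularGroup.S * ModularGroup.T) ^ 3 = ModularGroup.S ^ 2 := by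
      apply Subtype.ext
      simp only [Matrix.SpecialLinearGroup.coe_pow, Matrix.SpecialLinearGroup.coe_mul,
        ModularGroup.coe_S, ModularGroup.coe_T]
      ext i j
      fin_cases i <;> fin_cases j <;> simp [pow_succ, Matrix.mul_apply, Fin.sum_univ_two]
    have := congrArg f hrel
    rw [map_pow, map_mul, hT, mul_one, map_pow] at this
    -- `f S ^ 3 = f S ^ 2`
    have h3 : f ModularGroup.S ^ 2 * f ModularGroup.S = f ModularGroup.S ^ 2 * 1 := by
      rw [mul_one, ← pow_succ]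
      exact this
    exact mul_left_cancel h3
  have hmem : g ∈ Subgroup.closure ({ModularGroup.S, ModularGroup.T} :
      Set (Matrix.SpecialLinearGroup (Fin 2) ℤ)) := by
    rw [SpecialLinearGroup.SL2Z_generators]
    exact Subgroup.mem_top g
  have hle : Subgroup.closure ({ModularGroup.S, ModularGroup.T} :
      Set (Matrix.SpecialLinearGroup (Fin 2) ℤ)) ≤ f.ker := by
    rw [Subgroup.closure_le]
    rintro x (rfl | rfl)
    · exact MonoidHom.mem_ker.mpr hS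
    · exact MonoidHom.mem_ker.mpr hT
  exact MonoidHom.mem_ker.mp (hle hmem)

end Fermat.Agent.S41.Menn.TransferEisG
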