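import Mathlib
import Fermat.Agent.S41.Menn.TransferSL2
import Fermat.Agent.S41.Menn.TransferEisG

/-!
# S41, block (L3b): `T_r c = (r + 1) c` on all of `Γ₀(N)`

Strengthening of `TransferSL2.heckeHom_apply_of_mem_Gamma` through helper10's
`TransferEisG.prod_hecke_eq_pow_card_of_mem`: no restriction to `g ∈ Γ(N)`, no hypothesis on the
exponent of the coefficient group.
-/

set_option autoImplicit false

namespace Fermat.Agent.S41.Menn.TransferSL2G

open CongruenceSubgroup Matrix.SpecialLinearGroup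
open ModularCurve.Period
open P2MW.S_ModularForm_heckeT_slash_eq_self_of_mem_Gamma0.ModularForm.HeckeSlashInvariance
open Fermat.Agent.S29.Betti
open Fermat.Agent.S41.Menn.TransferEis
open Fermat.Agent.S41.Menn.TransferEisG
open Fermat.Agent.S41.Menn.TransferSL2
open scoped MatrixGroups
open OnePoint

variable {r : ℕ} [Fact r.Prime] {N : ℕ}

/-- **`T_r c = (r + 1) c`** for a parabolic `c ∈ Hom(Γ₀(N), A)` whose restriction to `Γ(N)` is
invariant under conjugation by `SL(2, ℤ)`, for every prime `r ∤ N` which is a square modulo `N`. -/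
theorem heckeHom_apply_eq (hrN : ¬ r ∣ N) {lam : ℤ} (hlam : lam ^ 2 ≡ (r : ℤ) [ZMOD N])
    {A : Type*} [AddCommGroup A]
    (c : Additive (Gamma0 N) →+ A) (hc : IsParabolicHom (Gamma0 N) c)
    (hA : ∀ (x : SL(2, ℤ)) (k : Gamma0 N), (k : SL(2, ℤ)) ∈ Gamma N →
      ∀ h : x * k * x⁻¹ ∈ Gamma0 N, c (Additive.ofMul ⟨x * k * x⁻¹, h⟩) = c (Additive.ofMul k))
    (g : Gamma0 N) :
    heckeHom hrN A c (Additive.ofMul g) = (r + 1) • c (Additive.ofMul g) := by
  obtain ⟨l, hl, hcop⟩ := exists_lam hrN hlam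
  obtain ⟨u, v, huv⟩ := hcop
  have hlr : IsCoprime l (r : ℤ) := ⟨u, v * ((N : ℤ) * N), by linear_combination huv⟩
  have : (Gamma N).Normal := Gamma_normal N
  let φ : Gamma0 N →* Multiplicative A := AddMonoidHom.toMultiplicativeRight c
  have hφapp : ∀ k : Gamma0 N, φ k = Multiplicative.ofAdd (c (Additive.ofMul k)) := fun k => rfl
  have hφ : ConjInv (Gamma0 N) (Gamma N) φ := fun x k hk h1 h2 => by
    rw [hφapp, hφapp, hA x ⟨k, h1⟩ hk h2]
  have hU : ∀ (h : Gamma0 N) (z : GL (Fin 2) ℝ) (n : ℕ),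
      mapGL ℝ (h : SL(2, ℤ)) = z * mapGL ℝ ModularGroup.T ^ n * z⁻¹ → φ h = 1 := by
    intro h z n hh
    have htr := trace_eq_two_of_conj hh
    rw [hφapp, hc h (by rw [htr]; norm_num)]
    rfl
  have hgen : ∀ f : SL(2, ℤ) →* Multiplicative A, f ModularGroup.T = 1 →
      ∀ g ∈ Gamma0 N, f g = 1 := fun f hT g _ => SL2Z_hom_eq_one_of_T f hT g
  have key := prod_hecke_eq_pow_card_of_mem (ι := mapGL ℝ) mapGL_injective (alphaGL N r l u v huv)
    Gamma_le_Gamma0 φ hφ (alpha_central hl huv) (heckeRep r) (aFun hrN l u v huv)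
    (fun x => ⟨betaFun N r x, betaFun_mem x⟩) (heckeRep_eq hrN huv hlr)
    (fun x x' h hh => rep_distinct r hh) heckeRep_level_one
    ModularGroup.T T_mem_Gamma0 hU hgen (g : SL(2, ℤ)) g.2
    (MulAction.toPerm (redMatrix r (g : SL(2, ℤ)))) (fun x => stepG hrN g x)
    (fun x => stepSL_rel hrN g x)
  have key2 := congrArg Multiplicative.toAdd key
  rw [toAdd_prod, toAdd_pow, card_onePoint] at key2
  rw [heckeHom_apply]
  exact key2

/-- the same as an identity of homomorphisms. -/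
theorem heckeHom_eq (hrN : ¬ r ∣ N) {lam : ℤ} (hlam : lam ^ 2 ≡ (r : ℤ) [ZMOD N])
    {A : Type*} [AddCommGroup A]
    (c : Additive (Gamma0 N) →+ A) (hc : IsParabolicHom (Gamma0 N) c)
    (hA : ∀ (x : SL(2, ℤ)) (k : Gamma0 N), (k : SL(2, ℤ)) ∈ Gamma N →
      ∀ h : x * k * x⁻¹ ∈ Gamma0 N, c (Additive.ofMul ⟨x * k * x⁻¹, h⟩) = c (Additive.ofMul k)) :
    heckeHom hrN A c = (r + 1) • c := by
  ext g
  exact heckeHom_apply_eq hrN hlam c hc hA (Additive.toMul g)

end Fermat.Agent.S41.Menn.TransferSL2G
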