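/-
S41 / Menn: from "kills the INTEGRAL unipotents" to "kills ALL unipotents of `Γ₀(N)(ℤ[1/q])`".

If `Φ` is multiplicative on `G = GG q hq N`, trivial on the unipotent elements of `G` with integer
entries (the parabolic elements of `Γ₀(N) ⊂ SL₂(ℤ)`), and the target has no `q`-torsion, then `Φ` is
trivial on every unipotent element of `G`: for unipotent `g`, `g ^ m = 1 + m (g - 1)` entrywise, and
`g ^ (q ^ k)` is integral for `k` large.  Hence `IsParHom q hq N Φ`.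
-/
import Fermat.Agent.S41.Menn.ParHom

set_option autoImplicit false
set_option linter.unusedSectionVars false
set_option linter.unusedVariables false

namespace Fermat.Agent.S41.Menn.UnipKill

open Matrix Fermat.Agent.S41.Menn

/-- entries of the powers of a unipotent element: `g ^ m = m • g - (m - 1) • 1`. -/
theorem pow_entries {g : SLQ} (hu : IsUnip g) (m : ℕ) :
    (g ^ m).1 0 0 = m * g.1 0 0 - (m - 1) ∧ (g ^ m).1 0 1 = m * g.1 0 1 ∧
    (g ^ m).1 1 0 = m * g.1 1 0 ∧ (g ^ m).1 1 1 = m * g.1 1 1 - (m - 1) := by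
  unfold IsUnip at hu
  have hd := det_eq g
  have h11 : g.1 1 1 = 2 - g.1 0 0 := by linarith
  induction m with
  | zero => simp
  | succ m ih =>
    obtain ⟨i0, i1, i2, i3⟩ := ih
    rw [pow_succ]
    refine ⟨?_, ?_, ?_, ?_⟩
    · rw [mul_00, i0, i1]; push_cast
      rw [h11] at hd
      linear_combination (-(m : ℚ)) * hd
    · rw [mul_01, i0, i1]; push_cast
      rw [h11]; ring
    · rw [mul_10, i2, i3]; push_cast
      rw [h11]; ring
    · rw [mul_11, i2, i3]; push_cast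
      rw [h11] at hd ⊢
      linear_combination (-(m : ℚ)) * hd

theorem isUnip_pow {g : SLQ} (hu : IsUnip g) (m : ℕ) : IsUnip (g ^ m) := by
  obtain ⟨i0, -, -, i3⟩ := pow_entries hu m
  unfold IsUnip at hu ⊢
  rw [i0, i3]
  linear_combination (m : ℚ) * hu

/-- an element of `ℤ[1/q]` becomes an integer after multiplication by a large power of `q`. -/
theorem exists_int_of_AQm {q : ℕ} (hq : 0 < q) {M : ℤ} {x : ℚ} (hx : AQm q M x) :
    ∃ k : ℕ, ∀ K : ℕ, k ≤ K → ∃ z : ℤ, ((q : ℚ) ^ K) * x = ((M * z : ℤ) : ℚ) := by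
  obtain ⟨n, k, rfl⟩ := hx
  refine ⟨k, fun K hK => ⟨n * (q : ℤ) ^ (K - k), ?_⟩⟩
  have hqk : ((q : ℚ) ^ k) ≠ 0 := qpow_ne hq k
  obtain ⟨d, rfl⟩ := Nat.exists_eq_add_of_le hK
  rw [Nat.add_sub_cancel_left]
  push_cast
  rw [pow_add]
  field_simp

variable {B : Type*} [CommGroup B]

theorem map_pow_of_mul {q : ℕ} {hq : 0 < q} {N : ℤ} {Φ : SLQ → B}
    (hmul : ∀ g h, g ∈ GG q hq N → h ∈ GG q hq N → Φ (g * h) = Φ g * Φ h)
    {g : SLQ} (hg : g ∈ GG q hq N) (m : ℕ) : Φ (g ^ (m + 1)) = Φ g ^ (m + 1) := by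
  induction m with
  | zero => simp
  | succ m ih =>
    rw [pow_succ, hmul _ _ (Subgroup.pow_mem _ hg _) hg, ih, ← pow_succ]

theorem eq_one_of_pow_q_pow_eq_one {q : ℕ} (htors : ∀ b : B, b ^ q = 1 → b = 1) (b : B) (k : ℕ)
    (h : b ^ (q ^ k) = 1) : b = 1 := by
  induction k generalizing b with
  | zero => simpa using h
  | succ k ih =>
    apply ih
    apply htors
    rw [← pow_mul, ← pow_succ]; exact h

/-- **Main statement.**  Multiplicative on `G`, trivial on integral unipotents of `G`, no `q`-torsion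
in the target  ⟹  `IsParHom`. -/
theorem isParHom_of_integral {q : ℕ} (hq : 0 < q) {N : ℤ} {Φ : SLQ → B}
    (hmul : ∀ g h, g ∈ GG q hq N → h ∈ GG q hq N → Φ (g * h) = Φ g * Φ h)
    (hint : ∀ g, g ∈ GG q hq N → IsUnip g →
      (∃ a b c d : ℤ, g.1 0 0 = a ∧ g.1 0 1 = b ∧ g.1 1 0 = ((N * c : ℤ) : ℚ) ∧ g.1 1 1 = d) →
      Φ g = 1)
    (htors : ∀ b : B, b ^ q = 1 → b = 1) : IsParHom q hq N Φ := by
  refine ⟨hmul, ?_⟩
  intro g hg hu
  obtain ⟨g0, g1, g2, g3⟩ := hg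
  obtain ⟨k0, h0⟩ := exists_int_of_AQm hq g0
  obtain ⟨k1, h1⟩ := exists_int_of_AQm hq g1
  obtain ⟨k2, h2⟩ := exists_int_of_AQm hq g2
  obtain ⟨k3, h3⟩ := exists_int_of_AQm hq g3
  set K : ℕ := k0 + k1 + k2 + k3 with hK
  obtain ⟨z0, e0⟩ := h0 K (by omega)
  obtain ⟨z1, e1⟩ := h1 K (by omega)
  obtain ⟨z2, e2⟩ := h2 K (by omega)
  obtain ⟨z3, e3⟩ := h3 K (by omega)
  have hgG : g ∈ GG q hq N := ⟨g0, g1, g2, g3⟩
  have hm : 0 < q ^ K := pow_pos hq K
  obtain ⟨m, hmK⟩ : ∃ m, q ^ K = m + 1 := ⟨q ^ K - 1, by omega⟩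
  obtain ⟨p0, p1, p2, p3⟩ := pow_entries hu (q ^ K)
  have hcast : ((q ^ K : ℕ) : ℚ) = (q : ℚ) ^ K := by push_cast; rfl
  have hone : Φ (g ^ (q ^ K)) = 1 := by
    apply hint _ (Subgroup.pow_mem _ hgG _) (isUnip_pow hu _)
    refine ⟨1 * z0 - ((q : ℤ) ^ K - 1), 1 * z1, z2, 1 * z3 - ((q : ℤ) ^ K - 1), ?_, ?_, ?_, ?_⟩
    · rw [p0, hcast, e0]; push_cast; ring
    · rw [p1, hcast, e1]
    · rw [p2, hcast, e2]
    · rw [p3, hcast, e3]; push_cast; ring
  have hpow : Φ g ^ (q ^ K) = 1 := by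
    rw [hmK, ← map_pow_of_mul hmul hgG m, ← hmK]; exact hone
  exact eq_one_of_pow_q_pow_eq_one htors _ K hpow

end Fermat.Agent.S41.Menn.UnipKill
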